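import Mathlib

/-!
In a Kummer extension `K(c^{1/p})` a degree one prime at which `c` is a `p`-th power has `p`
primes of the same norm above it.
-/

set_option autoImplicit false

noncomputable section

open NumberField IsDedekindDomain Polynomial
open scoped Classical

namespace FLTAgent.ExtVanishing

variable {K : Type} [Field K] [NumberField K] {p : ℕ} [hp : Fact p.Prime]

/-- Powers of `ζ` stay distinct modulo a prime not over `p`. -/
lemma eq_of_zeta_pow_sub_mem {ζ : 𝓞 K} (hζ : IsPrimitiveRoot ζ p) {I : Ideal (𝓞 K)}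
    (hI : I.IsPrime) (hpI : (p : 𝓞 K) ∉ I) {a b : ℕ} (ha : a < p) (hb : b < p)
    (h : ζ ^ a - ζ ^ b ∈ I) : a = b := by
  wlog hab : a ≤ b generalizing a b
  · exact (this hb ha (by simpa using I.neg_mem h) (le_of_not_ge hab)).symm
  by_contra hne
  obtain ⟨k, hk⟩ := Nat.exists_eq_add_of_le hab
  have hk0 : 0 < k := by omega
  have hk1 : k < p := by omega
  have h1 : 1 - ζ ^ k ∈ I := by
    rw [hk, pow_add, show ζ ^ a - ζ ^ a * ζ ^ k = ζ ^ a * (1 - ζ ^ k) by ring] at h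
    exact (hI.mem_or_mem h).resolve_left fun h' ↦
      hI.ne_top (I.eq_top_of_isUnit_mem h' ((hζ.isUnit hp.out.ne_zero).pow a))
  apply hpI
  have hprod := IsPrimitiveRoot.prod_one_sub_pow_eq_order (n := p - 1) (μ := ζ)
    (by rwa [Nat.sub_add_cancel hp.out.one_le])
  rw [← Nat.cast_add_one, Nat.sub_add_cancel hp.out.one_le] at hprod
  rw [← hprod, ← Finset.mul_prod_erase _ _ (Finset.mem_range.mpr (by omega : k - 1 < p - 1)),
    Nat.sub_add_cancel hk0]
  exact I.mul_mem_right _ h1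

/-- Splitting of a degree one prime in a Kummer extension: the primes are indexed by `Fin p`. -/
theorem exists_primes_above (K' : Type) [Field K'] [NumberField K'] [Algebra K K']
    (hdeg : Module.finrank K K' = p) {ζ c z : 𝓞 K} {y : 𝓞 K'} (hζ : IsPrimitiveRoot ζ p)
    (hy : y ^ p = algebraMap (𝓞 K) (𝓞 K') c)
    (haut : ∀ j : ℕ, ∃ σ : K' ≃ₐ[K] K', σ (y : K') = algebraMap K K' (ζ : K) ^ j * (y : K'))
    (v : HeightOneSpectrum (𝓞 K)) (hℓ : (Ideal.absNorm v.asIdeal).Prime)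
    (hpv : (p : 𝓞 K) ∉ v.asIdeal) (hcv : c ∉ v.asIdeal) (hz : c - z ^ p ∈ v.asIdeal) :
    ∃ w : Fin p → HeightOneSpectrum (𝓞 K'), Function.Injective w ∧
      ∀ i, (w i).asIdeal.under (𝓞 K) = v.asIdeal ∧
        Ideal.absNorm (w i).asIdeal = Ideal.absNorm v.asIdeal := by
  set f := algebraMap (𝓞 K) (𝓞 K')
  haveI := v.isPrime
  obtain ⟨⟨P₀, hP₀, hP₀v⟩⟩ := v.asIdeal.nonempty_primesOver (S := 𝓞 K')
  have hP₀0 : P₀ ≠ ⊥ := Ideal.ne_bot_of_liesOver_of_ne_bot v.ne_bot P₀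
  have hmem : ∀ x : 𝓞 K, x ∈ v.asIdeal ↔ f x ∈ P₀ := fun x ↦ Ideal.mem_of_liesOver P₀ v.asIdeal x
  have hzv : z ∉ v.asIdeal := fun h ↦ hcv (by
    simpa using add_mem hz (v.asIdeal.pow_mem_of_mem h p hp.out.pos))
  -- the product of the `X - ζ^i z`
  have hroot : ∏ i ∈ Finset.range p, (y - f (ζ ^ i * z)) = f (c - z ^ p) := by
    have hζ' : IsPrimitiveRoot (f ζ) p :=
      hζ.map_of_injective (FaithfulSMul.algebraMap_injective _ _)
    have h := X_pow_sub_C_eq_prod hζ' hp.out.pos (α := f z) rfl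
    have := congrArg (Polynomial.eval y) h
    simp only [eval_sub, eval_pow, eval_X, eval_C, eval_prod, hy] at this
    rw [map_sub, map_pow, this]
    exact Finset.prod_congr rfl fun i _ ↦ by simp [mul_comm]
  obtain ⟨i₀, -, hi₀⟩ := Ideal.IsPrime.prod_mem_iff.mp (hroot ▸ (hmem _).mp hz)
  choose σ hσ using haut
  set T : ℕ → (𝓞 K' →+* 𝓞 K') := fun j ↦ RingOfIntegers.mapRingHom (σ j : K' →+* K')
  have hTy : ∀ j, T j y = f ζ ^ j * y := fun j ↦ RingOfIntegers.ext (by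
    rw [RingOfIntegers.coe_eq_algebraMap (x := f ζ ^ j * y), map_mul, map_pow,
      ← IsScalarTower.algebraMap_apply (𝓞 K) (𝓞 K') K', IsScalarTower.algebraMap_apply (𝓞 K) K K']
    exact hσ j)
  have hTf : ∀ j x, T j (f x) = f x := fun j x ↦ RingOfIntegers.ext (by
    change σ j ((f x : 𝓞 K') : K') = _
    rw [RingOfIntegers.coe_eq_algebraMap, ← IsScalarTower.algebraMap_apply (𝓞 K) (𝓞 K') K',
      IsScalarTower.algebraMap_apply (𝓞 K) K K', AlgEquiv.commutes])
  set P : Fin p → Ideal (𝓞 K') := fun j ↦ P₀.comap (T j)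
  have hPv : ∀ j, (P j).under (𝓞 K) = v.asIdeal := fun j ↦ by
    ext x
    rw [Ideal.mem_comap, Ideal.mem_comap, hTf, hmem]
  have hP0 : ∀ j, P j ≠ ⊥ := fun j h ↦ v.ne_bot (by
    have := hPv j
    rw [h] at this
    rw [← this, Ideal.under_def, eq_bot_iff]
    intro x hx
    rw [Ideal.mem_comap, Ideal.mem_bot] at hx
    exact (map_eq_zero_iff f (FaithfulSMul.algebraMap_injective _ _)).mp hx)
  let w : Fin p → HeightOneSpectrum (𝓞 K') := fun j ↦ ⟨P j, Ideal.comap_isPrime _ _, hP0 j⟩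
  have hinj : Function.Injective w := by
    intro a b hab
    have hPab : P a = P b := congrArg HeightOneSpectrum.asIdeal hab
    have hval : ∀ j : Fin p, T j y - f (ζ ^ ((j : ℕ) + i₀) * z) ∈ P₀ := fun j ↦ by
      have h := P₀.mul_mem_left (f ζ ^ (j : ℕ)) hi₀
      rw [mul_sub, ← hTy, ← map_pow, ← map_mul, ← mul_assoc, ← pow_add] at h
      exact h
    have ha : y - f (ζ ^ ((a : ℕ) + i₀) * z) ∈ P b := by
      rw [← hPab, Ideal.mem_comap, map_sub, hTf]
      exact hval a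
    rw [Ideal.mem_comap, map_sub, hTf] at ha
    have h2 := sub_mem (hval b) ha
    rw [sub_sub_sub_cancel_left, ← map_sub, ← hmem, ← sub_mul] at h2
    have h3 := (v.isPrime.mem_or_mem h2).resolve_right hzv
    rw [pow_add, pow_add, ← sub_mul] at h3
    have h4 := (v.isPrime.mem_or_mem h3).resolve_right fun h' ↦
      v.isPrime.ne_top (v.asIdeal.eq_top_of_isUnit_mem h' ((hζ.isUnit hp.out.ne_zero).pow i₀))
    exact Fin.ext (eq_of_zeta_pow_sub_mem hζ v.isPrime hpv a.2 b.2 h4)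
  -- the norms
  refine ⟨w, hinj, fun j ↦ ⟨hPv j, ?_⟩⟩
  set ℓ := Ideal.absNorm v.asIdeal
  have hdvd : ∀ j, ℓ ∣ Ideal.absNorm (w j).asIdeal ∧ (w j).asIdeal ∣ v.asIdeal.map f := by
    intro j
    refine ⟨?_, Ideal.dvd_iff_le.mpr (Ideal.map_le_iff_le_comap.mpr (hPv j).ge)⟩
    have hl : (ℓ : 𝓞 K') ∈ (w j).asIdeal := by
      have h := Ideal.absNorm_mem v.asIdeal
      have h' : f (ℓ : 𝓞 K) ∈ P j := by
        have h'' : (ℓ : 𝓞 K) ∈ (P j).under (𝓞 K) := by rw [hPv j]; exact h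
        exact Ideal.mem_comap.mp h''
      rwa [map_natCast] at h'
    haveI : NeZero (w j).asIdeal := ⟨(w j).ne_bot⟩
    have hprime := Nat.absNorm_under_prime (w j).asIdeal
    rw [← Int.cast_natCast, Int.cast_mem_ideal_iff, Int.natCast_dvd_natCast] at hl
    rw [← (Nat.prime_dvd_prime_iff_eq hprime hℓ).mp hl]
    exact Int.absNorm_under_dvd_absNorm _
  have htot : ∏ j, Ideal.absNorm (w j).asIdeal ∣ ℓ ^ p := by
    have h : (∏ j, (w j).asIdeal) ∣ v.asIdeal.map f := by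
      have hinj' : Set.InjOn (fun j ↦ (w j).asIdeal) (Finset.univ : Finset (Fin p)) :=
        fun a _ b _ h ↦ hinj (HeightOneSpectrum.ext h)
      rw [← Finset.prod_image (f := fun x : Ideal (𝓞 K') ↦ x) hinj']
      refine Finset.prod_primes_dvd _ ?_ ?_ <;> intro x hx <;>
        obtain ⟨j, -, rfl⟩ := Finset.mem_image.mp hx
      · exact (w j).prime
      · exact (hdvd j).2
    have h2 := map_dvd (Ideal.absNorm (S := 𝓞 K')) h
    rw [map_prod, ← Ideal.absNorm_relNorm (𝓞 K) (𝓞 K') (Ideal.map f v.asIdeal),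
      Ideal.relNorm_algebraMap (S := 𝓞 K') v.asIdeal, map_pow] at h2
    have hr : Module.finrank (𝓞 K) (𝓞 K') = p := by
      rw [← hdeg]
      exact (IsFractionRing.finrank_eq (𝓞 K) K (𝓞 K') K').symm
    rwa [hr] at h2
  obtain ⟨m, hm⟩ := (hdvd j).1
  have hrest : ℓ ^ (p - 1) ∣ ∏ i ∈ Finset.univ.erase j, Ideal.absNorm (w i).asIdeal := by
    have h : ∏ _i ∈ Finset.univ.erase j, ℓ ∣ ∏ i ∈ Finset.univ.erase j, Ideal.absNorm (w i).asIdeal :=
      Finset.prod_dvd_prod_of_dvd _ _ fun i _ ↦ (hdvd i).1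
    simpa using h
  rw [← Finset.mul_prod_erase _ _ (Finset.mem_univ j), hm] at htot
  have h4 : ℓ * m * ℓ ^ (p - 1) ∣ ℓ ^ p := (Nat.mul_dvd_mul_left _ hrest).trans htot
  rw [mul_right_comm, ← pow_succ', Nat.sub_add_cancel hp.out.one_le] at h4
  have hm1 : m = 1 := Nat.dvd_one.mp
    (Nat.dvd_of_mul_dvd_mul_left (pow_pos hℓ.pos p) (h4.trans (mul_one _).symm.dvd))
  rw [hm, hm1, mul_one]

end FLTAgent.ExtVanishing

end
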