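import Fermat.Agent.ExtVanishing.Thaine
import Fermat.Agent.ExtVanishing.KummerPrimes

/-!
Primes in an extension of prime degree `p`: totally ramified and totally split primes.
-/

set_option autoImplicit false

noncomputable section

open NumberField UniqueFactorizationMonoid
open scoped Classical

namespace FLTAgent.ExtVanishing

variable {K L : Type} [Field K] [NumberField K] [Field L] [NumberField L] [Algebra K L]

lemma absNorm_map_eq {n : ℕ} (hdeg : Module.finrank K L = n) (Q : Ideal (𝓞 K)) :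
    Ideal.absNorm (Q.map (algebraMap (𝓞 K) (𝓞 L))) = Ideal.absNorm Q ^ n := by
  have hr : Module.finrank (𝓞 K) (𝓞 L) = n := by
    rw [← hdeg]
    exact (IsFractionRing.finrank_eq (𝓞 K) K (𝓞 L) L).symm
  rw [← Ideal.absNorm_relNorm (𝓞 K) (𝓞 L) (Q.map (algebraMap (𝓞 K) (𝓞 L))),
    Ideal.relNorm_algebraMap (S := 𝓞 L) Q, map_pow, hr]

lemma absNorm_ne_zero' {Q : Ideal (𝓞 K)} (hQ : Q ≠ ⊥) : Ideal.absNorm Q ≠ 0 := by
  rwa [Ne, Ideal.absNorm_eq_zero_iff]

lemma absNorm_dvd_of_under_eq {Q : Ideal (𝓞 K)} {P : Ideal (𝓞 L)}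
    (h : P.under (𝓞 K) = Q) : Ideal.absNorm Q ∣ Ideal.absNorm P := by
  rw [Ideal.absNorm_apply, Ideal.absNorm_apply, Submodule.cardQuot_apply, Submodule.cardQuot_apply]
  subst h
  exact AddSubgroup.card_dvd_of_injective
    (Ideal.quotientMap P (algebraMap (𝓞 K) (𝓞 L)) le_rfl).toAddMonoidHom
    Ideal.quotientMap_injective

lemma map_le_of_under_eq {Q : Ideal (𝓞 K)} {P : Ideal (𝓞 L)} (h : P.under (𝓞 K) = Q) :
    P ∣ Q.map (algebraMap (𝓞 K) (𝓞 L)) :=
  Ideal.dvd_iff_le.mpr (Ideal.map_le_iff_le_comap.mpr h.ge)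

lemma residue_surjective_of_absNorm_eq {Q : Ideal (𝓞 K)} (hQ : Q ≠ ⊥) {P : Ideal (𝓞 L)}
    (hle : ∀ x : 𝓞 K, algebraMap (𝓞 K) (𝓞 L) x ∈ P → x ∈ Q)
    (hge : ∀ x ∈ Q, algebraMap (𝓞 K) (𝓞 L) x ∈ P)
    (hN : Ideal.absNorm P = Ideal.absNorm Q) (x : 𝓞 L) :
    ∃ z : 𝓞 K, x - algebraMap (𝓞 K) (𝓞 L) z ∈ P := by
  have hQP : Q = P.under (𝓞 K) := le_antisymm (fun x hx ↦ hge x hx) (fun x hx ↦ hle x hx)
  subst hQP
  set f := Ideal.quotientMap P (algebraMap (𝓞 K) (𝓞 L)) (le_refl (P.under (𝓞 K)))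
  have hcard : Nat.card (𝓞 K ⧸ P.under (𝓞 K)) = Nat.card (𝓞 L ⧸ P) := by
    rw [Ideal.absNorm_apply, Ideal.absNorm_apply, Submodule.cardQuot_apply,
      Submodule.cardQuot_apply] at hN
    exact hN.symm
  have h0 : Nat.card (𝓞 K ⧸ P.under (𝓞 K)) ≠ 0 := by
    have := absNorm_ne_zero' hQ
    rwa [Ideal.absNorm_apply, Submodule.cardQuot_apply] at this
  haveI : Finite (𝓞 L ⧸ P) := Nat.finite_of_card_ne_zero (hcard ▸ h0)
  obtain ⟨q, hq⟩ := ((Nat.bijective_iff_injective_and_card f).mpr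
    ⟨Ideal.quotientMap_injective, hcard⟩).2 (Ideal.Quotient.mk P x)
  obtain ⟨z, rfl⟩ := Ideal.Quotient.mk_surjective q
  refine ⟨z, ?_⟩
  rw [← Ideal.Quotient.eq, ← hq]
  rfl

variable {p : ℕ} [hp : Fact p.Prime] (hdeg : Module.finrank K L = p)
include hdeg

/-- Where the radicand has order prime to `p`, the prime is totally ramified. -/
theorem totally_ramified {y : 𝓞 L} {α : 𝓞 K} (hy : y ^ p = algebraMap (𝓞 K) (𝓞 L) α)
    (hα : α ≠ 0) (P : Ideal (𝓞 L)) [P.IsPrime] (hP : P ≠ ⊥)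
    (hnd : ¬ p ∣ ordAt (P.under (𝓞 K)) α) :
    (∀ P' : Ideal (𝓞 L), P'.IsPrime → P'.under (𝓞 K) = P.under (𝓞 K) → P' = P) ∧
      ∀ x : 𝓞 L, ∃ z : 𝓞 K, x - algebraMap (𝓞 K) (𝓞 L) z ∈ P := by
  set Q := P.under (𝓞 K)
  have hQ : Q ≠ ⊥ := Ideal.under_ne_bot _ hP
  have hQ' : Q.IsPrime := Ideal.IsPrime.under _ _
  have hinj : Function.Injective (algebraMap (𝓞 K) (𝓞 L)) := FaithfulSMul.algebraMap_injective _ _
  have hmap : Q.map (algebraMap (𝓞 K) (𝓞 L)) ≠ ⊥ :=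
    (Ideal.map_eq_bot_iff_of_injective hinj).not.mpr hQ
  have hdvd : p ∣ P.ramificationIdx (𝓞 K) := by
    have h := ordAt_algebraMap P hP hα
    rw [← hy, ordAt_pow] at h
    exact (hp.out.dvd_mul.mp ⟨_, h.symm⟩).resolve_right hnd
  have he : P ^ p ∣ Q.map (algebraMap (𝓞 K) (𝓞 L)) := by
    haveI : P.LiesOver Q := Ideal.over_under P
    haveI : Module.Finite (𝓞 K) (𝓞 L) := IsIntegralClosure.finite (𝓞 K) K L (𝓞 L)
    have hpos := P.ramificationIdx_pos (𝓞 K)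
    refine (pow_dvd_pow P (Nat.le_of_dvd hpos hdvd)).trans ?_
    rw [Ideal.IsDedekindDomain.ramificationIdx_eq_normalizedFactors_count Q P hmap]
    conv_rhs => rw [← _root_.prod_normalizedFactors_eq_self hmap]
    rw [← Multiset.prod_replicate]
    exact Multiset.prod_dvd_prod_of_le (Multiset.le_count_iff_replicate_le.mp le_rfl)
  obtain ⟨R, hR⟩ := he
  have hN := congrArg (Ideal.absNorm (S := 𝓞 L)) hR
  rw [absNorm_map_eq hdeg, map_mul, map_pow] at hN
  obtain ⟨m, hm⟩ := absNorm_dvd_of_under_eq (P := P) (Q := Q) rfl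
  rw [hm, mul_pow, mul_assoc] at hN
  have h1 := (Nat.eq_of_mul_eq_mul_left (pow_pos (Nat.pos_of_ne_zero (absNorm_ne_zero' hQ)) p)
    ((mul_one _).trans hN)).symm
  have hm1 : m = 1 :=
    (Nat.pow_eq_one.mp (Nat.eq_one_of_mul_eq_one_right h1)).resolve_right hp.out.ne_zero
  have hR1 : R = ⊤ := Ideal.absNorm_eq_one_iff.mp (Nat.eq_one_of_mul_eq_one_left h1)
  rw [hR1, Ideal.mul_top] at hR
  refine ⟨fun P' hP' hu ↦ ?_, fun x ↦ residue_surjective_of_absNorm_eq (P := P) (Q := Q) hQ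
    (fun z hz ↦ hz) (fun z hz ↦ hz) (by rw [hm, hm1, mul_one]) x⟩
  have h' := Ideal.dvd_iff_le.mp (map_le_of_under_eq hu)
  rw [hR] at h'
  exact ((‹P.IsPrime›.isMaximal hP).eq_of_le hP'.ne_top (hP'.le_of_pow_le h')).symm

/-- A prime with `p` primes above it is totally split. -/
theorem totally_split (Q : Ideal (𝓞 K)) [Q.IsPrime] (hQ : Q ≠ ⊥) (P : Fin p → Ideal (𝓞 L))
    (hPp : ∀ i, (P i).IsPrime) (hPQ : ∀ i, (P i).under (𝓞 K) = Q) (hinj : Function.Injective P)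
    (i : Fin p) :
    (P i).ramificationIdx (𝓞 K) = 1 ∧ Ideal.absNorm (P i) = Ideal.absNorm Q := by
  have hinj' : Function.Injective (algebraMap (𝓞 K) (𝓞 L)) := FaithfulSMul.algebraMap_injective _ _
  have hmap : Q.map (algebraMap (𝓞 K) (𝓞 L)) ≠ ⊥ :=
    (Ideal.map_eq_bot_iff_of_injective hinj').not.mpr hQ
  have hP0 : ∀ j, P j ≠ ⊥ := fun j h ↦ hmap (le_bot_iff.mp
    (h ▸ Ideal.dvd_iff_le.mp (map_le_of_under_eq (hPQ j))))
  have hprime : ∀ j, Prime (P j) := fun j ↦ by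
    haveI := hPp j
    exact Ideal.prime_of_isPrime (hP0 j) inferInstance
  have hprod : (∏ j, P j) ∣ Q.map (algebraMap (𝓞 K) (𝓞 L)) := by
    rw [← Finset.prod_image (f := fun x : Ideal (𝓞 L) ↦ x) hinj.injOn]
    refine Finset.prod_primes_dvd _ ?_ ?_ <;> intro x hx <;>
      obtain ⟨j, -, rfl⟩ := Finset.mem_image.mp hx
    · exact hprime j
    · exact map_le_of_under_eq (hPQ j)
  obtain ⟨R, hR⟩ := hprod
  have hN := congrArg (Ideal.absNorm (S := 𝓞 L)) hR
  rw [absNorm_map_eq hdeg, map_mul, map_prod] at hN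
  choose m hm using fun j ↦ absNorm_dvd_of_under_eq (hPQ j)
  rw [Finset.prod_congr rfl (fun j _ ↦ hm j), Finset.prod_mul_distrib, Finset.prod_const,
    Finset.card_univ, Fintype.card_fin, mul_assoc] at hN
  have h1 := (Nat.eq_of_mul_eq_mul_left (pow_pos (Nat.pos_of_ne_zero (absNorm_ne_zero' hQ)) p)
    ((mul_one _).trans hN)).symm
  have hm1 : m i = 1 :=
    Finset.prod_eq_one_iff.mp (Nat.eq_one_of_mul_eq_one_right h1) i (Finset.mem_univ i)
  have hR1 : R = ⊤ := Ideal.absNorm_eq_one_iff.mp (Nat.eq_one_of_mul_eq_one_left h1)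
  rw [hR1, Ideal.mul_top] at hR
  refine ⟨?_, by rw [hm i, hm1, mul_one]⟩
  haveI := hPp i
  haveI : (P i).LiesOver Q := ⟨(hPQ i).symm⟩
  rw [Ideal.IsDedekindDomain.ramificationIdx_eq_normalizedFactors_count Q (P i) hmap, hR]
  have hnf : ∀ s : Finset (Fin p), (normalizedFactors (∏ j ∈ s, P j)) = s.val.map P := by
    intro s
    induction s using Finset.induction with
    | empty => rw [Finset.prod_empty, normalizedFactors_one]; rfl
    | @insert a s ha ih =>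
      rw [Finset.prod_insert ha, normalizedFactors_mul (hprime a).ne_zero
        (Finset.prod_ne_zero_iff.mpr fun j _ ↦ (hprime j).ne_zero), ih,
        normalizedFactors_irreducible (hprime a).irreducible, normalize_eq,
        Finset.insert_val_of_notMem ha, Multiset.map_cons, Multiset.singleton_add]
  rw [hnf, Multiset.count_map_eq_count' _ _ hinj]
  exact Multiset.count_eq_one_of_mem Finset.univ.nodup (Finset.mem_univ i)

end FLTAgent.ExtVanishing

end
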