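import Fermat.Agent.Frobenius.Exists
import Fermat.Prelude.Def_FLTPrelim_Ramification

/-!
Decomposition and inertia at a place of `ℚ̄`, relative to a subfield: transitivity and lifting.
-/

set_option autoImplicit false

noncomputable section

open scoped Pointwise
open NumberField FLTAgent.Frobenius

namespace FLTAgent.ExtVanishing

local notation "QQb" => AlgebraicClosure ℚ
local notation "GG" => (AlgebraicClosure ℚ ≃ₐ[ℚ] AlgebraicClosure ℚ)
local notation "ZB" => integralClosure ℤ (AlgebraicClosure ℚ)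

variable (A : ValuationSubring (AlgebraicClosure ℚ))

/-- Fixing the centre means fixing the place. -/
lemma mem_decomposition_of_fix {σ : GG} (hσ : ∀ b : ZB, σ • b ∈ centre A ↔ b ∈ centre A) :
    σ ∈ A.decompositionSubgroup ℚ := by
  have key : ∀ (τ : GG), (∀ b : ZB, τ • b ∈ centre A ↔ b ∈ centre A) → ∀ x ∈ A, τ x ∈ A := by
    intro τ hτ x hx
    obtain ⟨s, b, hs, hsb⟩ := exists_mul_eq A hx
    have hs' : τ • s ∉ centre A := fun h ↦ hs ((hτ s).mp h)
    rw [mem_centre_iff] at hs'
    have hmul : ((τ • s : ZB) : QQb) * τ x = ((τ • b : ZB) : QQb) := by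
      rw [integralClosure.coe_smul, integralClosure.coe_smul]
      change τ (s : QQb) * τ x = τ (b : QQb)
      rw [← map_mul, hsb]
    have hne : ((τ • s : ZB) : QQb) ≠ 0 := fun h ↦ hs' (by rw [h]; simp [ValuationSubring.mem_nonunits_iff])
    have hinv : ((τ • s : ZB) : QQb)⁻¹ ∈ A := by
      by_contra hn
      exact hs' (by
        rw [ValuationSubring.mem_nonunits_iff]
        by_contra hlt
        exact hn (A.valuation_le_one_iff _ |>.mp (by
          rw [map_inv₀]; exact inv_le_one_of_one_le₀ (not_lt.mp hlt))))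
    rw [show τ x = ((τ • s : ZB) : QQb)⁻¹ * ((τ • b : ZB) : QQb) by rw [← hmul, inv_mul_cancel_left₀ hne]]
    exact mul_mem hinv (integralClosure_le A _)
  have hinv : ∀ b : ZB, σ⁻¹ • b ∈ centre A ↔ b ∈ centre A := fun b ↦ by
    conv_rhs => rw [← smul_inv_smul σ b, hσ]
  refine MulAction.mem_stabilizer_iff.mpr (SetLike.ext fun y ↦ ?_)
  rw [ValuationSubring.mem_pointwise_smul_iff_inv_smul_mem]
  refine ⟨fun h ↦ ?_, fun h ↦ key _ hinv y h⟩
  have := key σ hσ _ h
  rwa [← AlgEquiv.smul_def, smul_inv_smul] at this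

/-- An element congruent to the identity modulo the centre is in inertia. -/
lemma mem_inertia_of_congr {σ : GG} (hc : ∀ b : ZB, σ • b - b ∈ centre A) :
    σ ∈ A.inertiaSubgroupIn ℚ := by
  have hfix : ∀ b : ZB, σ • b ∈ centre A ↔ b ∈ centre A := fun b ↦
    ⟨fun h ↦ by simpa using sub_mem h (hc b), fun h ↦ by simpa using add_mem (hc b) h⟩
  have hdec := mem_decomposition_of_fix A hfix
  refine ⟨⟨σ, hdec⟩, ?_, rfl⟩
  rw [SetLike.mem_coe, ValuationSubring.inertiaSubgroup, MonoidHom.mem_ker]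
  refine RingEquiv.ext fun z ↦ ?_
  obtain ⟨⟨x, hx⟩, rfl⟩ := IsLocalRing.residue_surjective z
  change (⟨σ, hdec⟩ : A.decompositionSubgroup ℚ) • IsLocalRing.residue A _ = _
  rw [← IsLocalRing.ResidueField.residue_smul, RingAut.one_apply, ← sub_eq_zero, ← map_sub,
    IsLocalRing.residue_eq_zero_iff]
  obtain ⟨s, b, hs, hsb⟩ := exists_mul_eq A hx
  let ι := (ZB).val.toRingHom.codRestrict A.toSubring (integralClosure_le A)
  have hu : IsUnit (ι (σ • s)) := by
    by_contra h
    exact hs ((hfix s).mp h)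
  refine (Ideal.unit_mul_mem_iff_mem _ hu).mp ?_
  have e1 : ι (σ • s) * (((⟨σ, hdec⟩ : A.decompositionSubgroup ℚ) • (⟨x, hx⟩ : A)) - ⟨x, hx⟩) =
      (ι (σ • b) - ι b) - (ι (σ • s) - ι s) * ⟨x, hx⟩ := by
    have hb : ι b = ι s * ⟨x, hx⟩ := Subtype.ext hsb.symm
    have hb' : ι (σ • b) = ι (σ • s) * ((⟨σ, hdec⟩ : A.decompositionSubgroup ℚ) • (⟨x, hx⟩ : A)) := by
      refine Subtype.ext ?_
      change σ (b : QQb) = σ (s : QQb) * σ x
      rw [← map_mul, hsb]
    rw [hb', hb]
    ring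
  rw [e1]
  refine sub_mem ?_ (Ideal.mul_mem_right _ _ ?_) <;> rw [← map_sub] <;> exact hc _

section Relative

variable (L : Type) [Field L] [NumberField L] (j : L →+* AlgebraicClosure ℚ)

/-- The embedding of the integers. -/
def intEmb : 𝓞 L →+* ZB :=
  RingHom.codRestrict (j.comp (algebraMap (𝓞 L) L)) (ZB).toSubring fun x ↦
    (RingOfIntegers.isIntegral_coe x).map j.toIntAlgHom

lemma coe_intEmb (x : 𝓞 L) : ((intEmb L j x : ZB) : QQb) = j (x : L) := rfl

/-- The prime of `L` at the place. -/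
def primeAt : Ideal (𝓞 L) := (centre A).comap (intEmb L j)

instance primeAt_isPrime : (primeAt A L j).IsPrime := Ideal.IsPrime.comap _

lemma mem_primeAt {x : 𝓞 L} : x ∈ primeAt A L j ↔ intEmb L j x ∈ centre A := Iff.rfl

/-- The automorphisms fixing `L`. -/
def fixL : Subgroup GG := j.toRatAlgHom.fieldRange.fixingSubgroup

lemma mem_fixL {σ : GG} : σ ∈ fixL L j ↔ ∀ x : L, σ (j x) = j x := by
  rw [fixL, IntermediateField.mem_fixingSubgroup_iff]
  exact ⟨fun h x ↦ h _ ⟨x, rfl⟩, fun h y ⟨x, hx⟩ ↦ by rw [← hx]; exact h x⟩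

local instance isAlgebraicQb : Algebra.IsAlgebraic ℚ (AlgebraicClosure ℚ) :=
  AlgebraicClosure.isAlgebraic ℚ

local instance normalQb : Normal ℚ (AlgebraicClosure ℚ) :=
  haveI : IsAlgClosure ℚ (AlgebraicClosure ℚ) := ⟨inferInstance, inferInstance⟩
  IsAlgClosure.normal ℚ _

local instance isGaloisQb : IsGalois ℚ (AlgebraicClosure ℚ) where

local instance topZB : TopologicalSpace ZB := ⊥
local instance discZB : DiscreteTopology ZB := ⟨rfl⟩

abbrev algZB : Algebra (𝓞 L) ZB := (intEmb L j).toAlgebra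

lemma smulComm : letI := algZB L j; SMulCommClass (fixL L j) (𝓞 L) ZB :=
  letI := algZB L j
  ⟨fun g x b ↦ by
  rw [Algebra.smul_def, Algebra.smul_def, smul_mul']
  congr 1
  exact Subtype.ext ((mem_fixL L j).mp g.2 (x : L))⟩

lemma contSMul : ContinuousSMul (fixL L j) ZB := by
  haveI : ContinuousSMul GG ZB := by
    rw [continuousSMul_iff_stabilizer_isOpen]
    intro b
    have : MulAction.stabilizer GG b = MulAction.stabilizer GG (b : QQb) := by
      ext g
      simp only [MulAction.mem_stabilizer_iff, Subtype.ext_iff, integralClosure.coe_smul]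
    rw [this]
    exact stabilizer_isOpen_of_isIntegral (b : QQb)
  exact ⟨(continuous_smul (M := GG) (X := ZB)).comp (continuous_subtype_val.prodMap continuous_id)⟩

lemma invariantL : letI := algZB L j; Algebra.IsInvariant (𝓞 L) ZB (fixL L j) := by
  letI := algZB L j
  refine ⟨fun b hb ↦ ?_⟩
  have hmem : (b : QQb) ∈ IntermediateField.fixedField (fixL L j) := fun g ↦
    congrArg Subtype.val (hb g)
  rw [fixL, InfiniteGalois.fixedField_fixingSubgroup] at hmem
  obtain ⟨x, hx⟩ := hmem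
  have hint : IsIntegral ℤ x :=
    (isIntegral_algHom_iff j.toIntAlgHom j.injective).mp (show IsIntegral ℤ (j x) from hx ▸ b.2)
  exact ⟨⟨x, hint⟩, Subtype.ext hx⟩

/-- Elements of `Gal(ℚ̄/L)` act transitively on the primes over a prime of `L`. -/
theorem exists_fix_of_under_eq {σ : GG}
    (h : ∀ x : 𝓞 L, σ • intEmb L j x ∈ centre A ↔ intEmb L j x ∈ centre A) :
    ∃ τ ∈ fixL L j, ∀ b : ZB, (σ * τ) • b ∈ centre A ↔ b ∈ centre A := by
  letI := algZB L j
  haveI := smulComm L j
  haveI := contSMul L j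
  haveI := invariantL L j
  haveI : CompactSpace (fixL L j) :=
    isCompact_iff_compactSpace.mp (InfiniteGalois.fixingSubgroup_isClosed _).isCompact
  let Q' : Ideal ZB := (centre A).comap (MulSemiringAction.toRingHom GG ZB σ)
  haveI : Q'.IsPrime := Ideal.IsPrime.comap _
  have hu : Q'.under (𝓞 L) = (centre A).under (𝓞 L) := by
    ext x
    exact h x
  obtain ⟨g, hg⟩ := Algebra.IsInvariant.exists_smul_of_under_eq_of_profinite
    (G := fixL L j) (centre A) Q' hu.symm
  refine ⟨g, g.2, fun b ↦ ?_⟩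
  have h1 : (g : GG) • b ∈ Q' ↔ b ∈ centre A := by
    rw [hg]
    exact Ideal.smul_mem_pointwise_smul_iff
  rw [mul_smul]
  exact h1

/-- An element trivial on the residue field of `L` is congruent to one fixing `L`. -/
theorem exists_fix_congr {σ : GG} (hfix : ∀ b : ZB, σ • b ∈ centre A ↔ b ∈ centre A)
    (hres : ∀ x : 𝓞 L, σ • intEmb L j x - intEmb L j x ∈ centre A) :
    ∃ τ ∈ fixL L j, ∀ b : ZB, τ • b - σ • b ∈ centre A := by
  letI := algZB L j
  haveI := smulComm L j
  haveI := contSMul L j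
  haveI := invariantL L j
  haveI : CompactSpace (fixL L j) :=
    isCompact_iff_compactSpace.mp (InfiniteGalois.fixingSubgroup_isClosed _).isCompact
  set P : Ideal (𝓞 L) := (centre A).under (𝓞 L)
  haveI : (centre A).LiesOver P := ⟨rfl⟩
  let φ : ZB ≃+* ZB := MulSemiringAction.toRingEquiv GG ZB σ
  have hmap : centre A = (centre A).map (φ : ZB →+* ZB) := by
    refine le_antisymm (fun b hb ↦ ?_) (Ideal.map_le_iff_le_comap.mpr fun b hb ↦ (hfix b).mpr hb)
    have : σ⁻¹ • b ∈ centre A := (hfix _).mp (by rwa [smul_inv_smul])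
    have h2 := Ideal.mem_map_of_mem (φ : ZB →+* ZB) this
    change σ • (σ⁻¹ • b) ∈ _ at h2
    rwa [smul_inv_smul] at h2
  let e : (ZB ⧸ centre A) ≃ₐ[𝓞 L ⧸ P] (ZB ⧸ centre A) :=
    AlgEquiv.ofRingEquiv (f := Ideal.quotientEquiv (centre A) (centre A) φ hmap) (by
      intro q
      obtain ⟨z, rfl⟩ := Ideal.Quotient.mk_surjective q
      change Ideal.Quotient.mk (centre A) (σ • intEmb L j z) =
        Ideal.Quotient.mk (centre A) (intEmb L j z)
      rw [Ideal.Quotient.eq]
      exact hres z)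
  obtain ⟨⟨g, hg⟩, hge⟩ :=
    Ideal.Quotient.stabilizerHom_surjective_of_profinite (G := fixL L j) P (centre A) e
  refine ⟨g, g.2, fun b ↦ ?_⟩
  have := DFunLike.congr_fun hge (Ideal.Quotient.mk (centre A) b)
  rw [← Ideal.Quotient.eq]
  exact this

end Relative

end FLTAgent.ExtVanishing

end
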