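import Fermat.Agent.ExtVanishing.ClassAnnihilation

/-!
A singular element of `ℚ(ζ_p)` in the `ω²`-eigenspace, locally a `p`-th power at the prime over
`p`, is a `p`-th power.
-/

set_option autoImplicit false

noncomputable section

open NumberField UniqueFactorizationMonoid
open scoped Classical nonZeroDivisors

namespace FLTAgent.ExtVanishing

variable {K : Type} [Field K] [NumberField K]

lemma ideal_pow_injective {n : ℕ} (hn : n ≠ 0) {I J : Ideal (𝓞 K)} (hI : I ≠ 0) (hJ : J ≠ 0)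
    (h : I ^ n = J ^ n) : I = J := by
  rw [← _root_.prod_normalizedFactors_eq_self hI, ← _root_.prod_normalizedFactors_eq_self hJ]
  congr 1
  have h' := congrArg normalizedFactors h
  rw [normalizedFactors_pow, normalizedFactors_pow] at h'
  exact nsmul_right_injective hn h'

/-- An element with all orders divisible by `n` generates the `n`-th power of an ideal. -/
lemma exists_ideal_pow_eq {n : ℕ} {α : 𝓞 K} (hα : α ≠ 0)
    (h : ∀ Q : Ideal (𝓞 K), Q.IsPrime → Q ≠ ⊥ → n ∣ ordAt Q α) :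
    ∃ J : Ideal (𝓞 K), J ≠ 0 ∧ Ideal.span {α} = J ^ n := by
  have h0 : Ideal.span {α} ≠ (0 : Ideal (𝓞 K)) := by simpa using hα
  refine ⟨∏ Q ∈ (normalizedFactors (Ideal.span {α})).toFinset, Q ^ (ordAt Q α / n), ?_, ?_⟩
  · exact Finset.prod_ne_zero_iff.mpr fun Q hQ ↦ pow_ne_zero _
      (prime_of_normalized_factor Q (Multiset.mem_toFinset.mp hQ)).ne_zero
  · conv_lhs => rw [← _root_.prod_normalizedFactors_eq_self h0, Finset.prod_multiset_count]
    rw [← Finset.prod_pow]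
    refine Finset.prod_congr rfl fun Q hQ ↦ ?_
    have hQp := prime_of_normalized_factor Q (Multiset.mem_toFinset.mp hQ)
    rw [← pow_mul, Nat.div_mul_cancel (h Q (Ideal.isPrime_of_prime hQp) hQp.ne_zero)]
    rfl

variable {p : ℕ} [hp : Fact p.Prime] [IsCyclotomicExtension {p} ℚ K]
  {ζ : K} (hζ : IsPrimitiveRoot ζ p)

include hζ

/-- A `p`-torsion class in the eigenspace is trivial. -/
theorem class_eq_one (h5 : 5 ≤ p) {C : ClassGroup (𝓞 K)} (hC : C ^ p = 1)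
    (he : ∀ σ, galCl σ C = C ^ kExp hζ σ) : C = 1 := by
  have hfix : projHom hζ C = C := by
    change projCl hζ C = C
    simp only [projCl, he, ← pow_mul, Finset.prod_pow_eq_pow_sum]
    nth_rw 2 [← pow_one C]
    refine pow_congr_of_pow_eq_one hC ?_
    push_cast
    rw [Finset.sum_congr rfl (g := fun _ ↦ (-1 : ZMod p)) fun σ _ ↦ ?_, Finset.sum_const,
      Finset.card_univ, nsmul_eq_mul, cast_card_gal hζ]
    · ring
    · rw [cast_kExp, cast_aExp, mul_neg, ← mul_pow, Units.mul_inv, one_pow]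
  have hind : ∀ m : ℕ, ∃ D, D ^ p ^ m = C := by
    intro m
    induction m with
    | zero => exact ⟨C, by simp⟩
    | succ m ih =>
      obtain ⟨D, hD⟩ := ih
      obtain ⟨D', hD'⟩ := projHom_mem_pow_range hζ h5 D
      refine ⟨D', ?_⟩
      rw [pow_succ', pow_mul, hD', ← map_pow, hD, hfix]
  obtain ⟨e, m, hm, hN⟩ := Nat.exists_eq_pow_mul_and_not_dvd
    (Fintype.card_ne_zero (α := ClassGroup (𝓞 K))) p hp.out.ne_one
  obtain ⟨D, hD⟩ := hind e
  have h1 : C ^ m = 1 := by rw [← hD, ← pow_mul, ← hN, pow_card_eq_one]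
  have hg : C ^ Nat.gcd p m = 1 := pow_gcd_eq_one.mpr ⟨hC, h1⟩
  rwa [(hp.out.coprime_iff_not_dvd.mpr hm).gcd_eq_one, pow_one] at hg

/-- A unit whose value is a `p`-th power in the field is a `p`-th power of a unit. -/
lemma unit_pow_of_field_pow {u : (𝓞 K)ˣ} {b : K} (hb : b ^ p = ((u : 𝓞 K) : K)) :
    ∃ w : (𝓞 K)ˣ, w ^ p = u := by
  have hint : IsIntegral ℤ b := IsIntegral.of_pow hp.out.pos (hb ▸ (u : 𝓞 K).2)
  set B : 𝓞 K := IsIntegralClosure.mk' (𝓞 K) b hint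
  have hBb : algebraMap (𝓞 K) K B = b := IsIntegralClosure.algebraMap_mk' _ _ _
  have hB : B ^ p = (u : 𝓞 K) := RingOfIntegers.ext (by
    rw [RingOfIntegers.coe_eq_algebraMap, map_pow, hBb]; exact hb)
  have hu : IsUnit B := (isUnit_pow_iff hp.out.ne_zero).mp (hB ▸ u.isUnit)
  exact ⟨hu.unit, Units.ext (by rw [Units.val_pow_eq_pow_val, hu.unit_spec, hB])⟩

/-- The main arithmetic statement for `p ≥ 5`. -/
theorem exists_pow_eq_of_eigen (h5 : 5 ≤ p) {α : 𝓞 K} (hlam : α ∉ lam hζ)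
    (hloc : ∃ z : 𝓞 K, α - z ^ p ∈ lam hζ ^ 3)
    (hdiv : ∀ Q : Ideal (𝓞 K), Q.IsPrime → Q ≠ ⊥ → p ∣ ordAt Q α)
    (heig : ∀ σ : K ≃ₐ[ℚ] K, ∃ a b : 𝓞 K, a ≠ 0 ∧
      galRing σ α * a ^ p = α ^ kExp hζ σ * b ^ p) :
    ∃ β : 𝓞 K, α = β ^ p := by
  have hα : α ≠ 0 := fun h ↦ hlam (h ▸ zero_mem _)
  obtain ⟨J, hJ0, hJ⟩ := exists_ideal_pow_eq hα hdiv
  set J' : (Ideal (𝓞 K))⁰ := ⟨J, mem_nonZeroDivisors_of_ne_zero hJ0⟩
  have hb0 : ∀ σ a b, a ≠ 0 → galRing σ α * a ^ p = α ^ kExp hζ σ * b ^ p → b ≠ 0 := by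
    intro σ a b ha h hb
    rw [hb, zero_pow hp.out.ne_zero, mul_zero, mul_eq_zero] at h
    rcases h with h | h
    · exact hα ((map_eq_zero_iff _ (galRing σ).injective).mp h)
    · exact ha (eq_zero_of_pow_eq_zero h)
  have hC : ClassGroup.mk0 J' = 1 := by
    refine class_eq_one hζ h5 ?_ fun σ ↦ ?_
    · rw [← map_pow, ClassGroup.mk0_eq_one_iff]
      exact ⟨⟨α, by rw [SubmonoidClass.coe_pow]; exact hJ.symm⟩⟩
    · obtain ⟨a, b, ha, hab⟩ := heig σ
      have hb := hb0 σ a b ha hab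
      have h1 : (J.map (galRing σ : 𝓞 K →+* 𝓞 K) * Ideal.span {a}) ^ p =
          (J ^ kExp hζ σ * Ideal.span {b}) ^ p := by
        rw [mul_pow, mul_pow, ← Ideal.map_pow, ← hJ, Ideal.map_span, Set.image_singleton,
          ← pow_mul, mul_comm _ p, pow_mul, ← hJ, Ideal.span_singleton_pow,
          Ideal.span_singleton_pow, Ideal.span_singleton_pow, Ideal.span_singleton_mul_span_singleton,
          Ideal.span_singleton_mul_span_singleton]
        exact congrArg (fun x ↦ Ideal.span {x}) hab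
      have hinj := (galRing σ).injective
      have h2 := ideal_pow_injective hp.out.ne_zero (mul_ne_zero
        ((Ideal.map_eq_bot_iff_of_injective hinj).not.mpr hJ0) (by simpa using ha))
        (mul_ne_zero (pow_ne_zero _ hJ0) (by simpa using hb)) h1
      set A : (Ideal (𝓞 K))⁰ := ⟨Ideal.span {a}, mem_nonZeroDivisors_of_ne_zero (by simpa using ha)⟩
      set B : (Ideal (𝓞 K))⁰ := ⟨Ideal.span {b}, mem_nonZeroDivisors_of_ne_zero (by simpa using hb)⟩
      have h3 : Ideal.mapNonZero (galRing σ) J' * A = J' ^ kExp hζ σ * B :=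
        Subtype.ext (by
          rw [Submonoid.coe_mul, Submonoid.coe_mul, SubmonoidClass.coe_pow, Ideal.coe_mapNonZero]
          exact h2)
      have h4 := congrArg ClassGroup.mk0 h3
      rw [map_mul, map_mul, map_pow, (ClassGroup.mk0_eq_one_iff A.2).mpr ⟨⟨a, rfl⟩⟩,
        (ClassGroup.mk0_eq_one_iff B.2).mpr ⟨⟨b, rfl⟩⟩, mul_one, mul_one] at h4
      rw [galCl_mk0, h4]
  obtain ⟨γ, hγ⟩ := ((ClassGroup.mk0_eq_one_iff J'.2).mp hC).principal
  change J = Ideal.span {γ} at hγ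
  rw [hγ, Ideal.span_singleton_pow, eq_comm, Ideal.span_singleton_eq_span_singleton] at hJ
  obtain ⟨u, hu⟩ := hJ
  have hγ0 : γ ≠ 0 := by
    rintro rfl
    exact hα (by rw [← hu, zero_pow hp.out.ne_zero, zero_mul])
  have hγl : γ ^ p ∉ lam hζ := fun h ↦ hlam (hu ▸ (lam hζ).mul_mem_right _ h)
  -- u is an eigen-unit
  have hue : ∀ σ, ∃ w : (𝓞 K)ˣ, galUnits σ u = u ^ kExp hζ σ * w ^ p := by
    intro σ
    obtain ⟨a, b, ha, hab⟩ := heig σ
    rw [← hu, map_mul, map_pow] at hab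
    have hA : galRing σ γ * a ≠ 0 :=
      mul_ne_zero ((map_ne_zero_iff _ (galRing σ).injective).mpr hγ0) ha
    set X : (𝓞 K)ˣ := galUnits σ u * (u ^ kExp hζ σ)⁻¹
    have hkey : (X : 𝓞 K) * (galRing σ γ * a) ^ p = (γ ^ kExp hζ σ * b) ^ p := by
      have h' : (galUnits σ u : 𝓞 K) * (galRing σ γ * a) ^ p =
          ((u ^ kExp hζ σ : (𝓞 K)ˣ) : 𝓞 K) * (γ ^ kExp hζ σ * b) ^ p := by
        rw [coe_galUnits_eq, Units.val_pow_eq_pow_val, mul_pow, mul_pow, ← pow_mul,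
          mul_comm (kExp hζ σ) p, pow_mul]
        rw [mul_pow] at hab
        linear_combination hab
      simp only [X, Units.val_mul]
      rw [mul_comm (galUnits σ u : 𝓞 K), mul_assoc, h', Units.inv_mul_cancel_left]
    have hX : ((algebraMap (𝓞 K) K (γ ^ kExp hζ σ * b)) / algebraMap (𝓞 K) K (galRing σ γ * a)) ^ p
        = ((X : 𝓞 K) : K) := by
      rw [div_pow, ← map_pow, ← map_pow, ← hkey, map_mul, mul_div_cancel_right₀]
      exact (map_ne_zero_iff _ RingOfIntegers.coe_injective).mpr (pow_ne_zero _ hA)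
    obtain ⟨w, hw⟩ := unit_pow_of_field_pow hζ hX
    refine ⟨w, ?_⟩
    rw [hw]
    simp only [X]
    rw [mul_comm (galUnits σ u), mul_inv_cancel_left]
  have hexp : ∀ σ, expMod p (galUnits σ u) = ((omega hζ σ : ZMod p) ^ 2) • expMod p u := by
    intro σ
    obtain ⟨w, hw⟩ := hue σ
    rw [hw, expMod_mul, expMod_pow_self hζ, expMod_pow_self hζ, cast_kExp, ZMod.natCast_self,
      zero_smul, add_zero]
  obtain ⟨k, t, ht, w, hw⟩ := exists_eq_pow_mul_of_eigen hζ h5 hexp (cUnit_eigen hζ h5)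
    (expMod_cUnit_ne_zero hζ h5)
  obtain ⟨i, hti, ht1, ht2⟩ := ell2_torsion hζ h5 ht
  -- local information
  obtain ⟨z, hz⟩ := hloc
  have hum : ∀ v : (𝓞 K)ˣ, (v : 𝓞 K) ∉ lam hζ := fun v ↦ unit_not_mem hζ v
  have hu2 : ell2 hζ h5 (u : 𝓞 K) = 0 := by
    have h := ell2_eq_zero_of_congr hζ h5 hlam hz
    have hγ' : γ ∉ lam hζ := fun h ↦ hγl ((lam hζ).pow_mem_of_mem h p hp.out.pos)
    rw [← hu, ell2_mul hζ h5 hγl (hum u), ell2_pow hζ h5 hγ', ZMod.natCast_self, zero_mul,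
      zero_add] at h
    exact h
  have hwp : ∀ v : (𝓞 K)ˣ, ell2 hζ h5 ((v : 𝓞 K) ^ p) = 0 ∧ ell1 hζ h5 ((v : 𝓞 K) ^ p) = 0 :=
    fun v ↦ ⟨by rw [ell2_pow hζ h5 (hum v), ZMod.natCast_self, zero_mul],
      by rw [ell1_pow hζ h5 (hum v), ZMod.natCast_self, zero_mul]⟩
  have hpm : ∀ (v : (𝓞 K)ˣ) (n : ℕ), (v : 𝓞 K) ^ n ∉ lam hζ := fun v n ↦ by
    rw [← Units.val_pow_eq_pow_val]; exact hum _
  have hk : (k : ZMod p) = 0 := by
    rw [hw, Units.val_mul, Units.val_mul, Units.val_pow_eq_pow_val, Units.val_pow_eq_pow_val,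
      ell2_mul hζ h5 (fun h ↦ (((lam_isMaximal hζ).isPrime.mem_or_mem h).elim (hum t)
        (hpm _ k))) (hpm w p),
      ell2_mul hζ h5 (hum t) (hpm _ k), ht2, ell2_pow hζ h5 (hum _), (hwp w).1, zero_add,
      add_zero] at hu2
    exact (mul_eq_zero.mp hu2).resolve_right (ell2_cUnit_ne_zero hζ h5)
  obtain ⟨k', rfl⟩ := (ZMod.natCast_eq_zero_iff _ _).mp hk
  set w' : (𝓞 K)ˣ := cUnit hζ h5 ^ k' * w
  have hw' : u = t * w' ^ p := by
    rw [hw, mul_pow, ← pow_mul, mul_comm k' p, mul_assoc]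
  have hu1 : ell1 hζ h5 (u : 𝓞 K) = (i : ZMod p) := by
    rw [hw', Units.val_mul, Units.val_pow_eq_pow_val, ell1_mul hζ h5 (hum t) (hpm w' p), ht1,
      (hwp w').2, add_zero]
  -- an automorphism with character 2
  have h2 : (2 : ZMod p) ≠ 0 := two_ne_zero_zmod h5
  obtain ⟨σ, hσ⟩ := (omega_bijective hζ).2 (Units.mk0 2 h2)
  have hσ' : (omega hζ σ : ZMod p) = 2 := by rw [hσ]; rfl
  obtain ⟨v, hv⟩ := hue σ
  have hA : ell1 hζ h5 (galUnits σ u : 𝓞 K) = 2 * (i : ZMod p) := by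
    rw [coe_galUnits_eq, show galRing σ (u : 𝓞 K) = (galRing σ).toRingHom (u : 𝓞 K) from rfl,
      (ell_comp hζ h5 (galRing σ).toRingHom _ (galRing_zeta hζ σ) _).1, ZMod.natCast_zmod_val,
      hσ', hu1]
  rw [hv, Units.val_mul, Units.val_pow_eq_pow_val, Units.val_pow_eq_pow_val,
    ell1_mul hζ h5 (hpm u _) (hpm v p), ell1_pow hζ h5 (hum u), cast_kExp, hσ', hu1, (hwp v).2,
    add_zero] at hA
  have hi : (i : ZMod p) = 0 :=
    (mul_eq_zero.mp (show (2 : ZMod p) * (i : ZMod p) = 0 by linear_combination hA)).resolve_left h2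
  obtain ⟨i', rfl⟩ := (ZMod.natCast_eq_zero_iff _ _).mp hi
  have hzi : hζ.toInteger ^ (p * i') = 1 := by
    rw [pow_mul, hζ.toInteger_isPrimitiveRoot.pow_eq_one, one_pow]
  rw [hzi] at hti
  rcases hti with h | h
  · exact ⟨γ * w', by rw [← hu, hw', Units.val_mul, h, one_mul, Units.val_pow_eq_pow_val, mul_pow]⟩
  · refine ⟨-(γ * w'), ?_⟩
    rw [← hu, hw', Units.val_mul, h, neg_pow, (hp.out.odd_of_ne_two (by omega)).neg_one_pow,
      Units.val_pow_eq_pow_val, mul_pow]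
    ring

omit hζ in
/-- The case `p = 3`. -/
theorem exists_pow_eq_three (h3 : p = 3) {α : 𝓞 K} (hα : α ≠ 0)
    (hdiv : ∀ Q : Ideal (𝓞 K), Q.IsPrime → Q ≠ ⊥ → p ∣ ordAt Q α)
    (heig : ∀ σ : K ≃ₐ[ℚ] K, ∃ a b : 𝓞 K, a ≠ 0 ∧ galRing σ α * a ^ p = α * b ^ p) :
    ∃ b : K, b ^ p = (α : K) := by
  subst h3
  haveI : IsGalois ℚ K := IsCyclotomicExtension.isGalois {3} ℚ K
  have hcard : Nat.card (K ≃ₐ[ℚ] K) = 2 := by
    rw [IsGalois.card_aut_eq_finrank,
      IsCyclotomicExtension.finrank (n := 3) K (Polynomial.cyclotomic.irreducible_rat (by norm_num))]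
    decide
  have hαK : (α : K) ≠ 0 := by simpa using hα
  choose a b ha hab using heig
  obtain ⟨J, -, hJ⟩ := exists_ideal_pow_eq hα hdiv
  -- the norm is, up to sign, a cube
  have hN : ∃ r : ℚ, Algebra.norm ℚ (α : K) = r ^ 3 := by
    have h := congrArg (Ideal.absNorm (S := 𝓞 K)) hJ
    rw [map_pow, Ideal.absNorm_span_singleton] at h
    rcases Int.natAbs_eq (Algebra.norm ℤ α) with h' | h' <;>
      rw [h, Nat.cast_pow] at h' <;> rw [← Algebra.coe_norm_int, h']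
    · exact ⟨(Ideal.absNorm J : ℚ), by push_cast; ring⟩
    · exact ⟨-(Ideal.absNorm J : ℚ), by push_cast; ring⟩
  obtain ⟨r, hr⟩ := hN
  have hprod := Algebra.norm_eq_prod_automorphisms ℚ (α : K)
  have hσ : ∀ σ : K ≃ₐ[ℚ] K, σ (α : K) = (α : K) * ((b σ : K) / (a σ : K)) ^ 3 := by
    intro σ
    have h := congrArg (algebraMap (𝓞 K) K) (hab σ)
    rw [map_mul, map_mul, map_pow, map_pow, ← RingOfIntegers.coe_eq_algebraMap (x := galRing σ α),
      coe_galRing] at h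
    have ha' : (a σ : K) ≠ 0 := by simpa using ha σ
    rw [div_pow, mul_div_assoc', eq_div_iff (pow_ne_zero _ ha')]
    exact h
  rw [hr, map_pow, Finset.prod_congr rfl (fun σ _ ↦ hσ σ), Finset.prod_mul_distrib,
    Finset.prod_const, Finset.card_univ, ← Nat.card_eq_fintype_card, hcard, Finset.prod_pow] at hprod
  set m := ∏ σ : K ≃ₐ[ℚ] K, ((b σ : K) / (a σ : K))
  refine ⟨(α : K) * m / algebraMap ℚ K r, ?_⟩
  have hm : m ≠ 0 := by
    intro h
    rw [h, zero_pow three_ne_zero, mul_zero] at hprod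
    have hr0 : r = 0 := by
      have := eq_zero_of_pow_eq_zero hprod
      exact (map_eq_zero _).mp this
    rw [hr0, zero_pow three_ne_zero, Algebra.norm_eq_zero_iff] at hr
    exact hαK hr
  have hr0 : algebraMap ℚ K r ≠ 0 := fun h ↦ by
    rw [h, zero_pow three_ne_zero, eq_comm, mul_eq_zero] at hprod
    rcases hprod with h' | h'
    · exact hαK (eq_zero_of_pow_eq_zero h')
    · exact hm (eq_zero_of_pow_eq_zero h')
  rw [div_pow, hprod, div_eq_iff (mul_ne_zero (pow_ne_zero _ hαK) (pow_ne_zero _ hm))]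
  ring

end FLTAgent.ExtVanishing

end
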