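import Fermat.Agent.ExtVanishing.Kummer
import Fermat.Agent.ExtVanishing.PlaceGalois
import Fermat.Agent.ExtVanishing.DegreeP
import Fermat.Agent.ExtVanishing.PthPower

/-!
There is no Kummer datum for an odd prime.
-/

set_option autoImplicit false

noncomputable section

open NumberField ExtCitation FLTAgent.Frobenius
open scoped Classical Pointwise

namespace FLTAgent.ExtVanishing

local notation "QQb" => AlgebraicClosure ℚ
local notation "GG" => (AlgebraicClosure ℚ ≃ₐ[ℚ] AlgebraicClosure ℚ)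
local notation "ZB" => integralClosure ℤ (AlgebraicClosure ℚ)

variable {p : ℕ} [hp : Fact p.Prime]

section Places

variable {K L : Type} [Field K] [NumberField K] [Field L] [NumberField L] [Algebra K L]

/-- A place of `ℚ̄` over a prime of `K`. -/
lemma exists_place (j : L →+* QQb) (Q : Ideal (𝓞 K)) [Q.IsPrime] (hQ : Q ≠ ⊥) :
    ∃ A : ValuationSubring QQb, (primeAt A L j).under (𝓞 K) = Q := by
  let φ : 𝓞 K →+* ZB := (intEmb L j).comp (algebraMap (𝓞 K) (𝓞 L))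
  letI := φ.toAlgebra
  haveI : IsScalarTower ℤ (𝓞 K) ZB := IsScalarTower.of_algebraMap_eq' (RingHom.ext_int _ _)
  have hint : Algebra.IsIntegral (𝓞 K) ZB :=
    ⟨fun b ↦ (Algebra.IsIntegral.isIntegral (R := ℤ) b).tower_top⟩
  have hinj : Function.Injective φ := fun a b h ↦ by
    have h' := congrArg Subtype.val h
    simp only [φ, RingHom.comp_apply, coe_intEmb] at h'
    exact FaithfulSMul.algebraMap_injective (𝓞 K) (𝓞 L) (RingOfIntegers.ext (j.injective h'))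
  obtain ⟨I, -, hI, hIQ⟩ := Ideal.exists_ideal_over_prime_of_isIntegral Q (⊥ : Ideal ZB)
    (fun x hx ↦ by rw [show x = 0 from hinj (hx.trans (map_zero φ).symm)]; exact zero_mem _)
  obtain ⟨A, -, hA⟩ := Ideal.image_subset_nonunits_valuationSubring
    (A := (ZB).toSubring) I hI.ne_top
  refine ⟨A, ((‹Q.IsPrime›.isMaximal hQ).eq_of_le (Ideal.IsPrime.under _ _).ne_top
    fun x hx ↦ ?_).symm⟩
  change φ x ∈ centre A
  rw [mem_centre_iff]
  have h : x ∈ Ideal.comap (algebraMap (𝓞 K) ZB) I := by rw [hIQ]; exact hx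
  exact hA ⟨φ x, h, rfl⟩

lemma exists_prime_mem (Q : Ideal (𝓞 K)) [hQp : Q.IsPrime] (hQ : Q ≠ ⊥) :
    ∃ ℓ : ℕ, ℓ.Prime ∧ (ℓ : 𝓞 K) ∈ Q := by
  have key : ∀ n : ℕ, n ≠ 0 → (n : 𝓞 K) ∈ Q → ∃ ℓ : ℕ, ℓ.Prime ∧ (ℓ : 𝓞 K) ∈ Q := by
    intro n
    induction n using Nat.recOnMul with
    | zero => exact fun h ↦ absurd rfl h
    | one => exact fun _ h ↦ absurd ((Ideal.eq_top_iff_one Q).mpr (by simpa using h)) hQp.ne_top
    | prime q hq => exact fun _ h ↦ ⟨q, hq, h⟩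
    | mul a b iha ihb =>
      intro h0 h
      rw [Nat.cast_mul] at h
      rcases hQp.mem_or_mem h with h | h
      · exact iha (left_ne_zero_of_mul h0) h
      · exact ihb (right_ne_zero_of_mul h0) h
  exact key _ (absNorm_ne_zero' hQ) (Ideal.absNorm_mem Q)

variable (D : KummerDatum p) (j : L →+* QQb)
  (hK : ∀ σ : GG, σ D.ζ = D.ζ → ∀ x : K, σ (j (algebraMap K L x)) = j (algebraMap K L x))
  {ζ : K} (hζj : j (algebraMap K L ζ) = D.ζ)
  (hdeg : Module.finrank K L = p) {y : 𝓞 L} {α : 𝓞 K}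
  (hy : y ^ p = algebraMap (𝓞 K) (𝓞 L) α) (hjy : j (y : L) = D.y) (hα : α ≠ 0)

omit [NumberField K] [NumberField L] in
lemma pow_s_zeta (n : ℕ) : (D.s ^ n) D.ζ = D.ζ := by
  induction n with
  | zero => rfl
  | succ n ih => rw [pow_succ, AlgEquiv.mul_apply, D.s_zeta, ih]

omit [NumberField K] [NumberField L] in
lemma pow_s_y (n : ℕ) : (D.s ^ n) D.y = D.ζ ^ n * D.y := by
  induction n with
  | zero => simp
  | succ n ih =>
    rw [pow_succ, AlgEquiv.mul_apply, D.s_y, map_mul, pow_s_zeta, ih, pow_succ]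
    ring

/-- A conjugate embedding. -/
abbrev conjEmb (σ : GG) : L →+* QQb := (σ : QQb →+* QQb).comp j

omit hp in
lemma smul_intEmb (σ : GG) (x : 𝓞 L) : σ • intEmb L j x = intEmb L (conjEmb j σ) x :=
  Subtype.ext rfl

include hK in
lemma intEmb_algebraMap_fix {σ : GG} (hσ : σ D.ζ = D.ζ) (z : 𝓞 K) :
    intEmb L (conjEmb j σ) (algebraMap (𝓞 K) (𝓞 L) z) = intEmb L j (algebraMap (𝓞 K) (𝓞 L) z) :=
  Subtype.ext (hK σ hσ (z : K))

include hK in
lemma under_conjEmb {σ : GG} (hσ : σ D.ζ = D.ζ) (A : ValuationSubring QQb) :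
    (primeAt A L (conjEmb j σ)).under (𝓞 K) = (primeAt A L j).under (𝓞 K) := by
  ext z
  simp only [Ideal.mem_comap, Ideal.under_def, mem_primeAt, intEmb_algebraMap_fix D j hK hσ]

include hK hζj hdeg hy hjy hα in
/-- Away from `p` the radicand has order divisible by `p`. -/
theorem dvd_ordAt_of_not_mem (Q : Ideal (𝓞 K)) [Q.IsPrime] (hQ : Q ≠ ⊥) (hpQ : (p : 𝓞 K) ∉ Q) :
    p ∣ ordAt Q α := by
  by_contra hnd
  obtain ⟨A, hA⟩ := exists_place j Q hQ
  set P := primeAt A L j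
  have hP : P ≠ ⊥ := fun h ↦ hQ (by rw [← hA, h, Ideal.under_bot])
  obtain ⟨huniq, hres⟩ := totally_ramified hdeg hy hα P hP (hA ▸ hnd)
  have hs := huniq (primeAt A L (conjEmb j D.s)) inferInstance
    (under_conjEmb D j hK D.s_zeta A)
  obtain ⟨τ, hτ, hfix⟩ := exists_fix_of_under_eq A L j (σ := D.s) fun x ↦ by
    rw [smul_intEmb, ← mem_primeAt, hs, mem_primeAt]
  have hτj := (mem_fixL L j).mp hτ
  have hστ : ∀ x : L, (D.s * τ) (j x) = D.s (j x) := fun x ↦ by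
    rw [AlgEquiv.mul_apply, hτj]
  have hres' : ∀ x : 𝓞 L, (D.s * τ) • intEmb L j x - intEmb L j x ∈ centre A := by
    intro x
    obtain ⟨z, hz⟩ := hres x
    have hzfix : (D.s * τ) • intEmb L j (algebraMap (𝓞 K) (𝓞 L) z) =
        intEmb L j (algebraMap (𝓞 K) (𝓞 L) z) := by
      refine Subtype.ext ?_
      change (D.s * τ) (j ((algebraMap (𝓞 K) (𝓞 L) z : 𝓞 L) : L)) = _
      rw [hστ]
      exact hK D.s D.s_zeta (z : K)
    have h1 : intEmb L j (x - algebraMap (𝓞 K) (𝓞 L) z) ∈ centre A := hz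
    have h2 := sub_mem ((hfix _).mpr h1) h1
    rwa [map_sub, smul_sub, hzfix, sub_sub_sub_cancel_right] at h2
  obtain ⟨τ', hτ', hcongr⟩ := exists_fix_congr A L j hfix hres'
  have hfix' : ∀ b : ZB, τ' • b ∈ centre A ↔ b ∈ centre A := fun b ↦
    ⟨fun h ↦ (hfix b).mp (by simpa using sub_mem h (hcongr b)),
      fun h ↦ by simpa using add_mem (hcongr b) ((hfix b).mpr h)⟩
  have hine : τ'⁻¹ * (D.s * τ) ∈ A.inertiaSubgroupIn ℚ := by
    refine mem_inertia_of_congr A fun b ↦ (hfix' _).mp ?_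
    rw [smul_sub, smul_smul, mul_inv_cancel_left, ← neg_sub]
    exact neg_mem (hcongr b)
  have hτ'j : ∀ x : L, τ'⁻¹ (j x) = j x := fun x ↦ by
    conv_lhs => rw [← (mem_fixL L j).mp hτ' x]
    exact τ'.symm_apply_apply _
  have hζfix : (τ'⁻¹ * (D.s * τ)) D.ζ = D.ζ := by
    rw [AlgEquiv.mul_apply, ← hζj, hστ, hζj, D.s_zeta, ← hζj, hτ'j]
  obtain ⟨ℓ, hℓ, hℓQ⟩ := exists_prime_mem Q hQ
  have hℓA : A.LiesOverPrime ℓ := by
    rw [← hA, Ideal.under_def, Ideal.mem_comap, map_natCast, mem_primeAt, map_natCast,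
      mem_centre_iff] at hℓQ
    simpa [ValuationSubring.LiesOverPrime] using hℓQ
  have h := D.unramified ℓ hℓ (fun h ↦ hpQ (h ▸ hℓQ)) A hℓA _ hine hζfix
  rw [AlgEquiv.mul_apply, ← hjy, hστ, hjy, D.s_y, map_mul, ← hζj, hτ'j, ← hjy, hτ'j, hζj,
    hjy] at h
  exact D.hζ.ne_one hp.out.one_lt ((mul_eq_right₀ D.ne_zero).mp h)

include hK hζj hdeg hjy in
/-- The primes over `p` split. -/
theorem exists_split_above (Q : Ideal (𝓞 K)) [Q.IsPrime] (hQ : Q ≠ ⊥) (hpQ : (p : 𝓞 K) ∈ Q) :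
    ∃ P : Ideal (𝓞 L), P.IsPrime ∧ P ≠ ⊥ ∧ P.under (𝓞 K) = Q ∧ P.ramificationIdx (𝓞 K) = 1 ∧
      Ideal.absNorm P = Ideal.absNorm Q := by
  obtain ⟨A, hA⟩ := exists_place j Q hQ
  have hAp : A.LiesOverPrime p := by
    have h := hpQ
    rw [← hA, Ideal.under_def, Ideal.mem_comap, map_natCast, mem_primeAt, map_natCast,
      mem_centre_iff] at h
    simpa [ValuationSubring.LiesOverPrime] using h
  let P : Fin p → Ideal (𝓞 L) := fun i ↦ primeAt A L (conjEmb j (D.s ^ (i : ℕ)))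
  have hPQ : ∀ i, (P i).under (𝓞 K) = Q := fun i ↦
    (under_conjEmb D j hK (pow_s_zeta D i) A).trans hA
  have hinj : Function.Injective P := by
    intro i k hik
    set σ : GG := D.s ^ (i : ℕ) * (D.s ^ (k : ℕ))⁻¹ with hσ
    have hcomp : ∀ x : L, σ ((D.s ^ (k : ℕ)) (j x)) = (D.s ^ (i : ℕ)) (j x) := fun x ↦ by
      rw [hσ, AlgEquiv.mul_apply]
      exact congrArg _ ((D.s ^ (k : ℕ)).symm_apply_apply _)
    obtain ⟨τ, hτ, hfix⟩ := exists_fix_of_under_eq A L (conjEmb j (D.s ^ (k : ℕ))) (σ := σ)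
      fun x ↦ by
        rw [show σ • intEmb L (conjEmb j (D.s ^ (k : ℕ))) x =
          intEmb L (conjEmb j (D.s ^ (i : ℕ))) x from Subtype.ext (hcomp _)]
        exact (Ideal.ext_iff.mp hik x)
    have hτ' := (mem_fixL L _).mp hτ
    have hζfix : (σ * τ) D.ζ = D.ζ := by
      have h := hτ' (algebraMap K L ζ)
      rw [RingHom.comp_apply, hζj] at h
      change τ ((D.s ^ (k : ℕ)) D.ζ) = (D.s ^ (k : ℕ)) D.ζ at h
      rw [pow_s_zeta] at h
      have h' := hcomp (algebraMap K L ζ)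
      rw [hζj, pow_s_zeta, pow_s_zeta] at h'
      rw [AlgEquiv.mul_apply, h, h']
    have h := D.split A hAp _ (mem_decomposition_of_fix A hfix) hζfix
    have h1 : (σ * τ) ((D.s ^ (k : ℕ)) D.y) = (D.s ^ (i : ℕ)) D.y := by
      rw [← hjy]
      have h2 := hτ' (y : L)
      change τ ((D.s ^ (k : ℕ)) (j (y : L))) = _ at h2
      rw [AlgEquiv.mul_apply, h2]
      exact hcomp _
    rw [pow_s_y, pow_s_y, map_mul, map_pow, hζfix, h] at h1
    exact Fin.ext (D.hζ.pow_inj k.2 i.2 (mul_right_cancel₀ D.ne_zero h1)).symm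
  obtain ⟨he, hN⟩ := totally_split hdeg Q hQ P (fun i ↦ inferInstance) hPQ hinj
    ⟨0, hp.out.pos⟩
  refine ⟨P ⟨0, hp.out.pos⟩, inferInstance, fun h ↦ hQ ?_, hPQ _, he, hN⟩
  rw [← hPQ ⟨0, hp.out.pos⟩, h, Ideal.under_bot]

include hK hζj hdeg hy hjy hα in
theorem dvd_ordAt (Q : Ideal (𝓞 K)) [Q.IsPrime] (hQ : Q ≠ ⊥) : p ∣ ordAt Q α := by
  by_cases hpQ : (p : 𝓞 K) ∈ Q
  · obtain ⟨P, hPp, hP, hPQ, he, -⟩ := exists_split_above D j hK hζj hdeg hjy Q hQ hpQ
    have h := ordAt_algebraMap P hP hα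
    rw [← hy, ordAt_pow, he, one_mul, hPQ] at h
    exact ⟨_, h.symm⟩
  · exact dvd_ordAt_of_not_mem D j hK hζj hdeg hy hjy hα Q hQ hpQ

/-- Congruences modulo the cube of a split prime descend. -/
lemma exists_congr_cube {P : Ideal (𝓞 L)} [P.IsPrime] (hP : P ≠ ⊥) {Q : Ideal (𝓞 K)}
    (hQ : Q ≠ ⊥) (hPQ : P.under (𝓞 K) = Q) (he : P.ramificationIdx (𝓞 K) = 1)
    (hN : Ideal.absNorm P = Ideal.absNorm Q) {y₁ : 𝓞 L} {β : 𝓞 K}
    (hy₁ : y₁ ^ p = algebraMap (𝓞 K) (𝓞 L) β) : ∃ z : 𝓞 K, β - z ^ p ∈ Q ^ 3 := by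
  haveI : Q.IsPrime := hPQ ▸ Ideal.IsPrime.under _ _
  have hle : ∀ x : 𝓞 K, algebraMap (𝓞 K) (𝓞 L) x ∈ P ^ 3 → x ∈ Q ^ 3 := by
    intro x hx
    by_cases hx0 : x = 0
    · rw [hx0]; exact zero_mem _
    have hx0' : algebraMap (𝓞 K) (𝓞 L) x ≠ 0 :=
      fun h ↦ hx0 (FaithfulSMul.algebraMap_injective (𝓞 K) (𝓞 L) (h.trans (map_zero _).symm))
    have hord := ordAt_algebraMap P hP hx0
    rw [he, one_mul, hPQ] at hord
    have h2 := (ordAt_spec P hP hx0').2
    have h3 : 3 ≤ ordAt Q x := by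
      rw [← hord]
      by_contra hlt
      exact h2 (Ideal.pow_le_pow_right (by omega) hx)
    exact Ideal.pow_le_pow_right h3 (ordAt_spec Q hQ hx0).1
  have hge : ∀ x ∈ Q ^ 3, algebraMap (𝓞 K) (𝓞 L) x ∈ P ^ 3 := fun x hx ↦ by
    have h := Ideal.mem_map_of_mem (algebraMap (𝓞 K) (𝓞 L)) hx
    rw [Ideal.map_pow] at h
    exact Ideal.pow_right_mono (Ideal.map_le_iff_le_comap.mpr hPQ.ge) 3 h
  obtain ⟨z, hz⟩ := residue_surjective_of_absNorm_eq (pow_ne_zero 3 hQ) hle hge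
    (by rw [map_pow, map_pow, hN]) y₁
  refine ⟨z, hle _ ?_⟩
  rw [map_sub, map_pow, ← hy₁]
  exact Ideal.mem_of_dvd _ (sub_dvd_pow_sub_pow _ _ _) hz

end Places

theorem false_of_kummerDatum (h3 : 3 ≤ p) (D : KummerDatum p) : False := by
  haveI : NeZero p := ⟨hp.out.ne_zero⟩
  haveI : Algebra.IsAlgebraic ℚ QQb := AlgebraicClosure.isAlgebraic ℚ
  haveI : IsAlgClosure ℚ QQb := ⟨inferInstance, inferInstance⟩
  haveI : Normal ℚ QQb := IsAlgClosure.normal ℚ _
  haveI : IsGalois ℚ QQb := ⟨⟩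
  set K := IntermediateField.adjoin ℚ ({D.ζ} : Set QQb) with hKdef
  haveI : IsCyclotomicExtension {p} ℚ K := D.hζ.intermediateField_adjoin_isCyclotomicExtension ℚ
  haveI : NumberField K := IsCyclotomicExtension.numberField {p} ℚ K
  haveI : IsGalois ℚ K := IsCyclotomicExtension.isGalois {p} ℚ K
  set ζK : K := ⟨D.ζ, IntermediateField.subset_adjoin ℚ _ rfl⟩
  have hζK : IsPrimitiveRoot ζK p :=
    IsPrimitiveRoot.of_map_of_injective (f := K.val) D.hζ K.val.injective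
  have hKfix : ∀ σ : GG, σ D.ζ = D.ζ → ∀ x : K, σ (x : QQb) = x := by
    intro σ hσ x
    have hle : K ≤ IntermediateField.fixedField (Subgroup.zpowers σ) := by
      rw [hKdef, IntermediateField.adjoin_simple_le_iff]
      intro g
      exact (Subgroup.zpowers_le.mpr (MulAction.mem_stabilizer_iff.mpr hσ :
        σ ∈ MulAction.stabilizer GG D.ζ)) g.2
    exact hle x.2 ⟨σ, Subgroup.mem_zpowers σ⟩
  have hKmem : ∀ z : QQb, (∀ σ : GG, σ D.ζ = D.ζ → σ z = z) → z ∈ K := by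
    intro z hz
    rw [← InfiniteGalois.fixedField_fixingSubgroup K]
    intro g
    exact hz g (g.2 ζK)
  have hint : IsIntegral ℤ (D.y ^ p) := D.integral.pow p
  set a₀ : K := ⟨D.y ^ p, hKmem _ D.fix_pow⟩
  have ha₀ : IsIntegral ℤ a₀ :=
    (isIntegral_algHom_iff (K.val.toRingHom.toIntAlgHom) K.val.injective).mp hint
  set α : 𝓞 K := ⟨a₀, ha₀⟩
  have hα : α ≠ 0 := fun h ↦ pow_ne_zero p D.ne_zero
    (congrArg (fun x : 𝓞 K ↦ ((x : K) : QQb)) h)
  have hnp : ∀ b : K, b ^ p ≠ a₀ := by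
    intro b hb
    have hb' : (b : QQb) ^ p = D.y ^ p := congrArg Subtype.val hb
    have hb0 : (b : QQb) ≠ 0 := fun h ↦ pow_ne_zero p D.ne_zero
      (by rw [← hb', h, zero_pow hp.out.ne_zero])
    obtain ⟨i, -, hi⟩ := D.hζ.eq_pow_of_pow_eq_one
      (show (D.y / b) ^ p = 1 by rw [div_pow, hb', div_self (pow_ne_zero _ D.ne_zero)])
    have hy : D.y = D.ζ ^ i * b := by rw [hi, div_mul_cancel₀ _ hb0]
    have h := D.s_y
    rw [hy, map_mul, map_pow, D.s_zeta, hKfix _ D.s_zeta b, ← hy] at h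
    exact D.hζ.ne_one hp.out.one_lt ((mul_eq_right₀ D.ne_zero).mp h.symm)
  have hintK : IsIntegral K D.y := D.integral.tower_top
  set L := IntermediateField.adjoin K ({D.y} : Set QQb)
  haveI : FiniteDimensional K L := IntermediateField.adjoin.finiteDimensional hintK
  haveI : FiniteDimensional ℚ L := Module.Finite.trans K L
  haveI : NumberField L := { to_charZero := inferInstance, to_finiteDimensional := inferInstance }
  have hdeg : Module.finrank K L = p := by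
    rw [IntermediateField.adjoin.finrank hintK,
      ← minpoly.eq_of_irreducible_of_monic (X_pow_sub_C_irreducible_of_prime hp.out hnp)
        (x := D.y) (by simp [a₀]) (Polynomial.monic_X_pow_sub_C _ hp.out.ne_zero),
      Polynomial.natDegree_X_pow_sub_C]
  let j : L →+* QQb := L.val.toRingHom
  set yL : L := ⟨D.y, IntermediateField.subset_adjoin K _ rfl⟩
  set y : 𝓞 L := ⟨yL, (isIntegral_algHom_iff j.toIntAlgHom j.injective).mp D.integral⟩
  have hy : y ^ p = algebraMap (𝓞 K) (𝓞 L) α := RingOfIntegers.ext (Subtype.ext rfl)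
  have hK : ∀ σ : GG, σ D.ζ = D.ζ → ∀ x : K, σ (j (algebraMap K L x)) = j (algebraMap K L x) :=
    hKfix
  have hdiv : ∀ Q : Ideal (𝓞 K), Q.IsPrime → Q ≠ ⊥ → p ∣ ordAt Q α := fun Q hQ hQ0 ↦
    dvd_ordAt D j hK (ζ := ζK) rfl hdeg hy rfl hα Q hQ0
  have heig : ∀ σ : K ≃ₐ[ℚ] K, ∃ a b : 𝓞 K, a ≠ 0 ∧
      galRing σ α * a ^ p = α ^ kExp hζK σ * b ^ p := by
    intro σ
    set τ := σ.liftNormal QQb
    have hτ : ∀ x : K, τ (x : QQb) = (σ x : QQb) := σ.liftNormal_commutes QQb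
    obtain ⟨z, hz, hzy⟩ := D.eigen τ
    have hω : (cycloExp p τ : ZMod p) = (omega hζK σ : ZMod p) := by
      have h1 := map_zeta_eq D.hζ τ
      have h2 : τ D.ζ = D.ζ ^ ((omega hζK σ : ZMod p)).val := by
        rw [show D.ζ = ((ζK : K) : QQb) from rfl, hτ, omega_spec hζK σ]
        rfl
      rw [h2, pow_eq_pow_mod _ D.hζ.pow_eq_one] at h1
      rw [pow_eq_pow_mod (cycloExp p τ) D.hζ.pow_eq_one] at h1
      have h := D.hζ.pow_inj (Nat.mod_lt _ hp.out.pos) (Nat.mod_lt _ hp.out.pos) h1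
      rw [← ZMod.natCast_zmod_val (omega hζK σ : ZMod p)]
      exact ((ZMod.natCast_eq_natCast_iff' _ _ _).mpr h).symm
    obtain ⟨b, a, ha, hba⟩ := IsFractionRing.div_surjective (A := 𝓞 K) (⟨z, hKmem z hz⟩ : K)
    have ha0 : a ≠ 0 := nonZeroDivisors.ne_zero ha
    refine ⟨a, b, ha0, RingOfIntegers.ext ?_⟩
    simp only [map_mul, map_pow, RingOfIntegers.coe_eq_algebraMap, coe_galRing]
    have ha0' : (algebraMap (𝓞 K) K a) ≠ 0 :=
      fun h ↦ ha0 (RingOfIntegers.coe_injective (h.trans (map_zero _).symm))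
    have hb : (algebraMap (𝓞 K) K b) = ⟨z, hKmem z hz⟩ * algebraMap (𝓞 K) K a := by
      rw [← hba, div_mul_cancel₀ _ ha0']
    have key : σ a₀ = a₀ ^ kExp hζK σ * (⟨z, hKmem z hz⟩ : K) ^ p := by
      refine Subtype.ext ?_
      rw [IntermediateField.coe_mul, IntermediateField.coe_pow, IntermediateField.coe_pow, ← hτ]
      change τ (D.y ^ p) = (D.y ^ p) ^ _ * z ^ p
      rw [map_pow, hzy, mul_pow, ← pow_mul, ← pow_mul, mul_comm p, kExp, hω]
    change σ a₀ * _ = a₀ ^ _ * _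
    rw [hb, mul_pow, key, mul_assoc]
  rcases Nat.lt_or_ge p 5 with h5 | h5
  · have hp3 : p = 3 := by
      rcases Nat.lt_or_ge p 4 with h | h
      · omega
      · have : p = 4 := by omega
        exact absurd (this ▸ hp.out) (by decide)
    obtain ⟨b, hb⟩ := exists_pow_eq_three hp3 hα hdiv fun σ ↦ by
      obtain ⟨a, b, ha, h⟩ := heig σ
      have hk : kExp hζK σ = 1 := by
        have h1 : (omega hζK σ : ZMod p) ^ 2 = 1 := by
          have := ZMod.pow_card_sub_one_eq_one (omega hζK σ).ne_zero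
          rwa [show p - 1 = 2 by omega] at this
        rw [kExp, h1, ZMod.val_one]
      exact ⟨a, b, ha, by rwa [hk, pow_one] at h⟩
    exact hnp b hb
  · haveI : (lam hζK).IsPrime := (lam_isMaximal hζK).isPrime
    set π : 𝓞 K := hζK.toInteger - 1
    have hlam : lam hζK = Ideal.span {π} := rfl
    have hπ : π ≠ 0 := fun h ↦ hζK.ne_one hp.out.one_lt
      (congrArg (fun x : 𝓞 K ↦ (x : K)) (sub_eq_zero.mp h))
    have hlam0 : lam hζK ≠ ⊥ := by rwa [hlam, Ne, Ideal.span_singleton_eq_bot]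
    have hpl : (p : 𝓞 K) ∈ lam hζK := by
      rw [hlam, Ideal.mem_span_singleton]
      exact hζK.toInteger_sub_one_dvd_prime'
    obtain ⟨P, hPp, hP, hPQ, he, hN⟩ :=
      exists_split_above D j hK (ζ := ζK) rfl hdeg (y := y) rfl (lam hζK) hlam0 hpl
    obtain ⟨m, hm⟩ := hdiv (lam hζK) inferInstance hlam0
    obtain ⟨hm1, hm2⟩ := ordAt_spec (lam hζK) hlam0 hα
    rw [hm, hlam, Ideal.span_singleton_pow, Ideal.mem_span_singleton] at hm1
    obtain ⟨α₁, hα₁⟩ := hm1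
    have hlam1 : α₁ ∉ lam hζK := fun h ↦ hm2 (by
      rw [hm, hlam, Ideal.span_singleton_pow, Ideal.mem_span_singleton, pow_succ, hα₁]
      exact mul_dvd_mul_left _ (Ideal.mem_span_singleton.mp (hlam ▸ h)))
    have hα₁0 : α₁ ≠ 0 := fun h ↦ hα (by rw [hα₁, h, mul_zero])
    have hπL : (algebraMap K L (π : K)) ≠ 0 := fun h ↦ hπ (RingOfIntegers.ext
      ((algebraMap K L).injective (h.trans (map_zero _).symm)))
    set y₁ : L := yL / algebraMap K L (π : K) ^ m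
    have hy₁ : y₁ ^ p = algebraMap K L (α₁ : K) := by
      rw [div_pow, div_eq_iff (pow_ne_zero _ (pow_ne_zero _ hπL)), ← pow_mul]
      have h := congrArg (fun x : 𝓞 K ↦ algebraMap K L (x : K)) hα₁
      simp only [RingOfIntegers.coe_eq_algebraMap, map_mul, map_pow] at h
      rw [show yL ^ p = algebraMap K L (algebraMap (𝓞 K) K α) from Subtype.ext rfl, h,
        mul_comm, mul_comm m p]
    have hy₁int : IsIntegral ℤ y₁ := IsIntegral.of_pow hp.out.pos
      (hy₁ ▸ (RingOfIntegers.isIntegral_coe α₁).map (algebraMap K L).toIntAlgHom)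
    obtain ⟨z, hz⟩ := exists_congr_cube (p := p) hP hlam0 hPQ he hN (y₁ := ⟨y₁, hy₁int⟩)
      (β := α₁) (RingOfIntegers.ext hy₁)
    obtain ⟨β, hβ⟩ := exists_pow_eq_of_eigen hζK h5 hlam1 ⟨z, hz⟩ (fun Q hQ hQ0 ↦ by
        have h := hdiv Q hQ hQ0
        rw [hα₁, ordAt_mul Q (pow_ne_zero _ hπ) hα₁0, ordAt_pow, mul_assoc] at h
        exact (Nat.dvd_add_right (dvd_mul_right p _)).mp h)
      (fun σ ↦ by
        obtain ⟨a, b, ha, h⟩ := heig σ
        refine ⟨galRing σ π ^ m * a, π ^ (m * kExp hζK σ) * b, mul_ne_zero (pow_ne_zero _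
          ((map_ne_zero_iff _ (galRing σ).injective).mpr hπ)) ha, ?_⟩
        rw [hα₁, map_mul, map_pow] at h
        calc galRing σ α₁ * (galRing σ π ^ m * a) ^ p
            = galRing σ π ^ (p * m) * galRing σ α₁ * a ^ p := by ring
          _ = _ := by rw [h]; ring)
    refine hnp (((π ^ m * β : 𝓞 K)) : K) ?_
    have : (π ^ m * β) ^ p = α := by rw [hα₁, hβ]; ring
    exact (map_pow (algebraMap (𝓞 K) K) _ p).symm.trans
      (congrArg (algebraMap (𝓞 K) K) this)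

end FLTAgent.ExtVanishing

end
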