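import Fermat.Agent.ExtVanishing.ClassZeta

/-!
The Euler product over ideals, and the density contradiction: the primes at which a nontrivial
class character is nontrivial cannot all split completely in an extension of degree `p ≥ 3`.
-/

set_option autoImplicit false

noncomputable section

open NumberField IsDedekindDomain Filter
open scoped nonZeroDivisors Classical Topology

namespace FLTAgent.ExtVanishing

variable {K : Type*} [Field K] [NumberField K]

/-- A prime as a nonzero ideal. -/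
def primeIdeal (v : HeightOneSpectrum (𝓞 K)) : (Ideal (𝓞 K))⁰ :=
  ⟨v.asIdeal, mem_nonZeroDivisors_of_ne_zero v.ne_bot⟩

/-- The ideals supported on a set of primes. -/
def supportedOn (F : Finset (HeightOneSpectrum (𝓞 K))) : Set (Ideal (𝓞 K))⁰ :=
  {I | ∀ v : HeightOneSpectrum (𝓞 K), v.asIdeal ∣ (I : Ideal (𝓞 K)) → v ∈ F}

lemma supportedOn_empty : supportedOn (∅ : Finset (HeightOneSpectrum (𝓞 K))) = {1} := by
  ext I
  constructor
  · intro h
    refine Subtype.ext (by_contra fun hne ↦ ?_)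
    obtain ⟨M, hM, hle⟩ := Ideal.exists_le_maximal (I : Ideal (𝓞 K))
      (fun ht ↦ hne (by rw [ht]; exact Ideal.one_eq_top.symm))
    have hb : M ≠ ⊥ := fun hb ↦ nonZeroDivisors.coe_ne_zero I (le_bot_iff.mp (hb ▸ hle))
    exact absurd (h ⟨M, hM.isPrime, hb⟩ (Ideal.dvd_iff_le.mpr hle)) (Finset.notMem_empty _)
  · rintro rfl v hv
    exact absurd (top_le_iff.mp (Ideal.one_eq_top (R := 𝓞 K) ▸ Ideal.dvd_iff_le.mp hv))
      v.isPrime.ne_top

lemma not_dvd_of_supportedOn {F : Finset (HeightOneSpectrum (𝓞 K))}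
    {a : HeightOneSpectrum (𝓞 K)} (ha : a ∉ F) {I : (Ideal (𝓞 K))⁰} (hI : I ∈ supportedOn F) :
    ¬ a.asIdeal ∣ (I : Ideal (𝓞 K)) := fun h ↦ ha (hI a h)

/-- Ideals supported on `insert a F`. -/
def insertMap (a : HeightOneSpectrum (𝓞 K)) (F : Finset (HeightOneSpectrum (𝓞 K))) :
    ℕ × supportedOn F → supportedOn (insert a F) := fun x ↦
  ⟨primeIdeal a ^ x.1 * (x.2 : (Ideal (𝓞 K))⁰), fun v hv ↦ by
    rw [Submonoid.coe_mul, SubmonoidClass.coe_pow] at hv
    rcases v.prime.dvd_or_dvd hv with h | h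
    · have h1 : v.asIdeal ∣ a.asIdeal := v.prime.dvd_of_dvd_pow h
      have : v = a := HeightOneSpectrum.ext (associated_iff_eq.mp
        (v.prime.associated_of_dvd a.prime h1))
      exact this ▸ Finset.mem_insert_self _ _
    · exact Finset.mem_insert_of_mem (x.2.2 v h)⟩

lemma insertMap_bijective {a : HeightOneSpectrum (𝓞 K)}
    {F : Finset (HeightOneSpectrum (𝓞 K))} (ha : a ∉ F) :
    Function.Bijective (insertMap a F) := by
  constructor
  · have key : ∀ (k m : ℕ) (I J : supportedOn F),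
        a.asIdeal ^ k * ((I : (Ideal (𝓞 K))⁰) : Ideal (𝓞 K)) =
          a.asIdeal ^ m * ((J : (Ideal (𝓞 K))⁰) : Ideal (𝓞 K)) → k ≤ m → k = m ∧ I = J := by
      intro k m I J h hkm
      obtain ⟨t, rfl⟩ := Nat.exists_eq_add_of_le hkm
      rw [pow_add, mul_assoc] at h
      have h' := mul_left_cancel₀ (pow_ne_zero k (show a.asIdeal ≠ 0 from a.ne_bot)) h
      rcases t with _ | t
      · refine ⟨rfl, Subtype.ext (Subtype.ext ?_)⟩
        simpa using h'
      · exact absurd ⟨_, h'.trans (by rw [pow_succ', mul_assoc])⟩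
          (not_dvd_of_supportedOn ha I.2)
    rintro ⟨k, I⟩ ⟨m, J⟩ h
    have h' : a.asIdeal ^ k * ((I : (Ideal (𝓞 K))⁰) : Ideal (𝓞 K)) =
        a.asIdeal ^ m * ((J : (Ideal (𝓞 K))⁰) : Ideal (𝓞 K)) := by
      simpa [insertMap, primeIdeal] using congrArg
        (fun z : supportedOn (insert a F) ↦ ((z : (Ideal (𝓞 K))⁰) : Ideal (𝓞 K))) h
    rcases le_total k m with hkm | hkm
    · obtain ⟨rfl, rfl⟩ := key k m I J h' hkm; rfl
    · obtain ⟨rfl, rfl⟩ := key m k J I h'.symm hkm; rfl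
  · rintro ⟨I, hI⟩
    obtain ⟨k, b, hb, hIb⟩ := WfDvdMonoid.max_power_factor (nonZeroDivisors.coe_ne_zero I)
      a.irreducible
    have hb0 : b ≠ 0 := by rintro rfl; exact hb (dvd_zero _)
    refine ⟨(k, ⟨⟨b, mem_nonZeroDivisors_of_ne_zero hb0⟩, fun v hv ↦ ?_⟩), ?_⟩
    · rcases Finset.mem_insert.mp (hI v (hIb ▸ dvd_mul_of_dvd_right hv _)) with rfl | h
      · exact absurd hv hb
      · exact h
    · exact Subtype.ext (Subtype.ext (by simp [insertMap, primeIdeal, hIb]))

lemma norm_g_prime_lt_one (g : (Ideal (𝓞 K))⁰ →* ℂ) (hg : Summable fun I ↦ ‖g I‖)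
    (v : HeightOneSpectrum (𝓞 K)) : ‖g (primeIdeal v)‖ < 1 := by
  by_contra h
  have hinj : Function.Injective fun n : ℕ ↦ primeIdeal v ^ n := fun m n hmn ↦ by
    have h' : v.asIdeal ^ m = v.asIdeal ^ n := by
      simpa [primeIdeal] using congrArg Subtype.val hmn
    exact Ideal.pow_right_strictAnti v.asIdeal v.ne_bot v.isPrime.ne_top |>.injective h'
  have := (hg.comp_injective hinj).tendsto_atTop_zero
  obtain ⟨n, hn⟩ := (this.eventually (eventually_lt_nhds (zero_lt_one' ℝ))).exists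
  simp only [Function.comp_apply, map_pow, norm_pow] at hn
  exact absurd hn (not_lt.mpr (one_le_pow₀ (le_of_not_gt h)))

lemma hasSum_supportedOn (g : (Ideal (𝓞 K))⁰ →* ℂ) (hg : Summable fun I ↦ ‖g I‖)
    (F : Finset (HeightOneSpectrum (𝓞 K))) :
    HasSum (fun I : supportedOn F ↦ g I) (∏ v ∈ F, (1 - g (primeIdeal v))⁻¹) := by
  induction F using Finset.induction with
  | empty =>
    rw [supportedOn_empty, Finset.prod_empty]
    exact (map_one g) ▸ hasSum_singleton (1 : (Ideal (𝓞 K))⁰) g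
  | @insert a F ha ih =>
    rw [Finset.prod_insert ha]
    rw [← (Equiv.ofBijective _ (insertMap_bijective ha)).hasSum_iff]
    have hgeo := hasSum_geometric_of_norm_lt_one (norm_g_prime_lt_one g hg a)
    have hn1 : Summable fun n : ℕ ↦ ‖g (primeIdeal a) ^ n‖ := by
      simpa [norm_pow] using
        summable_geometric_of_lt_one (norm_nonneg _) (norm_g_prime_lt_one g hg a)
    have hn2 : Summable fun I : supportedOn F ↦ ‖g I‖ :=
      hg.comp_injective Subtype.val_injective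
    have hmul : Summable fun x : ℕ × supportedOn F ↦ g (primeIdeal a) ^ x.1 * g x.2 :=
      summable_mul_of_summable_norm (f := fun n : ℕ ↦ g (primeIdeal a) ^ n)
        (g := fun I : supportedOn F ↦ g I) hn1 hn2
    refine HasSum.congr_fun (HasSum.mul (f := fun n : ℕ ↦ g (primeIdeal a) ^ n)
      (g := fun I : supportedOn F ↦ g I) hgeo ih hmul) fun x ↦ ?_
    simp [insertMap, map_mul, map_pow]

theorem hasProd_ideals (g : (Ideal (𝓞 K))⁰ →* ℂ) (hg : Summable fun I ↦ ‖g I‖) :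
    HasProd (fun v : HeightOneSpectrum (𝓞 K) ↦ (1 - g (primeIdeal v))⁻¹) (∑' I, g I) := by
  refine Tendsto.congr (fun F ↦ ?_) (tendsto_tsum_of_dominated_convergence
    (f := fun F : Finset (HeightOneSpectrum (𝓞 K)) ↦ (supportedOn F).indicator g) hg
    (fun I ↦ ?_) (Eventually.of_forall fun F I ↦ ?_))
  · rw [← tsum_subtype]
    exact (hasSum_supportedOn g hg F).tsum_eq
  · refine tendsto_const_nhds.congr' ?_
    have hfin : {v : HeightOneSpectrum (𝓞 K) | v.asIdeal ∣ (I : Ideal (𝓞 K))}.Finite :=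
      Ideal.finite_factors (nonZeroDivisors.coe_ne_zero I)
    filter_upwards [eventually_ge_atTop hfin.toFinset] with F hF
    rw [Set.indicator_of_mem]
    exact fun v hv ↦ hF (hfin.mem_toFinset.mpr hv)
  · exact norm_indicator_le_norm_self _ _

/-- `N v ^ (-s)`. -/
def npow (v : HeightOneSpectrum (𝓞 K)) (s : ℝ) : ℝ := (Ideal.absNorm v.asIdeal : ℝ) ^ (-s)

lemma npow_nonneg (v : HeightOneSpectrum (𝓞 K)) (s : ℝ) : 0 ≤ npow v s :=
  Real.rpow_nonneg (Nat.cast_nonneg _) _

lemma two_le_absNorm (v : HeightOneSpectrum (𝓞 K)) : 2 ≤ Ideal.absNorm v.asIdeal := by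
  have h0 : Ideal.absNorm v.asIdeal ≠ 0 := by simpa [Ideal.absNorm_eq_zero_iff] using v.ne_bot
  have h1 : Ideal.absNorm v.asIdeal ≠ 1 := by
    simpa [Ideal.absNorm_eq_one_iff] using v.isPrime.ne_top
  omega

lemma npow_le_half {s : ℝ} (hs : 1 ≤ s) (v : HeightOneSpectrum (𝓞 K)) : npow v s ≤ 1 / 2 := by
  have h2 : (2 : ℝ) ≤ Ideal.absNorm v.asIdeal := by exact_mod_cast two_le_absNorm v
  calc npow v s ≤ (Ideal.absNorm v.asIdeal : ℝ) ^ (-(1 : ℝ)) :=
        Real.rpow_le_rpow_of_exponent_le (by linarith) (by linarith)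
    _ ≤ (2 : ℝ) ^ (-(1 : ℝ)) := Real.rpow_le_rpow_of_nonpos (by norm_num) h2 (by norm_num)
    _ = 1 / 2 := by rw [Real.rpow_neg_one]; norm_num

lemma primeIdeal_injective : Function.Injective (primeIdeal (K := K)) :=
  fun _ _ h ↦ HeightOneSpectrum.ext (congrArg Subtype.val h)

lemma summable_npow {s : ℝ} (hs : 1 < s) :
    Summable fun v : HeightOneSpectrum (𝓞 K) ↦ npow v s := by
  have h := Summable.comp_injective
    (f := fun I : (Ideal (𝓞 K))⁰ ↦ (Ideal.absNorm (I : Ideal (𝓞 K)) : ℝ) ^ (-s))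
    (summable_absNorm_rpow hs) (primeIdeal_injective (K := K))
  exact h

lemma sq_npow_le {s : ℝ} (hs : 1 ≤ s) (v : HeightOneSpectrum (𝓞 K)) :
    npow v s ^ 2 ≤ npow v 2 := by
  rw [npow, npow, ← Real.rpow_natCast, ← Real.rpow_mul (Nat.cast_nonneg _)]
  refine Real.rpow_le_rpow_of_exponent_le (by exact_mod_cast (two_le_absNorm v).trans' one_le_two) ?_
  push_cast; linarith

variable (K) in
/-- The bound for the quadratic terms. -/
def sqBound : ℝ := ∑' v : HeightOneSpectrum (𝓞 K), npow v 2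

lemma tsum_sq_le {s : ℝ} (hs : 1 < s) :
    Summable (fun v : HeightOneSpectrum (𝓞 K) ↦ npow v s ^ 2) ∧
      ∑' v : HeightOneSpectrum (𝓞 K), npow v s ^ 2 ≤ sqBound K := by
  have h : Summable fun v : HeightOneSpectrum (𝓞 K) ↦ npow v s ^ 2 :=
    Summable.of_nonneg_of_le (fun _ ↦ sq_nonneg _) (sq_npow_le hs.le) (summable_npow one_lt_two)
  exact ⟨h, h.tsum_le_tsum (sq_npow_le hs.le) (summable_npow one_lt_two)⟩

/-- The summand of an L-function. -/
def lTerm (χ : ClassGroup (𝓞 K) →* ℂ) (s : ℝ) : (Ideal (𝓞 K))⁰ →* ℂ where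
  toFun I := χ (ClassGroup.mk0 I) * (((Ideal.absNorm (I : Ideal (𝓞 K)) : ℝ) ^ (-s) : ℝ) : ℂ)
  map_one' := by simp
  map_mul' I J := by
    simp only [Submonoid.coe_mul, map_mul, Nat.cast_mul,
      Real.mul_rpow (Nat.cast_nonneg _) (Nat.cast_nonneg _), Complex.ofReal_mul]
    ring

lemma summable_norm_lTerm {χ : ClassGroup (𝓞 K) →* ℂ} (hχ : ∀ C, ‖χ C‖ = 1) {s : ℝ}
    (hs : 1 < s) : Summable fun I ↦ ‖lTerm χ s I‖ := by
  refine (summable_absNorm_rpow (K := K) hs).congr fun I ↦ ?_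
  simp [lTerm, hχ, abs_of_nonneg (Real.rpow_nonneg (Nat.cast_nonneg (Ideal.absNorm (I : Ideal (𝓞 K)))) (-s))]

lemma exp_le_inv_norm_one_sub {x : ℂ} (hx : ‖x‖ < 1) :
    Real.exp (x.re - ‖x‖ ^ 2) ≤ ‖1 - x‖⁻¹ := by
  have hne : 0 < ‖1 - x‖ := norm_pos_iff.mpr (sub_ne_zero.mpr fun h ↦ by simp [← h] at hx)
  have h1 : ‖1 - x‖ ^ 2 = 1 - 2 * x.re + ‖x‖ ^ 2 := by
    rw [← Complex.normSq_eq_norm_sq, ← Complex.normSq_eq_norm_sq]
    simp [Complex.normSq_apply]; ring
  have h2 : ‖1 - x‖ ^ 2 ≤ Real.exp (-(x.re - ‖x‖ ^ 2)) ^ 2 := by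
    rw [h1, ← Real.exp_nat_mul]
    have := Real.add_one_le_exp (((2 : ℕ) : ℝ) * -(x.re - ‖x‖ ^ 2))
    push_cast at this ⊢
    nlinarith [sq_nonneg ‖x‖]
  have h3 := abs_le_of_sq_le_sq' h2 (Real.exp_pos _).le
  rw [Real.exp_neg] at h3
  rw [le_inv_comm₀ (Real.exp_pos _) hne]
  exact h3.2

lemma exp_le_norm_lFunction {χ : ClassGroup (𝓞 K) →* ℂ} (hχ : ∀ C, ‖χ C‖ = 1) {s : ℝ}
    (hs : 1 < s) :
    Real.exp (∑' v : HeightOneSpectrum (𝓞 K), (χ (ClassGroup.mk0 (primeIdeal v))).re * npow v s -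
      sqBound K) ≤ ‖∑' I, lTerm χ s I‖ := by
  have hg := summable_norm_lTerm hχ hs
  have hP := (hasProd_ideals _ hg).norm
  set a : HeightOneSpectrum (𝓞 K) → ℝ := fun v ↦ (χ (ClassGroup.mk0 (primeIdeal v))).re * npow v s
  have hval : ∀ v, (lTerm χ s (primeIdeal v)).re = a v ∧ ‖lTerm χ s (primeIdeal v)‖ = npow v s := by
    intro v
    simp [lTerm, a, npow, primeIdeal, hχ, Complex.mul_re,
      abs_of_nonneg (Real.rpow_nonneg (Nat.cast_nonneg (Ideal.absNorm v.asIdeal)) (-s))]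
  have ha : Summable a := Summable.of_norm_bounded (g := fun v ↦ npow v s) (summable_npow hs)
    fun v ↦ by
      rw [← (hval v).1, Real.norm_eq_abs, ← (hval v).2]
      exact Complex.abs_re_le_norm _
  have hsq := tsum_sq_le (K := K) hs
  have hlo : HasProd (fun v ↦ Real.exp (a v - npow v s ^ 2))
      (Real.exp (∑' v, (a v - npow v s ^ 2))) := (ha.sub hsq.1).hasSum.rexp
  refine le_trans ?_ (le_of_tendsto_of_tendsto hlo hP (Eventually.of_forall fun F ↦
    Finset.prod_le_prod (fun _ _ ↦ (Real.exp_pos _).le) fun v _ ↦ ?_))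
  · rw [Real.exp_le_exp, ha.tsum_sub hsq.1]
    linarith [hsq.2]
  · have h := hval v
    rw [norm_inv, ← h.1, ← h.2]
    exact exp_le_inv_norm_one_sub (h.2.trans_lt ((npow_le_half hs.le v).trans_lt (by norm_num)))

lemma re_one_apply (C : ClassGroup (𝓞 K)) : ((1 : ClassGroup (𝓞 K) →* ℂ) C).re = 1 := by simp

lemma norm_lFunction_one {s : ℝ} (hs : 1 < s) :
    ‖∑' I, lTerm (1 : ClassGroup (𝓞 K) →* ℂ) s I‖ = idealZeta K s := by
  have h0 : 0 ≤ idealZeta K s := tsum_nonneg fun _ ↦ Real.rpow_nonneg (Nat.cast_nonneg _) _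
  have : ∑' I, lTerm (1 : ClassGroup (𝓞 K) →* ℂ) s I = (idealZeta K s : ℂ) := by
    rw [idealZeta, Complex.ofReal_tsum]
    exact tsum_congr fun I ↦ by simp [lTerm]
  rw [this, Complex.norm_real, Real.norm_of_nonneg h0]

variable (K) in
/-- The sum over primes. -/
def primeSum (s : ℝ) : ℝ := ∑' v : HeightOneSpectrum (𝓞 K), npow v s

lemma exp_primeSum_le {s : ℝ} (hs : 1 < s) :
    Real.exp (primeSum K s - sqBound K) ≤ idealZeta K s := by
  have h := exp_le_norm_lFunction (χ := (1 : ClassGroup (𝓞 K) →* ℂ)) (fun C ↦ by simp) hs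
  rw [norm_lFunction_one hs] at h
  simpa [primeSum] using h

lemma idealZeta_le_exp {s : ℝ} (hs : 1 < s) :
    idealZeta K s ≤ Real.exp (primeSum K s + 2 * sqBound K) := by
  have hg := summable_norm_lTerm (χ := (1 : ClassGroup (𝓞 K) →* ℂ)) (fun C ↦ by simp) hs
  have hP := (hasProd_ideals _ hg).norm
  rw [norm_lFunction_one hs] at hP
  have hsq := tsum_sq_le (K := K) hs
  have hhi : HasProd (fun v : HeightOneSpectrum (𝓞 K) ↦ Real.exp (npow v s + 2 * npow v s ^ 2))
      (Real.exp (∑' v : HeightOneSpectrum (𝓞 K), (npow v s + 2 * npow v s ^ 2))) :=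
    ((summable_npow hs).add (hsq.1.mul_left 2)).hasSum.rexp
  refine le_trans (le_of_tendsto_of_tendsto hP hhi (Eventually.of_forall fun F ↦
    Finset.prod_le_prod (fun _ _ ↦ norm_nonneg _) fun v _ ↦ ?_)) ?_
  · have hh := npow_le_half hs.le v
    have h0 := npow_nonneg v s
    have : lTerm (1 : ClassGroup (𝓞 K) →* ℂ) s (primeIdeal v) = (npow v s : ℂ) := by
      simp [lTerm, npow, primeIdeal]
    rw [this, norm_inv, ← Complex.ofReal_one, ← Complex.ofReal_sub, Complex.norm_real,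
      Real.norm_of_nonneg (by linarith)]
    refine le_trans ?_ (Real.add_one_le_exp _)
    rw [inv_le_iff_one_le_mul₀ (by linarith)]
    nlinarith
  · rw [Real.exp_le_exp, (summable_npow hs).tsum_add (hsq.1.mul_left 2), tsum_mul_left]
    have := hsq.2
    unfold primeSum
    linarith

/-- The residue characteristic. -/
def resChar (v : HeightOneSpectrum (𝓞 K)) : ℕ := Ideal.absNorm (v.asIdeal.under ℤ)

lemma resChar_prime (v : HeightOneSpectrum (𝓞 K)) : (resChar v).Prime := by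
  have h : (v.asIdeal.under ℤ) ≠ ⊥ := Ideal.under_ne_bot _ v.ne_bot
  rw [resChar, ← Int.natAbs_natCast (Ideal.absNorm _), ← Int.prime_iff_natAbs_prime,
    ← Ideal.span_singleton_prime (by simpa [Ideal.absNorm_eq_zero_iff] using h),
    Int.ideal_span_absNorm_eq_self]
  infer_instance

lemma exists_absNorm_eq_pow (v : HeightOneSpectrum (𝓞 K)) :
    ∃ f : ℕ, Ideal.absNorm v.asIdeal = resChar v ^ f ∧ 1 ≤ f := by
  haveI : v.asIdeal.LiesOver (Ideal.span {(resChar v : ℤ)}) := Int.liesOver_span_absNorm _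
  refine ⟨_, Ideal.absNorm_eq_pow_inertiaDeg' v.asIdeal (resChar_prime v), ?_⟩
  by_contra h
  have := Ideal.absNorm_eq_pow_inertiaDeg' v.asIdeal (resChar_prime v)
  rw [Nat.lt_one_iff.mp (not_le.mp h), pow_zero] at this
  have := two_le_absNorm v
  omega

lemma card_primes_over_le (ℓ : ℕ) (hℓ : ℓ.Prime) (F : Finset (HeightOneSpectrum (𝓞 K)))
    (hF : ∀ v ∈ F, resChar v = ℓ) : F.card ≤ Module.finrank ℚ K := by
  have h1 : (∏ v ∈ F, v.asIdeal) ∣ Ideal.span {(ℓ : 𝓞 K)} := by
    have hinj : Set.InjOn (fun v : HeightOneSpectrum (𝓞 K) ↦ v.asIdeal) F :=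
      fun x _ y _ h ↦ HeightOneSpectrum.ext h
    rw [← Finset.prod_image (f := fun x : Ideal (𝓞 K) ↦ x) hinj]
    refine Finset.prod_primes_dvd _ ?_ ?_
    · intro x hx
      obtain ⟨v, _, rfl⟩ := Finset.mem_image.mp hx
      exact v.prime
    · intro x hx
      obtain ⟨v, hv, rfl⟩ := Finset.mem_image.mp hx
      rw [Ideal.dvd_iff_le, Ideal.span_singleton_le_iff_mem, ← hF v hv]
      exact Int.absNorm_under_mem v.asIdeal
  have h2 := map_dvd (Ideal.absNorm (S := 𝓞 K)) h1
  rw [map_prod, Ideal.absNorm_span_singleton, show ((ℓ : 𝓞 K)) = algebraMap ℤ (𝓞 K) (ℓ : ℤ) by simp,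
    Algebra.norm_algebraMap, NumberField.RingOfIntegers.rank, Int.natAbs_pow,
    Int.natAbs_natCast] at h2
  have h3 : ℓ ^ F.card ∣ ∏ v ∈ F, Ideal.absNorm v.asIdeal := by
    rw [← Finset.prod_const]
    refine Finset.prod_dvd_prod_of_dvd _ _ fun v hv ↦ ?_
    obtain ⟨f, hf, hf1⟩ := exists_absNorm_eq_pow v
    rw [hf, hF v hv]
    exact dvd_pow_self _ (by omega)
  exact Nat.pow_dvd_pow_iff_le_right hℓ.one_lt |>.mp (h3.trans h2)

variable (K) in
/-- The sum over the primes of degree at least two converges at `s = 1`. -/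
lemma exists_bound_higherDegree : ∃ B : ℝ, ∀ s : ℝ, 1 < s →
    ∀ F : Finset (HeightOneSpectrum (𝓞 K)), (∀ v ∈ F, ¬ (Ideal.absNorm v.asIdeal).Prime) →
      ∑ v ∈ F, npow v s ≤ B := by
  refine ⟨(Module.finrank ℚ K : ℝ) * ∑' n : ℕ, ((n : ℝ) ^ 2)⁻¹, fun s hs F hF ↦ ?_⟩
  have hle : ∀ v ∈ F, npow v s ≤ ((resChar v : ℝ) ^ 2)⁻¹ := by
    intro v hv
    obtain ⟨f, hf, hf1⟩ := exists_absNorm_eq_pow v
    have hf2 : 2 ≤ f := by
      by_contra h
      exact hF v hv (by rw [hf, show f = 1 by omega, pow_one]; exact resChar_prime v)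
    have h2 : (1 : ℝ) ≤ resChar v := by exact_mod_cast (resChar_prime v).one_lt.le
    calc npow v s ≤ (Ideal.absNorm v.asIdeal : ℝ) ^ (-(1 : ℝ)) :=
          Real.rpow_le_rpow_of_exponent_le (by rw [hf]; push_cast; exact one_le_pow₀ h2)
            (by linarith)
      _ = ((resChar v : ℝ) ^ f)⁻¹ := by rw [Real.rpow_neg_one, hf]; push_cast; rfl
      _ ≤ _ := inv_anti₀ (by positivity) (pow_le_pow_right₀ h2 hf2)
  refine (Finset.sum_le_sum hle).trans ?_
  rw [← Finset.sum_fiberwise_of_maps_to (g := resChar) (t := F.image resChar)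
    (fun v hv ↦ Finset.mem_image_of_mem _ hv), ← tsum_mul_left]
  refine le_trans (Finset.sum_le_sum fun n hn ↦ ?_)
    (Summable.sum_le_tsum _ (fun n _ ↦ by positivity)
      ((Real.summable_nat_pow_inv.mpr one_lt_two).mul_left _))
  obtain ⟨v, _, rfl⟩ := Finset.mem_image.mp hn
  refine le_trans (Finset.sum_le_card_nsmul _ _ (((resChar v : ℝ) ^ 2)⁻¹) fun w hw ↦ ?_) ?_
  · rw [(Finset.mem_filter.mp hw).2]
  · rw [nsmul_eq_mul]
    refine mul_le_mul_of_nonneg_right (Nat.cast_le.mpr ?_) (by positivity)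
    exact card_primes_over_le _ (resChar_prime v) _ fun w hw ↦ (Finset.mem_filter.mp hw).2

/-- The density contradiction: the primes of degree one at which a nontrivial class character is
not `1` cannot, up to finitely many, all have `p ≥ 3` primes of the same norm above them in
another number field. -/
theorem no_class_character {p : ℕ} (hp : 3 ≤ p) (χ : ClassGroup (𝓞 K) →* ℂ)
    (hχ : ∀ C, ‖χ C‖ = 1) (hne : χ ≠ 1)
    (K' : Type*) [Field K'] [NumberField K'] (E : Finset (HeightOneSpectrum (𝓞 K)))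
    (Φ : {v : HeightOneSpectrum (𝓞 K) // χ (ClassGroup.mk0 (primeIdeal v)) ≠ 1 ∧
      (Ideal.absNorm v.asIdeal).Prime ∧ v ∉ E} × Fin p → HeightOneSpectrum (𝓞 K'))
    (hΦ : Function.Injective Φ)
    (hnorm : ∀ x, Ideal.absNorm (Φ x).asIdeal = Ideal.absNorm x.1.1.asIdeal) : False := by
  have hsum : ∑ C, χ C = 0 := by
    obtain ⟨C₀, hC₀⟩ : ∃ C₀, χ C₀ ≠ 1 := by
      by_contra h
      push Not at h
      exact hne (MonoidHom.ext fun C ↦ by simp [h C])
    have : χ C₀ * ∑ C, χ C = ∑ C, χ C := by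
      rw [Finset.mul_sum]
      exact (Finset.sum_congr rfl fun C _ ↦ (map_mul χ C₀ C).symm).trans
        (Equiv.sum_comp (Equiv.mulLeft C₀) χ)
    exact (mul_left_eq_self₀.mp this).resolve_left hC₀
  obtain ⟨M, hM⟩ := exists_bound_LFunction (fun C ↦ χ C) hsum
  obtain ⟨B, hB⟩ := exists_bound_higherDegree K
  set c := dedekindZeta_residue K
  set c' := dedekindZeta_residue K'
  have hc : 0 < c := dedekindZeta_residue_pos K
  have hc' : 0 < c' := dedekindZeta_residue_pos K'
  set C₀ : ℝ := Real.exp (sqBound K') * (c' + 1)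
  set D : ℝ := B + (E.card : ℝ)
  have key : ∀ᶠ s in 𝓝[>] (1 : ℝ),
      (c / 2 * Real.exp (-(3 * sqBound K))) ^ p ≤
        M ^ p * (C₀ * Real.exp ((p : ℝ) * D)) ^ 2 * (s - 1) ^ (p - 2) := by
    filter_upwards [self_mem_nhdsWithin, hM,
      (tendsto_sub_one_mul_idealZeta (K := K)).eventually
        (eventually_ge_nhds (half_lt_self hc)),
      (tendsto_sub_one_mul_idealZeta (K := K')).eventually
        (eventually_le_nhds (lt_add_one c'))] with s hs hsM hzK hzK'
    have hs : 1 < s := hs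
    set T := {v : HeightOneSpectrum (𝓞 K) | χ (ClassGroup.mk0 (primeIdeal v)) ≠ 1}
    set T₁ := {v : HeightOneSpectrum (𝓞 K) | χ (ClassGroup.mk0 (primeIdeal v)) ≠ 1 ∧
      (Ideal.absNorm v.asIdeal).Prime ∧ v ∉ E}
    set PT := ∑' v : T, npow (v : HeightOneSpectrum (𝓞 K)) s
    set PT₁ := ∑' v : T₁, npow (v : HeightOneSpectrum (𝓞 K)) s
    have hsn := summable_npow (K := K) hs
    have hs1 : Summable fun v : T₁ ↦ npow (v : HeightOneSpectrum (𝓞 K)) s :=
      hsn.comp_injective Subtype.val_injective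
    have hsT : Summable fun v : T ↦ npow (v : HeightOneSpectrum (𝓞 K)) s :=
      hsn.comp_injective Subtype.val_injective
    have hsplit : PT ≤ PT₁ + D := by
      have hfin : ∀ F : Finset (HeightOneSpectrum (𝓞 K)), (∀ v ∈ F, v ∈ T) →
          ∑ v ∈ F, npow v s ≤ PT₁ + D := by
        intro F hF
        rw [← Finset.sum_filter_add_sum_filter_not F (· ∈ T₁)]
        refine add_le_add ?_ ?_
        · rw [← Finset.sum_subtype_eq_sum_filter]
          exact hs1.sum_le_tsum _ (fun v _ ↦ npow_nonneg _ _)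
        · rw [← Finset.sum_filter_add_sum_filter_not _ (· ∈ E), add_comm]
          refine add_le_add (hB s hs _ fun v hv hprime ↦ ?_) ?_
          · simp only [Finset.mem_filter] at hv
            exact hv.1.2 ⟨hF v hv.1.1, hprime, hv.2⟩
          · refine le_trans (Finset.sum_le_card_nsmul _ _ 1 fun v _ ↦
              (npow_le_half hs.le v).trans (by norm_num)) ?_
            rw [nsmul_eq_mul, mul_one, Nat.cast_le]
            exact Finset.card_le_card fun v hv ↦ (Finset.mem_filter.mp hv).2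
      refine hsT.tsum_le_of_sum_le fun F ↦ ?_
      have := hfin (F.map ⟨Subtype.val, Subtype.val_injective⟩) fun v hv ↦ by
        obtain ⟨w, _, rfl⟩ := Finset.mem_map.mp hv; exact w.2
      simpa using this
    have hzK'2 : Real.exp ((p : ℝ) * PT₁) * (s - 1) ≤ C₀ := by
      have hle : (p : ℝ) * PT₁ ≤ primeSum K' s := by
        have hinj := Summable.tsum_le_tsum_of_inj
          (f := fun x : T₁ × Fin p ↦ npow (x.1 : HeightOneSpectrum (𝓞 K)) s)
          (g := fun w : HeightOneSpectrum (𝓞 K') ↦ npow w s) Φ hΦ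
          (fun w _ ↦ npow_nonneg w s)
          (fun x ↦ le_of_eq (by simp only [npow]; rw [← hnorm x]))
        have hsp : Summable fun x : T₁ × Fin p ↦ npow (x.1 : HeightOneSpectrum (𝓞 K)) s :=
          (summable_prod_of_nonneg fun x ↦ npow_nonneg _ _).mpr
            ⟨fun v ↦ Summable.of_finite, by simpa using hs1.mul_left (p : ℝ)⟩
        refine le_trans (le_of_eq ?_) (hinj hsp (summable_npow hs))
        rw [hsp.tsum_prod, ← tsum_mul_left]
        exact tsum_congr fun v ↦ by simp [tsum_fintype]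
      have h1 := exp_primeSum_le (K := K') hs
      have h2 : Real.exp ((p : ℝ) * PT₁) ≤ Real.exp (sqBound K') * idealZeta K' s := by
        refine le_trans (Real.exp_le_exp.mpr (hle.trans (by linarith :
          primeSum K' s ≤ sqBound K' + (primeSum K' s - sqBound K')))) ?_
        rw [Real.exp_add]
        exact mul_le_mul_of_nonneg_left h1 (Real.exp_pos _).le
      calc _ ≤ Real.exp (sqBound K') * idealZeta K' s * (s - 1) :=
            mul_le_mul_of_nonneg_right h2 (by linarith)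
        _ = Real.exp (sqBound K') * ((s - 1) * idealZeta K' s) := by ring
        _ ≤ C₀ := mul_le_mul_of_nonneg_left hzK' (Real.exp_pos _).le
    have hPT : Real.exp ((p : ℝ) * PT) * (s - 1) ≤ C₀ * Real.exp ((p : ℝ) * D) := by
      calc _ ≤ Real.exp ((p : ℝ) * PT₁ + (p : ℝ) * D) * (s - 1) := by
            refine mul_le_mul_of_nonneg_right (Real.exp_le_exp.mpr ?_) (by linarith)
            rw [← mul_add]; exact mul_le_mul_of_nonneg_left hsplit (Nat.cast_nonneg _)
        _ = Real.exp ((p : ℝ) * PT₁) * (s - 1) * Real.exp ((p : ℝ) * D) := by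
            rw [Real.exp_add]; ring
        _ ≤ _ := mul_le_mul_of_nonneg_right hzK'2 (Real.exp_pos _).le
    have hP : c / 2 * Real.exp (-(2 * sqBound K)) ≤ Real.exp (primeSum K s) * (s - 1) := by
      have h := idealZeta_le_exp (K := K) hs
      rw [Real.exp_add] at h
      rw [Real.exp_neg, mul_inv_le_iff₀ (Real.exp_pos _)]
      nlinarith [mul_le_mul_of_nonneg_left h (by linarith : (0 : ℝ) ≤ s - 1)]
    have hL : Real.exp (primeSum K s - 2 * PT - sqBound K) ≤ M := by
      refine le_trans ?_ hsM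
      refine le_trans (Real.exp_le_exp.mpr ?_) (exp_le_norm_lFunction hχ hs)
      refine sub_le_sub_right ?_ _
      have hre : Summable fun v : HeightOneSpectrum (𝓞 K) ↦
          (χ (ClassGroup.mk0 (primeIdeal v))).re * npow v s :=
        Summable.of_norm_bounded (g := fun v ↦ npow v s) hsn fun v ↦ by
          rw [Real.norm_eq_abs, abs_mul, abs_of_nonneg (npow_nonneg v s)]
          exact mul_le_of_le_one_left (npow_nonneg v s)
            ((Complex.abs_re_le_norm _).trans (hχ _).le)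
      have hPTi : PT = ∑' v, T.indicator (fun v ↦ npow v s) v := tsum_subtype T fun v ↦ npow v s
      have hTi : Summable fun v ↦ T.indicator (fun v ↦ npow v s) v := hsn.indicator T
      rw [hPTi, primeSum, ← tsum_mul_left, ← hsn.tsum_sub (hTi.mul_left 2)]
      refine (hsn.sub (hTi.mul_left 2)).tsum_le_tsum (fun v ↦ ?_) hre
      by_cases hv : v ∈ T
      · rw [Set.indicator_of_mem hv]
        nlinarith [npow_nonneg v s,
          (abs_le.mp ((Complex.abs_re_le_norm _).trans (hχ (ClassGroup.mk0 (primeIdeal v))).le)).1]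
      · rw [Set.indicator_of_notMem hv]
        simp [not_not.mp hv]
    have hM0 : 0 ≤ M := (Real.exp_pos _).le.trans hL
    have e1 : (c / 2 * Real.exp (-(2 * sqBound K))) ^ p ≤
        (Real.exp (primeSum K s) * (s - 1)) ^ p :=
      pow_le_pow_left₀ (by positivity) hP p
    have e2 : Real.exp (primeSum K s) ^ p * Real.exp (-(sqBound K)) ^ p ≤
        M ^ p * Real.exp ((p : ℝ) * PT) ^ 2 := by
      have h := pow_le_pow_left₀ (Real.exp_pos _).le hL p
      rw [show primeSum K s - 2 * PT - sqBound K =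
        primeSum K s + -(sqBound K) + -(2 * PT) by ring, Real.exp_add, Real.exp_add,
        mul_pow, mul_pow, ← Real.exp_nat_mul _ p, ← Real.exp_nat_mul _ p,
        ← Real.exp_nat_mul (-(2 * PT)) p, mul_neg (p : ℝ) (2 * PT), Real.exp_neg,
        mul_inv_le_iff₀ (Real.exp_pos _)] at h
      rw [← Real.exp_nat_mul _ p, ← Real.exp_nat_mul _ p, ← Real.exp_nat_mul _ 2]
      refine h.trans (le_of_eq ?_)
      push_cast; ring_nf
    have hp2 : p = (p - 2) + 2 := by omega
    calc (c / 2 * Real.exp (-(3 * sqBound K))) ^ p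
        = (c / 2 * Real.exp (-(2 * sqBound K))) ^ p * Real.exp (-(sqBound K)) ^ p := by
          rw [← mul_pow, mul_assoc, ← Real.exp_add]; ring_nf
      _ ≤ (Real.exp (primeSum K s) * (s - 1)) ^ p * Real.exp (-(sqBound K)) ^ p :=
          mul_le_mul_of_nonneg_right e1 (by positivity)
      _ = Real.exp (primeSum K s) ^ p * Real.exp (-(sqBound K)) ^ p * (s - 1) ^ p := by rw [mul_pow]; ring
      _ ≤ M ^ p * Real.exp ((p : ℝ) * PT) ^ 2 * (s - 1) ^ p :=
          mul_le_mul_of_nonneg_right e2 (pow_nonneg (by linarith) _)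
      _ = M ^ p * (Real.exp ((p : ℝ) * PT) * (s - 1)) ^ 2 * (s - 1) ^ (p - 2) := by
          rw [show (s - 1) ^ p = (s - 1) ^ (p - 2) * (s - 1) ^ 2 by rw [← pow_add, ← hp2]]
          ring
      _ ≤ _ := by
          refine mul_le_mul_of_nonneg_right (mul_le_mul_of_nonneg_left
            (pow_le_pow_left₀ (mul_nonneg (Real.exp_pos _).le (by linarith)) hPT 2)
            (pow_nonneg hM0 _)) (pow_nonneg (by linarith) _)
  have hlim : Tendsto (fun s : ℝ ↦
      M ^ p * (C₀ * Real.exp ((p : ℝ) * D)) ^ 2 * (s - 1) ^ (p - 2)) (𝓝[>] 1) (𝓝 0) := by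
    have : Continuous fun s : ℝ ↦
        M ^ p * (C₀ * Real.exp ((p : ℝ) * D)) ^ 2 * (s - 1) ^ (p - 2) := by fun_prop
    simpa [zero_pow (show p - 2 ≠ 0 by omega)] using (this.tendsto 1).mono_left nhdsWithin_le_nhds
  have := ge_of_tendsto hlim key
  exact absurd this (not_le.mpr (pow_pos (by positivity) _))

end FLTAgent.ExtVanishing
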