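import Mathlib

/-!
Thaine's construction: from the cyclotomic unit `1 + ζ` of `ℚ(ζ)` and a prime `ℓ ≡ 1 mod p`, an
element whose divisor is, modulo `p`, supported at the primes over `ℓ`, with multiplicities given
by the discrete logarithms of `1 + ζ`.
-/

set_option autoImplicit false

noncomputable section

open NumberField Polynomial UniqueFactorizationMonoid Ideal
open scoped Classical

namespace FLTAgent.ExtVanishing

variable {K : Type} [Field K] [NumberField K]

/-- The order of `a` at the prime `Q`. -/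
def ordAt (Q : Ideal (𝓞 K)) (a : 𝓞 K) : ℕ :=
  (normalizedFactors (span {a})).count Q

lemma ordAt_mul (Q : Ideal (𝓞 K)) {a b : 𝓞 K} (ha : a ≠ 0) (hb : b ≠ 0) :
    ordAt Q (a * b) = ordAt Q a + ordAt Q b := by
  rw [ordAt, ← span_singleton_mul_span_singleton,
    normalizedFactors_mul (by simpa using ha) (by simpa using hb), Multiset.count_add]
  rfl

lemma ordAt_pow (Q : Ideal (𝓞 K)) (a : 𝓞 K) (n : ℕ) : ordAt Q (a ^ n) = n * ordAt Q a := by
  rw [ordAt, ← span_singleton_pow, normalizedFactors_pow, Multiset.count_nsmul]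
  rfl

lemma ordAt_eq_of_span_eq (Q : Ideal (𝓞 K)) {a b : 𝓞 K} (h : span {a} = span {b}) :
    ordAt Q a = ordAt Q b := by
  rw [ordAt, h]
  rfl

lemma ordAt_spec (Q : Ideal (𝓞 K)) [Q.IsPrime] (hQ : Q ≠ ⊥) {a : 𝓞 K} (ha : a ≠ 0) :
    a ∈ Q ^ ordAt Q a ∧ a ∉ Q ^ (ordAt Q a + 1) := by
  have hp := prime_of_isPrime hQ inferInstance
  have ha0 : span {a} ≠ 0 := by simpa using ha
  have h := emultiplicity_eq_count_normalizedFactors hp.irreducible ha0
  rw [normalize_eq] at h
  rw [← span_singleton_le_iff_mem, ← span_singleton_le_iff_mem, ← Ideal.dvd_iff_le,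
    ← Ideal.dvd_iff_le, pow_dvd_iff_le_emultiplicity, pow_dvd_iff_le_emultiplicity, h, ordAt]
  simp only [Nat.cast_le]
  omega

variable {L : Type} [Field L] [NumberField L] [Algebra K L]

/-- Orders in an extension. -/
lemma ordAt_algebraMap (P : Ideal (𝓞 L)) [P.IsPrime] (hP : P ≠ ⊥) {a : 𝓞 K} (ha : a ≠ 0) :
    ordAt P (algebraMap (𝓞 K) (𝓞 L) a) =
      P.ramificationIdx (𝓞 K) * ordAt (P.under (𝓞 K)) a := by
  have hinj : Function.Injective (algebraMap (𝓞 K) (𝓞 L)) := FaithfulSMul.algebraMap_injective _ _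
  have key : ∀ s : Multiset (Ideal (𝓞 K)), (∀ I ∈ s, Prime I) →
      (normalizedFactors (s.prod.map (algebraMap (𝓞 K) (𝓞 L)))).count P =
        P.ramificationIdx (𝓞 K) * s.count (P.under (𝓞 K)) := by
    intro s
    induction s using Multiset.induction with
    | empty =>
      intro
      rw [Multiset.prod_zero, Ideal.one_eq_top, Ideal.map_top, ← Ideal.one_eq_top,
        normalizedFactors_one]
      simp
    | cons I s ih =>
      intro h
      have hI := h I (Multiset.mem_cons_self _ _)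
      have hs := fun J hJ ↦ h J (Multiset.mem_cons_of_mem hJ)
      have hne : ∀ J : Ideal (𝓞 K), J ≠ 0 → J.map (algebraMap (𝓞 K) (𝓞 L)) ≠ 0 := fun J hJ ↦
        (Ideal.map_eq_bot_iff_of_injective hinj).not.mpr hJ
      rw [Multiset.prod_cons, Ideal.map_mul, normalizedFactors_mul (hne _ hI.ne_zero)
        (hne _ (Multiset.prod_ne_zero fun h0 ↦ (hs 0 h0).ne_zero rfl)), Multiset.count_add,
        ih hs, Multiset.count_cons, mul_add, add_comm]
      congr 1
      split_ifs with he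
      · subst he
        haveI : P.LiesOver (P.under (𝓞 K)) := Ideal.over_under P
        rw [mul_one, Ideal.IsDedekindDomain.ramificationIdx_eq_normalizedFactors_count (P.under (𝓞 K)) P
          (hne _ hI.ne_zero)]
      · rw [mul_zero, Multiset.count_eq_zero]
        intro hmem
        refine he ((Ideal.IsMaximal.eq_of_le
          ((Ideal.isPrime_of_prime hI).isMaximal hI.ne_zero)
          (Ideal.IsPrime.ne_top inferInstance) (Ideal.map_le_iff_le_comap.mp
            (Ideal.dvd_iff_le.mp (dvd_of_mem_normalizedFactors hmem)))).symm)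
  have ha0 : span {a} ≠ (0 : Ideal (𝓞 K)) := by simpa using ha
  have := key (normalizedFactors (span {a})) fun I hI ↦ prime_of_normalized_factor I hI
  rw [_root_.prod_normalizedFactors_eq_self ha0, Ideal.map_span, Set.image_singleton] at this
  unfold ordAt
  convert this

section Cyclotomic

variable {p : ℕ} [hp : Fact p.Prime] [IsCyclotomicExtension {p} ℚ K]
  {ℓ : ℕ} [hℓ : Fact ℓ.Prime]

variable (K p ℓ) in
/-- `K(μ_ℓ)` is the `pℓ`-th cyclotomic field. -/
lemma isCyclotomicExtension_mul (hne : p ≠ ℓ) (M : Type*) [Field M] [Algebra ℚ M] [Algebra K M]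
    [IsScalarTower ℚ K M] [IsCyclotomicExtension {ℓ} K M] :
    IsCyclotomicExtension {p * ℓ} ℚ M := by
  have h := IsCyclotomicExtension.trans {p} {ℓ} ℚ K M (algebraMap K M).injective
  obtain ⟨a, ha⟩ := h.exists_isPrimitiveRoot (Set.mem_union_left _ rfl) hp.out.ne_zero
  obtain ⟨b, hb⟩ := h.exists_isPrimitiveRoot (Set.mem_union_right _ rfl) hℓ.out.ne_zero
  refine ⟨fun {n} hn _ ↦ ?_, fun x ↦ ?_⟩
  · rw [Set.mem_singleton_iff] at hn
    subst hn
    exact ⟨a * b, IsPrimitiveRoot.iff_orderOf.mpr (by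
      rw [(Commute.all a b).orderOf_mul_eq_mul_orderOf_of_coprime, ← ha.eq_orderOf, ← hb.eq_orderOf]
      rw [← ha.eq_orderOf, ← hb.eq_orderOf]
      exact (Nat.coprime_primes hp.out hℓ.out).mpr hne)⟩
  · refine Algebra.adjoin_mono ?_ (h.adjoin_roots x)
    rintro y ⟨n, hn, hn0, hy⟩
    refine ⟨p * ℓ, rfl, mul_ne_zero hp.out.ne_zero hℓ.out.ne_zero, ?_⟩
    rcases hn with hn | hn <;> rw [Set.mem_singleton_iff] at hn <;> subst hn
    · rw [pow_mul, hy, one_pow]
    · rw [mul_comm, pow_mul, hy, one_pow]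

lemma ne_of_modEq (h1 : ℓ % p = 1) : p ≠ ℓ := by
  rintro rfl; simp at h1

/-- **Thaine's lemma** for the unit `1 + ζ`. -/
theorem exists_thaine {ζ : 𝓞 K} (hζ : IsPrimitiveRoot ζ p) (hp3 : 3 ≤ p) (h1 : ℓ % p = 1) :
    ∃ (g : ℕ) (κ : 𝓞 K), κ ≠ 0 ∧ (∀ x : (ZMod ℓ)ˣ, ∃ k : ℕ, (x : ZMod ℓ) = (g : ZMod ℓ) ^ k) ∧
      ∀ Q : Ideal (𝓞 K), Q.IsPrime → Q ≠ ⊥ →
        ((ℓ : 𝓞 K) ∉ Q → p ∣ ordAt Q κ) ∧
          ((ℓ : 𝓞 K) ∈ Q → (1 + ζ) * (g : 𝓞 K) ^ ordAt Q κ - 1 ∈ Q) := by
  have hne : p ≠ ℓ := ne_of_modEq h1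
  have hp1 : 1 < p := hp.out.one_lt
  have hl2 : 3 ≤ ℓ := by
    have h1' := Nat.mod_add_div ℓ p
    have : ℓ / p ≠ 0 := fun h0 ↦ by rw [h0, h1] at h1'; simp at h1'; exact hℓ.out.ne_one h1'.symm
    have : p ≤ p * (ℓ / p) := Nat.le_mul_of_pos_right p (Nat.pos_of_ne_zero this)
    omega
  let M := CyclotomicField ℓ K
  haveI : NumberField M := IsCyclotomicExtension.numberField {ℓ} K M
  haveI hC : IsCyclotomicExtension {p * ℓ} ℚ M := isCyclotomicExtension_mul K p ℓ hne M
  haveI : NeZero (p * ℓ) := ⟨mul_ne_zero hp.out.ne_zero hℓ.out.ne_zero⟩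
  haveI : FiniteDimensional K M := IsCyclotomicExtension.finiteDimensional {ℓ} K M
  have hdeg : Module.finrank K M = ℓ - 1 := by
    have h := Module.finrank_mul_finrank ℚ K M
    rw [IsCyclotomicExtension.finrank (n := p) K (cyclotomic.irreducible_rat hp.out.pos),
      IsCyclotomicExtension.finrank (n := p * ℓ) M (cyclotomic.irreducible_rat (NeZero.pos _)),
      Nat.totient_mul ((Nat.coprime_primes hp.out hℓ.out).mpr hne),
      Nat.totient_prime hp.out, Nat.totient_prime hℓ.out] at h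
    exact Nat.eq_of_mul_eq_mul_left (by omega) h
  obtain ⟨z₀, hz₀⟩ := IsCyclotomicExtension.exists_isPrimitiveRoot K M (Set.mem_singleton ℓ)
    hℓ.out.ne_zero
  have hirr : Irreducible (cyclotomic ℓ K) := by
    have hint : IsIntegral K z₀ := IsIntegral.of_finite K z₀
    have hev : aeval z₀ (cyclotomic ℓ K) = 0 := by
      rw [aeval_def, eval₂_eq_eval_map, map_cyclotomic, ← IsRoot.def]
      exact hz₀.isRoot_cyclotomic hℓ.out.pos
    have hgen : (hz₀.powerBasis K).dim = ℓ - 1 := by rw [← PowerBasis.finrank, hdeg]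
    rw [IsPrimitiveRoot.powerBasis_dim] at hgen
    have := eq_of_monic_of_dvd_of_natDegree_le (minpoly.monic hint) (cyclotomic.monic ℓ K)
      (minpoly.dvd K z₀ hev) (by rw [natDegree_cyclotomic, Nat.totient_prime hℓ.out, hgen])
    exact this ▸ minpoly.irreducible hint
  haveI : IsGalois K M := IsCyclotomicExtension.isGalois {ℓ} K M
  set aut := IsCyclotomicExtension.autEquivPow M hirr
  obtain ⟨γ, hγ⟩ := IsCyclic.exists_generator (α := (ZMod ℓ)ˣ)
  set τ := aut.symm γ
  have hτ : ∀ σ, σ ∈ Subgroup.zpowers τ := by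
    intro σ
    obtain ⟨k, hk⟩ := Subgroup.mem_zpowers_iff.mp (hγ (aut σ))
    exact Subgroup.mem_zpowers_iff.mpr ⟨k, by rw [← map_zpow, hk, MulEquiv.symm_apply_apply]⟩
  set z : 𝓞 M := (IsCyclotomicExtension.zeta_spec ℓ K M).toInteger
  have hz : IsPrimitiveRoot z ℓ := (IsCyclotomicExtension.zeta_spec ℓ K M).toInteger_isPrimitiveRoot
  set g : ℕ := ((γ : ZMod ℓ)).val with hgdef
  have hzcoe : (z : M) = IsCyclotomicExtension.zeta ℓ K M := rfl
  -- the action on integers
  set T : 𝓞 M →+* 𝓞 M := (galRestrict (𝓞 K) K M (𝓞 M) τ).toRingEquiv.toRingHom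
  have hTcoe : ∀ x : 𝓞 M, ((T x : 𝓞 M) : M) = τ (x : M) := fun x ↦
    algebraMap_galRestrictHom_apply (𝓞 K) K M (𝓞 M) τ x
  have hTK : ∀ c : 𝓞 K, T (algebraMap (𝓞 K) (𝓞 M) c) = algebraMap (𝓞 K) (𝓞 M) c := fun c ↦
    (galRestrict (𝓞 K) K M (𝓞 M) τ).commutes c
  have hTz : T z = z ^ g := by
    refine RingOfIntegers.ext ?_
    have h := (IsCyclotomicExtension.zeta_spec ℓ K M).autToPow_spec K τ
    have haut : (IsCyclotomicExtension.zeta_spec ℓ K M).autToPow K τ = γ := aut.apply_symm_apply γ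
    rw [haut] at h
    rw [hTcoe, hzcoe, ← h]
    exact (congrArg (· ^ g) hzcoe).symm
  -- the unit of norm one
  set c₁ : 𝓞 M := algebraMap (𝓞 K) (𝓞 M) ζ
  set c₂ : 𝓞 M := algebraMap (𝓞 K) (𝓞 M) (ζ ^ 2)
  have hnorm : ∀ c : 𝓞 K, c ^ ℓ = c → c ≠ 1 →
      IsUnit (z - algebraMap (𝓞 K) (𝓞 M) c) ∧
      Algebra.norm K ((z - algebraMap (𝓞 K) (𝓞 M) c : 𝓞 M) : M) = 1 := by
    intro c hc hc1
    have hev : (cyclotomic ℓ K).eval (c : K) = 1 := by
      have := congrArg (Polynomial.eval (c : K)) (cyclotomic_prime_mul_X_sub_one K ℓ)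
      simp only [eval_mul, eval_sub, eval_X, eval_one, eval_pow] at this
      rw [show (c : K) ^ ℓ = (c : K) from by rw [← map_pow, hc]] at this
      exact mul_right_cancel₀ (sub_ne_zero.mpr fun h ↦ hc1 (RingOfIntegers.ext (by simpa using h)))
        (this.trans (one_mul _).symm)
    have hN : Algebra.norm K ((z - algebraMap (𝓞 K) (𝓞 M) c : 𝓞 M) : M) = 1 := by
      refine (algebraMap K M).injective ?_
      rw [map_one, Algebra.norm_eq_prod_automorphisms]
      have hev' : (cyclotomic ℓ M).eval (algebraMap K M c) = 1 := by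
        rw [← map_cyclotomic ℓ (algebraMap K M), eval_map, eval₂_at_apply, hev, map_one]
      rw [cyclotomic_eq_prod_X_sub_primitiveRoots (IsCyclotomicExtension.zeta_spec ℓ K M),
        eval_prod] at hev'
      refine Eq.trans ?_ hev'
      refine (Finset.prod_bij (s := (Finset.univ : Finset (M ≃ₐ[K] M)))
        (i := fun σ _ ↦ σ (z : M)) (t := primitiveRoots ℓ M) (g := fun μ ↦ μ - algebraMap K M c)
        (fun σ _ ↦ ?_) (fun σ _ σ' _ h ↦ ?_) (fun μ hμ ↦ ?_) (fun σ _ ↦ ?_)).trans ?_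
      rotate_left 4
      · simp only [eval_sub, eval_X, eval_C]
        rw [← Finset.prod_congr rfl (fun (μ : M) _ ↦ neg_sub μ (algebraMap K M c)), Finset.prod_neg,
          (IsCyclotomicExtension.zeta_spec ℓ K M).card_primitiveRoots, Nat.totient_prime hℓ.out,
          (hℓ.out.even_sub_one (by omega)).neg_one_pow, one_mul]
      · rw [mem_primitiveRoots hℓ.out.pos]
        exact (IsCyclotomicExtension.zeta_spec ℓ K M).map_of_injective σ.injective
      · exact AlgEquiv.coe_toAlgHom_injective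
          (((IsCyclotomicExtension.zeta_spec ℓ K M).powerBasis K).algHom_ext (by simpa [hzcoe] using h))
      · rw [mem_primitiveRoots hℓ.out.pos] at hμ
        exact ⟨IsCyclotomicExtension.fromZetaAut hμ hirr, Finset.mem_univ _,
          IsCyclotomicExtension.fromZetaAut_spec hμ hirr⟩
      · rw [RingOfIntegers.coe_eq_algebraMap, map_sub, map_sub, ← IsScalarTower.algebraMap_apply (𝓞 K) (𝓞 M) M,
          IsScalarTower.algebraMap_apply (𝓞 K) K M, AlgEquiv.commutes]
    refine ⟨?_, hN⟩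
    rw [← RingOfIntegers.isUnit_norm K]
    exact (show RingOfIntegers.norm K (z - algebraMap (𝓞 K) (𝓞 M) c) = 1 from
      RingOfIntegers.ext (by simpa using hN)) ▸ isUnit_one
  have hmod : ∀ k : ℕ, (ζ ^ k) ^ ℓ = ζ ^ k := fun k ↦ by
    rw [← pow_mul, mul_comm, pow_mul, ← pow_mod_orderOf ζ ℓ, ← hζ.eq_orderOf, h1, pow_one]
  obtain ⟨hu1, hN1⟩ := hnorm ζ (by simpa using hmod 1) (hζ.ne_one hp1)
  obtain ⟨hu2, hN2⟩ := hnorm (ζ ^ 2) (hmod 2) fun h ↦ by
    have := Nat.le_of_dvd two_pos (hζ.dvd_of_pow_eq_one 2 h); omega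
  obtain ⟨w, hw⟩ := hu1.exists_right_inv
  set ε : 𝓞 M := (z - c₂) * w
  have hNε : Algebra.norm K (ε : M) = 1 := by
    have h := congrArg (fun x : 𝓞 M ↦ Algebra.norm K (x : M)) hw
    simp only [map_mul, hN1, map_one, one_mul] at h
    simp only [ε, map_mul, hN2, c₂, one_mul]
    exact h
  have hεu : IsUnit ε := hu2.mul (IsUnit.of_mul_eq_one_right _ hw)
  haveI : IsCyclic (M ≃ₐ[K] M) := ⟨τ, hτ⟩
  obtain ⟨β, hβ0, hβ⟩ := groupCohomology.exists_mul_galRestrict_of_norm_eq_one
    (A := 𝓞 K) (B := 𝓞 M) (L := M) hτ hNε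
  change ε * T β = β at hβ
  -- the ideal of β is Galois stable
  have hspan : span {T β} = span {β} := by
    conv_rhs => rw [← hβ, span_singleton_mul_left_unit hεu]
  set κ : 𝓞 K := RingOfIntegers.norm K β with hκ
  have hκ0 : κ ≠ 0 := by
    intro h
    have h' : Algebra.norm K (β : M) = 0 := by
      rw [← RingOfIntegers.coe_norm]; rw [← hκ, h]; rfl
    exact hβ0 (RingOfIntegers.ext (by simpa using (Algebra.norm_eq_zero_iff.mp h')))
  have hκspan : span {algebraMap (𝓞 K) (𝓞 M) κ} = span {β ^ (ℓ - 1)} := by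
    have hall : ∀ σ : M ≃ₐ[K] M, span {galRestrict (𝓞 K) K M (𝓞 M) σ β} = span {β} := by
      intro σ
      obtain ⟨k, rfl⟩ : σ ∈ Submonoid.powers τ := mem_powers_iff_mem_zpowers.mpr (hτ σ)
      induction k with
      | zero => simp
      | succ k ih =>
        simp only [pow_succ', map_mul, AlgEquiv.mul_apply]
        change span {T _} = _
        have h := congrArg (Ideal.map T) ih
        simp only [Ideal.map_span, Set.image_singleton] at h
        rw [h, hspan]
    have hprod : algebraMap (𝓞 K) (𝓞 M) κ =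
        ∏ σ : M ≃ₐ[K] M, galRestrict (𝓞 K) K M (𝓞 M) σ β := by
      refine RingOfIntegers.ext ?_
      rw [hκ, RingOfIntegers.coe_algebraMap_norm, Algebra.norm_eq_prod_automorphisms,
        RingOfIntegers.coe_eq_algebraMap (x := ∏ σ : M ≃ₐ[K] M, galRestrict (𝓞 K) K M (𝓞 M) σ β),
        map_prod]
      exact Finset.prod_congr rfl fun σ _ ↦
        (algebraMap_galRestrictHom_apply (𝓞 K) K M (𝓞 M) σ β).symm
    rw [hprod, ← Ideal.prod_span_singleton, Finset.prod_congr rfl (fun σ _ ↦ hall σ),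
      Finset.prod_const, Finset.card_univ, ← Nat.card_eq_fintype_card,
      IsGalois.card_aut_eq_finrank, hdeg, span_singleton_pow]
  refine ⟨g, κ, hκ0, fun x ↦ ?_, fun Q hQ hQ0 ↦ ?_⟩
  · obtain ⟨k, hk⟩ : x ∈ Submonoid.powers γ := mem_powers_iff_mem_zpowers.mpr (hγ x)
    exact ⟨k, by rw [hgdef, ZMod.natCast_val, ZMod.cast_id, ← Units.val_pow_eq_pow_val, ← hk]⟩
  haveI : Q.IsMaximal := hQ.isMaximal hQ0
  obtain ⟨⟨P, hPprime, hPQ⟩⟩ := Q.nonempty_primesOver (S := 𝓞 M)
  have hP0 : P ≠ ⊥ := Ideal.ne_bot_of_liesOver_of_ne_bot hQ0 P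
  have hPQ' : P.under (𝓞 K) = Q := (P.over_def Q).symm
  have hord : P.ramificationIdx (𝓞 K) * ordAt Q κ = (ℓ - 1) * ordAt P β := by
    rw [← hPQ', ← ordAt_algebraMap P hP0 hκ0, ← ordAt_pow]
    exact ordAt_eq_of_span_eq P hκspan
  -- residue characteristic
  set r := absNorm (Q.under ℤ)
  haveI : NeZero Q := ⟨hQ0⟩
  have hr : r.Prime := Nat.absNorm_under_prime Q
  haveI := Fact.mk hr
  haveI : Q.LiesOver (span {(r : ℤ)}) := Int.liesOver_span_absNorm Q
  haveI : P.LiesOver (span {(r : ℤ)}) := LiesOver.trans P Q _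
  have htower : P.ramificationIdx ℤ = Q.ramificationIdx ℤ * P.ramificationIdx (𝓞 K) :=
    Ideal.ramificationIdx_tower (R := ℤ) (q := Q) (r := P)
  have hmem : ∀ n : ℕ, (n : 𝓞 K) ∈ Q → n.Prime → r = n := by
    intro n hn hnp
    rw [← Int.cast_natCast, Int.cast_mem_ideal_iff, Int.natCast_dvd_natCast] at hn
    exact (Nat.prime_dvd_prime_iff_eq hr hnp).mp hn
  refine ⟨fun hlQ ↦ ?_, fun hlQ ↦ ?_⟩
  · have he : P.ramificationIdx (𝓞 K) = 1 := by
      have hrl : r ≠ ℓ := fun h ↦ hlQ (h ▸ Int.absNorm_under_mem Q)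
      by_cases hrp : r = p
      · have eM := IsCyclotomicExtension.Rat.ramificationIdx_eq (p := r) (k := 0) (m := ℓ)
          (p * ℓ) M P (by rw [hrp, zero_add, pow_one])
          (fun h ↦ hrl ((Nat.prime_dvd_prime_iff_eq hr hℓ.out).mp h))
        have eK := IsCyclotomicExtension.Rat.ramificationIdx_eq (p := r) (k := 0) (m := 1)
          p K Q (by rw [hrp, zero_add, pow_one, mul_one])
          (fun h ↦ hr.ne_one (Nat.dvd_one.mp h))
        rw [eM, eK] at htower
        simp only [pow_zero, one_mul] at htower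
        exact (Nat.eq_of_mul_eq_mul_left (by have := hr.two_le; omega)
          (htower.symm.trans (mul_one _).symm))
      · have hnd : ¬ r ∣ p * ℓ := fun h ↦ (hr.dvd_mul.mp h).elim
          (fun h ↦ hrp ((Nat.prime_dvd_prime_iff_eq hr hp.out).mp h))
          (fun h ↦ hrl ((Nat.prime_dvd_prime_iff_eq hr hℓ.out).mp h))
        rw [IsCyclotomicExtension.Rat.ramificationIdx_eq_of_not_dvd r M P hnd] at htower
        exact Nat.eq_one_of_mul_eq_one_left htower.symm
    rw [he, one_mul] at hord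
    rw [hord]
    exact dvd_mul_of_dvd_left (Nat.dvd_of_mod_eq_zero (by
      rw [Nat.sub_mod_eq_zero_of_mod_eq]; rw [h1, Nat.one_mod_eq_one.mpr hp.out.ne_one])) _
  · have hrl : r = ℓ := hmem ℓ hlQ hℓ.out
    have he : P.ramificationIdx (𝓞 K) = ℓ - 1 := by
      have eM := IsCyclotomicExtension.Rat.ramificationIdx_eq (p := r) (k := 0) (m := p)
        (p * ℓ) M P (by rw [hrl, zero_add, pow_one, mul_comm])
        (fun h ↦ hne (((Nat.prime_dvd_prime_iff_eq hr hp.out).mp h).symm.trans hrl))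
      have eK := IsCyclotomicExtension.Rat.ramificationIdx_eq_of_not_dvd r (m := p) K Q
        (fun h ↦ hne (((Nat.prime_dvd_prime_iff_eq hr hp.out).mp h).symm.trans hrl))
      rw [eM, eK] at htower
      simpa [hrl] using htower.symm
    have hvv : ordAt Q κ = ordAt P β := by
      rw [he] at hord
      exact Nat.eq_of_mul_eq_mul_left (by omega) hord
    set v := ordAt P β
    have hlP : (ℓ : 𝓞 M) ∈ P := by
      have := hlQ
      rw [← hPQ', Ideal.mem_comap, map_natCast] at this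
      exact this
    -- z ≡ 1 modulo P
    have hprodz : ∏ i ∈ Finset.range (ℓ - 1), (1 - z ^ (i + 1)) = (ℓ : 𝓞 M) := by
      have := IsPrimitiveRoot.prod_one_sub_pow_eq_order (n := ℓ - 1)
        (μ := z) (by rwa [Nat.sub_add_cancel hℓ.out.one_le])
      rw [this, ← Nat.cast_add_one, Nat.sub_add_cancel hℓ.out.one_le]
    have hzP : z - 1 ∈ P := by
      have h' := hlP
      rw [← hprodz] at h'
      obtain ⟨i, hi, hiP⟩ := (Ideal.IsPrime.prod_mem_iff).mp h'
      have hcop : Nat.Coprime (i + 1) ℓ :=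
        ((hℓ.out.coprime_iff_not_dvd).mpr fun h ↦ by
          have := Nat.le_of_dvd (by omega) h
          have := Finset.mem_range.mp hi
          omega).symm
      obtain ⟨m, hm⟩ := Nat.exists_mul_mod_eq_one_of_coprime hcop hℓ.out.one_lt
      have hdiv : z ^ (i + 1) - 1 ∣ (z ^ (i + 1)) ^ m - 1 := by
        simpa using sub_dvd_pow_sub_pow (z ^ (i + 1)) 1 m
      rw [← pow_mul, ← pow_mod_orderOf z ((i + 1) * m), ← hz.eq_orderOf, hm.2, pow_one] at hdiv
      obtain ⟨y, hy⟩ := hdiv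
      rw [hy]
      exact P.mul_mem_right _ ((P.neg_mem_iff).mp (by simpa using hiP))
    have hTdiff : ∀ x : 𝓞 M, T x - x ∈ P := by
      intro x
      have hzc : IsPrimitiveRoot (algebraMap K M (ζ : K) * (z : M)) (p * ℓ) := by
        have ha : IsPrimitiveRoot (algebraMap K M (ζ : K)) p :=
          (hζ.map_of_injective RingOfIntegers.coe_injective).map_of_injective
            (algebraMap K M).injective
        have hb : IsPrimitiveRoot (z : M) ℓ := hz.map_of_injective RingOfIntegers.coe_injective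
        refine IsPrimitiveRoot.iff_orderOf.mpr ?_
        rw [(Commute.all _ _).orderOf_mul_eq_mul_orderOf_of_coprime, ← ha.eq_orderOf,
          ← hb.eq_orderOf]
        rw [← ha.eq_orderOf, ← hb.eq_orderOf]
        exact (Nat.coprime_primes hp.out hℓ.out).mpr hne
      have htop : x ∈ Algebra.adjoin ℤ {hzc.toInteger} := by
        rw [IsCyclotomicExtension.Rat.adjoin_singleton_eq_top hzc]; trivial
      have hgen : hzc.toInteger = c₁ * z := RingOfIntegers.ext (by
        change algebraMap K M (ζ : K) * (z : M) = _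
        rw [RingOfIntegers.coe_eq_algebraMap (x := c₁ * z), map_mul, ← IsScalarTower.algebraMap_apply (𝓞 K) (𝓞 M) M,
          IsScalarTower.algebraMap_apply (𝓞 K) K M])
      induction htop using Algebra.adjoin_induction with
      | mem y hy =>
        rw [Set.mem_singleton_iff.mp hy, hgen, map_mul, hTK, hTz, ← mul_sub]
        refine P.mul_mem_left _ ?_
        obtain ⟨y', hy'⟩ : z - 1 ∣ z ^ g - 1 := by simpa using sub_dvd_pow_sub_pow z 1 g
        rw [← sub_sub_sub_cancel_right _ z 1, hy']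
        exact sub_mem (P.mul_mem_right _ hzP) hzP
      | algebraMap n => simp
      | add a b _ _ ha hb =>
        rw [map_add, add_sub_add_comm]
        exact add_mem ha hb
      | mul a b _ _ ha hb =>
        rw [map_mul, show T a * T b - a * b = (T a - a) * T b + a * (T b - b) by ring]
        exact add_mem (P.mul_mem_right _ ha) (P.mul_mem_left _ hb)
    -- z - 1 is a uniformiser
    have hz1 : ordAt P (z - 1) = 1 := by
      have hz0 : z - 1 ≠ 0 := sub_ne_zero.mpr (hz.ne_one hℓ.out.one_lt)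
      have hassoc : Associated ((z - 1) ^ (ℓ - 1)) (ℓ : 𝓞 M) := by
        have h : ∀ i ∈ Finset.range (ℓ - 1), Associated (z - 1) (1 - z ^ (i + 1)) := by
          intro i hi
          have hcop : Nat.Coprime (i + 1) ℓ :=
            ((hℓ.out.coprime_iff_not_dvd).mpr fun h ↦ by
              have := Nat.le_of_dvd (by omega) h
              have := Finset.mem_range.mp hi
              omega).symm
          have := hz.associated_sub_one_pow_sub_one_of_coprime hcop
          exact this.trans (Associated.neg_right (Associated.refl _) |>.trans (by rw [neg_sub]))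
        rw [← hprodz, show (z - 1) ^ (ℓ - 1) = ∏ _i ∈ Finset.range (ℓ - 1), (z - 1) by simp]
        exact Associated.prod _ _ _ h
      have h := ordAt_eq_of_span_eq P (span_singleton_eq_span_singleton.mpr hassoc)
      rw [ordAt_pow, show (ℓ : 𝓞 M) = algebraMap (𝓞 K) (𝓞 M) (ℓ : 𝓞 K) by simp,
        ordAt_algebraMap P hP0 (Nat.cast_ne_zero.mpr hℓ.out.ne_zero), hPQ', he] at h
      have h1' : ordAt Q (ℓ : 𝓞 K) = 1 := by
        have hQl : ordAt Q (ℓ : 𝓞 K) = Q.ramificationIdx ℤ := by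
          rw [Ideal.IsDedekindDomain.ramificationIdx_eq_normalizedFactors_count (span {(r : ℤ)}) Q ?_, ordAt,
            Ideal.map_span, Set.image_singleton, map_natCast, hrl]
          rw [Ne, Ideal.map_eq_bot_iff_of_injective (RingHom.injective_int (algebraMap ℤ (𝓞 K)))]
          simp [hr.ne_zero]
        rw [hQl]
        exact IsCyclotomicExtension.Rat.ramificationIdx_eq_of_not_dvd r (m := p) K Q
          (fun h ↦ hne (((Nat.prime_dvd_prime_iff_eq hr hp.out).mp h).symm.trans hrl))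
      rw [h1', mul_one] at h
      exact (Nat.eq_of_mul_eq_mul_left (by omega) (h.trans (mul_one _).symm))
    -- the congruence
    obtain ⟨hβv, hβv'⟩ := ordAt_spec P hP0 hβ0
    obtain ⟨hπ, hπ'⟩ := ordAt_spec P hP0 (sub_ne_zero.mpr (hz.ne_one hℓ.out.one_lt))
    rw [hz1] at hπ hπ'
    have hsup : P ^ v ≤ span {(z - 1) ^ v} ⊔ P ^ (v + 1) := by
      obtain ⟨R, hR⟩ := Ideal.dvd_iff_le.mpr
        ((span_singleton_le_iff_mem _).mpr (Ideal.pow_mem_pow (by simpa using hπ) v) :
          span {(z - 1) ^ v} ≤ P ^ v)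
      rw [hR, pow_succ, ← Ideal.mul_sup]
      have hRP : R ⊔ P = ⊤ := by
        refine ((inferInstance : P.IsPrime).isMaximal hP0).out.2 _ (lt_of_le_of_ne le_sup_right ?_)
        intro hEq
        have hle : R ≤ P := hEq ▸ le_sup_left
        have hz0 : z - 1 ≠ 0 := sub_ne_zero.mpr (hz.ne_one hℓ.out.one_lt)
        obtain ⟨-, hn⟩ := ordAt_spec P hP0 (pow_ne_zero v hz0)
        rw [ordAt_pow, hz1, mul_one] at hn
        apply hn
        rw [← span_singleton_le_iff_mem, hR, pow_succ]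
        exact Ideal.mul_mono_right hle
      rw [hRP, Ideal.mul_top]
    obtain ⟨s, hs, t, ht, hst⟩ := Submodule.mem_sup.mp (hsup hβv)
    obtain ⟨a, rfl⟩ := Ideal.mem_span_singleton.mp hs
    obtain ⟨y', hy'⟩ : z - 1 ∣ z ^ g - 1 := by simpa using sub_dvd_pow_sub_pow z 1 g
    have hgeom : T (z - 1) = (z - 1) * ∑ i ∈ Finset.range g, z ^ i := by
      rw [map_sub, map_one, hTz, mul_geom_sum]
    have hgs : (∑ i ∈ Finset.range g, z ^ i) - (g : 𝓞 M) ∈ P := by
      have : (g : 𝓞 M) = ∑ _i ∈ Finset.range g, (1 : 𝓞 M) := by simp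
      rw [this, ← Finset.sum_sub_distrib]
      refine Ideal.sum_mem _ fun i _ ↦ ?_
      obtain ⟨y, hy⟩ : z - 1 ∣ z ^ i - 1 := by simpa using sub_dvd_pow_sub_pow z 1 i
      rw [hy]
      exact P.mul_mem_right _ hzP
    have hTt : T t ∈ P ^ (v + 1) := by
      have hTP : P.map T ≤ P := Ideal.map_le_iff_le_comap.mpr fun x hx ↦
        Ideal.mem_comap.mpr (by simpa using add_mem (hTdiff x) hx)
      have := Ideal.mem_map_of_mem T ht
      rw [Ideal.map_pow] at this
      exact Ideal.pow_right_mono hTP _ this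
    have hTβ : T β - (g : 𝓞 M) ^ v * β ∈ P ^ (v + 1) := by
      rw [← hst, map_add, map_mul, map_pow, hgeom, mul_pow,
        show ((z - 1) ^ v * (∑ i ∈ Finset.range g, z ^ i) ^ v * T a + T t) -
          (g : 𝓞 M) ^ v * ((z - 1) ^ v * a + t) =
          (z - 1) ^ v * ((∑ i ∈ Finset.range g, z ^ i) ^ v * (T a - a) +
            ((∑ i ∈ Finset.range g, z ^ i) ^ v - (g : 𝓞 M) ^ v) * a) +
          (T t - (g : 𝓞 M) ^ v * t) by ring]
      refine add_mem ?_ (sub_mem hTt ((P ^ (v + 1)).mul_mem_left _ ht))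
      rw [pow_succ]
      refine Ideal.mul_mem_mul (Ideal.pow_mem_pow (by simpa using hπ) v) (add_mem
        (P.mul_mem_left _ (hTdiff a)) (P.mul_mem_right _ ?_))
      obtain ⟨y, hy⟩ := sub_dvd_pow_sub_pow (∑ i ∈ Finset.range g, z ^ i) (g : 𝓞 M) v
      rw [hy]
      exact P.mul_mem_right _ hgs
    have hεg : ε * (g : 𝓞 M) ^ v - 1 ∈ P := by
      by_contra hcon
      apply hβv'
      set x := ε * (g : 𝓞 M) ^ v - 1 with hx
      have hxβ : x * β ∈ P ^ (v + 1) := by
        have h := (P ^ (v + 1)).mul_mem_left ε hTβ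
        rw [mul_sub, hβ] at h
        rw [hx, sub_mul, one_mul, mul_assoc]
        simpa using (neg_mem_iff.mpr h : -(β - ε * ((g : 𝓞 M) ^ v * β)) ∈ _)
      have hco : IsCoprime (span {x}) (P ^ (v + 1)) := by
        refine IsCoprime.pow_right (Ideal.isCoprime_iff_sup_eq.mpr ?_)
        refine ((inferInstance : P.IsPrime).isMaximal hP0).out.2 _ (lt_of_le_of_ne le_sup_right ?_)
        intro hEq
        exact hcon ((span_singleton_le_iff_mem _).mp (hEq ▸ le_sup_left))
      obtain ⟨a', ha', b', hb', hab⟩ := Submodule.mem_sup.mp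
        ((Ideal.isCoprime_iff_sup_eq.mp hco).symm ▸ Submodule.mem_top : (1 : 𝓞 M) ∈ _)
      obtain ⟨a'', rfl⟩ := Ideal.mem_span_singleton.mp ha'
      have hb : β = x * β * a'' + b' * β := by
        conv_lhs => rw [← one_mul β, ← hab]
        ring
      have hmem' : x * β * a'' + b' * β ∈ P ^ (v + 1) := add_mem ((P ^ (v + 1)).mul_mem_right _ hxβ) ((P ^ (v + 1)).mul_mem_right _ hb')
      rwa [← hb] at hmem'
    rw [← hPQ', Ideal.mem_comap, hPQ', hvv]
    simp only [map_sub, map_mul, map_add, map_one, map_pow, map_natCast]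
    change (1 + c₁) * (g : 𝓞 M) ^ v - 1 ∈ P
    -- ε ≡ 1 + ζ
    have hcong : ε - (1 + c₁) ∈ P := by
      have h' : (z - c₁) * (ε - (1 + c₁)) ∈ P := by
        have : (z - c₁) * (ε - (1 + c₁)) = -c₁ * (z - 1) := by
          simp only [ε, c₂, mul_sub (z - c₁) ((z - _) * w), ← mul_assoc, mul_comm (z - c₁) (z - _)]
          rw [mul_assoc, hw, map_pow]
          change (z - c₁ ^ 2) * 1 - (z - c₁) * (1 + c₁) = _
          ring
        rw [this]
        exact P.mul_mem_left _ hzP
      refine ((inferInstance : P.IsPrime).mem_or_mem h').resolve_left fun h ↦ ?_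
      exact (inferInstance : P.IsPrime).ne_top (P.eq_top_of_isUnit_mem h
        (IsUnit.of_mul_eq_one _ hw))
    have := sub_mem hεg (P.mul_mem_right ((g : 𝓞 M) ^ v) hcong)
    convert this using 1
    ring

end Cyclotomic

end FLTAgent.ExtVanishing

end
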