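import Fermat.Agent.ExtVanishing.CycloUnit
import Fermat.Agent.ExtVanishing.Thaine
import Fermat.Agent.ExtVanishing.KummerPrimes
import Fermat.Agent.ExtVanishing.Euler

/-!
The `ω²`-component of the class group of `ℚ(ζ_p)` modulo `p` is trivial.
-/

set_option autoImplicit false

noncomputable section

open NumberField IsDedekindDomain
open scoped Classical nonZeroDivisors

namespace FLTAgent.ExtVanishing

variable {K : Type} [Field K] [NumberField K]
variable {p : ℕ} [hp : Fact p.Prime] [IsCyclotomicExtension {p} ℚ K]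
  {ζ : K} (hζ : IsPrimitiveRoot ζ p)

lemma pow_congr_of_pow_eq_one {G : Type} [Monoid G] {q : ℕ} {x : G} (hx : x ^ q = 1) {m n : ℕ}
    (h : (m : ZMod q) = (n : ZMod q)) : x ^ m = x ^ n := by
  rw [ZMod.natCast_eq_natCast_iff'] at h
  rw [← pow_mod_orderOf x m, ← pow_mod_orderOf x n,
    ← Nat.mod_mod_of_dvd m (orderOf_dvd_of_pow_eq_one hx), h,
    Nat.mod_mod_of_dvd n (orderOf_dvd_of_pow_eq_one hx)]

omit hp [IsCyclotomicExtension {p} ℚ K] in
/-- The residue field of a degree one prime is the prime field. -/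
lemma exists_int_sub_mem (v : HeightOneSpectrum (𝓞 K)) (hℓ : (Ideal.absNorm v.asIdeal).Prime)
    (x : 𝓞 K) : ∃ n : ℤ, x - (n : 𝓞 K) ∈ v.asIdeal := by
  haveI := Fact.mk hℓ
  haveI := v.isPrime
  have hcard : Nat.card (𝓞 K ⧸ v.asIdeal) = Ideal.absNorm v.asIdeal := by
    rw [Ideal.absNorm_apply, Submodule.cardQuot_apply]
  have h1 : (1 : 𝓞 K ⧸ v.asIdeal) ≠ 0 := one_ne_zero
  have := mem_zmultiples_of_prime_card (g' := Ideal.Quotient.mk v.asIdeal x) hcard h1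
  obtain ⟨n, hn⟩ := AddSubgroup.mem_zmultiples_iff.mp this
  refine ⟨n, ?_⟩
  rw [← Ideal.Quotient.eq, ← hn, map_intCast, zsmul_one]

include hζ

/-- The projector. -/
def projCl (C : ClassGroup (𝓞 K)) : ClassGroup (𝓞 K) :=
  ∏ σ : K ≃ₐ[ℚ] K, galCl σ C ^ aExp hζ σ

/-- The projector as a homomorphism. -/
def projHom : ClassGroup (𝓞 K) →* ClassGroup (𝓞 K) where
  toFun := projCl hζ
  map_one' := by simp [projCl]
  map_mul' x y := by simp [projCl, mul_pow, Finset.prod_mul_distrib]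

/-- The projector commutes with the action up to `p`-th powers and the eigencharacter. -/
lemma char_projCl_galCl (φ : ClassGroup (𝓞 K) →* ℂ) (hφ : ∀ C, φ C ^ p = 1) (τ : K ≃ₐ[ℚ] K)
    (C : ClassGroup (𝓞 K)) :
    φ (projHom hζ (galCl τ C)) = φ (projHom hζ C) ^ kExp hζ τ := by
  change φ (projCl hζ (galCl τ C)) = φ (projCl hζ C) ^ kExp hζ τ
  simp only [projCl, map_prod, map_pow, ← galCl_mul, ← Finset.prod_pow, ← pow_mul]
  refine Fintype.prod_equiv (Equiv.mulRight τ) _ _ fun σ ↦ ?_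
  rw [Equiv.coe_mulRight]
  refine pow_congr_of_pow_eq_one (hφ _) ?_
  simp only [Nat.cast_mul, cast_aExp, cast_kExp, map_mul, mul_inv, Units.val_mul]
  linear_combination ((((omega hζ σ)⁻¹ : (ZMod p)ˣ) : ZMod p) ^ 2) *
    ((mul_pow _ _ 2).symm.trans (by rw [Units.inv_mul, one_pow]) :
      (((omega hζ τ)⁻¹ : (ZMod p)ˣ) : ZMod p) ^ 2 * (omega hζ τ : ZMod p) ^ 2 = 1)

/-- The conjugates of a degree one prime not over `p`. -/
lemma mapNonZero_injective {v : HeightOneSpectrum (𝓞 K)}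
    (hℓ : (Ideal.absNorm v.asIdeal).Prime) (hpv : (p : 𝓞 K) ∉ v.asIdeal)
    {σ τ : K ≃ₐ[ℚ] K} (h : v.asIdeal.map (galRing σ : 𝓞 K →+* 𝓞 K) =
      v.asIdeal.map (galRing τ : 𝓞 K →+* 𝓞 K)) : σ = τ := by
  set ρ := τ⁻¹ * σ
  have hρ : ∀ x ∈ v.asIdeal, galRing ρ x ∈ v.asIdeal := by
    intro x hx
    have h1 : galRing σ x ∈ v.asIdeal.map (galRing τ : 𝓞 K →+* 𝓞 K) :=
      h ▸ Ideal.mem_map_of_mem _ hx
    obtain ⟨y, hy, hyx⟩ := (Ideal.mem_map_iff_of_surjective _ (galRing τ).surjective).mp h1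
    have : galRing ρ x = y := by
      refine RingOfIntegers.ext ?_
      rw [coe_galRing, AlgEquiv.mul_apply, ← coe_galRing σ, ← hyx]
      exact τ.symm_apply_apply _
    rwa [this]
  have hres : ∀ x : 𝓞 K, galRing ρ x - x ∈ v.asIdeal := by
    intro x
    obtain ⟨n, hn⟩ := exists_int_sub_mem v hℓ x
    have h1 := hρ _ hn
    rw [map_sub, map_intCast] at h1
    simpa using sub_mem h1 hn
  have hd := hres hζ.toInteger
  rw [galRing_zeta hζ] at hd
  nth_rw 2 [← pow_one hζ.toInteger] at hd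
  have h1 := eq_of_zeta_pow_sub_mem hζ.toInteger_isPrimitiveRoot v.isPrime hpv
    (ZMod.val_lt _) hp.out.one_lt hd
  have hω : omega hζ ρ = 1 := Units.ext (ZMod.val_injective p (h1.trans (ZMod.val_one p).symm))
  have hρ1 : ρ = 1 := (omega_bijective hζ).1 (hω.trans (map_one _).symm)
  exact (inv_mul_eq_one.mp hρ1).symm

/-- The conjugates of a degree one prime are all the primes over its residue characteristic. -/
lemma exists_map_eq_of_mem {v : HeightOneSpectrum (𝓞 K)}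
    (hℓ : (Ideal.absNorm v.asIdeal).Prime) (hpv : (p : 𝓞 K) ∉ v.asIdeal)
    {Q : Ideal (𝓞 K)} (hQ : Q.IsPrime) (hQ0 : Q ≠ ⊥)
    (hlQ : ((Ideal.absNorm v.asIdeal : ℕ) : 𝓞 K) ∈ Q) :
    ∃ σ : K ≃ₐ[ℚ] K, Q = v.asIdeal.map (galRing σ : 𝓞 K →+* 𝓞 K) := by
  set ℓ := Ideal.absNorm v.asIdeal with hℓdef
  set f : (K ≃ₐ[ℚ] K) → Ideal (𝓞 K) := fun σ ↦ v.asIdeal.map (galRing σ : 𝓞 K →+* 𝓞 K)
  have hprime : ∀ σ, Prime (f σ) := fun σ ↦ by
    haveI := v.isPrime
    exact Ideal.prime_of_isPrime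
      ((Ideal.map_eq_bot_iff_of_injective (galRing σ).injective).not.mpr v.ne_bot)
      (Ideal.map_isPrime_of_equiv (galRing σ))
  have hdvd : ∀ σ, f σ ∣ Ideal.span {(ℓ : 𝓞 K)} := fun σ ↦ by
    rw [Ideal.dvd_iff_le, Ideal.span_singleton_le_iff_mem]
    have h := Ideal.mem_map_of_mem (galRing σ : 𝓞 K →+* 𝓞 K) (Ideal.absNorm_mem v.asIdeal)
    rwa [map_natCast] at h
  have hinj : Set.InjOn f (Finset.univ : Finset (K ≃ₐ[ℚ] K)) :=
    fun a _ b _ h ↦ mapNonZero_injective hζ hℓ hpv h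
  have hprod : (∏ σ, f σ) ∣ Ideal.span {(ℓ : 𝓞 K)} := by
    rw [← Finset.prod_image (f := fun x : Ideal (𝓞 K) ↦ x) hinj]
    refine Finset.prod_primes_dvd _ ?_ ?_ <;> intro x hx <;>
      obtain ⟨j, -, rfl⟩ := Finset.mem_image.mp hx
    · exact hprime j
    · exact hdvd j
  obtain ⟨R, hR⟩ := hprod
  have hnormf : ∀ σ, Ideal.absNorm (f σ) = ℓ := fun σ ↦ by
    rw [Ideal.absNorm_apply, hℓdef, Ideal.absNorm_apply, Submodule.cardQuot_apply,
      Submodule.cardQuot_apply]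
    exact (Nat.card_congr (Ideal.quotientEquiv v.asIdeal (f σ) (galRing σ) rfl).toEquiv).symm
  have hR1 : R = ⊤ := by
    rw [← Ideal.absNorm_eq_one_iff]
    have h := congrArg (Ideal.absNorm (S := 𝓞 K)) hR
    rw [map_mul, map_prod, Finset.prod_congr rfl (fun σ _ ↦ hnormf σ), Finset.prod_const,
      Finset.card_univ, ← Nat.card_eq_fintype_card, card_gal hζ, Ideal.absNorm_span_singleton,
      show ((ℓ : 𝓞 K)) = algebraMap ℤ (𝓞 K) (ℓ : ℤ) by simp, Algebra.norm_algebraMap,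
      NumberField.RingOfIntegers.rank, Int.natAbs_pow, Int.natAbs_natCast,
      IsCyclotomicExtension.finrank (n := p) K (Polynomial.cyclotomic.irreducible_rat hp.out.pos),
      Nat.totient_prime hp.out] at h
    exact (Nat.eq_of_mul_eq_mul_left (pow_pos hℓ.pos _) (h.symm.trans (mul_one _).symm))
  rw [hR1, Ideal.mul_top] at hR
  have hle : ∏ σ, f σ ≤ Q := hR ▸ (Ideal.span_singleton_le_iff_mem _).mpr hlQ
  obtain ⟨σ, -, hσ⟩ := (Ideal.IsPrime.prod_le hQ).mp hle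
  exact ⟨σ, (((Ideal.isPrime_of_prime (hprime σ)).isMaximal (hprime σ).ne_zero).eq_of_le
    hQ.ne_top hσ).symm⟩

omit hζ

/-- A class character, evaluated on a factorisation. -/
lemma char_principal (χ : ClassGroup (𝓞 K) →* ℂ) {κ : 𝓞 K} (hκ : κ ≠ 0)
    (F : Finset (HeightOneSpectrum (𝓞 K)))
    (hF : ∀ w : HeightOneSpectrum (𝓞 K), ordAt w.asIdeal κ ≠ 0 → w ∈ F) :
    ∏ w ∈ F, χ (ClassGroup.mk0 (primeIdeal w)) ^ ordAt w.asIdeal κ = 1 := by
  have hspan : Ideal.span {κ} ≠ (0 : Ideal (𝓞 K)) := by simpa using hκ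
  set I : (Ideal (𝓞 K))⁰ := ⟨Ideal.span {κ}, mem_nonZeroDivisors_of_ne_zero hspan⟩
  have hI : I = ∏ w ∈ F, primeIdeal w ^ ordAt w.asIdeal κ := by
    refine Subtype.ext ?_
    rw [Submonoid.coe_finset_prod]
    simp only [SubmonoidClass.coe_pow, primeIdeal, I]
    have h1 := _root_.prod_normalizedFactors_eq_self hspan
    conv_lhs => rw [← h1]
    have hinj : Set.InjOn (fun w : HeightOneSpectrum (𝓞 K) ↦ w.asIdeal) F :=
      fun x _ y _ h ↦ HeightOneSpectrum.ext h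
    rw [← Finset.prod_image (f := fun Q : Ideal (𝓞 K) ↦ Q ^ ordAt Q κ) hinj]
    refine Finset.prod_multiset_count_of_subset _ _ fun Q hQ ↦ ?_
    rw [Multiset.mem_toFinset] at hQ
    have hQp := UniqueFactorizationMonoid.prime_of_normalized_factor Q hQ
    refine Finset.mem_image.mpr ⟨⟨Q, Ideal.isPrime_of_prime hQp, hQp.ne_zero⟩, hF _ ?_, rfl⟩
    exact (Multiset.count_pos.mpr hQ).ne'
  have h1 : ClassGroup.mk0 I = 1 := (ClassGroup.mk0_eq_one_iff I.2).mpr ⟨⟨κ, rfl⟩⟩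
  have h2 := congrArg χ h1
  rw [hI, map_prod, map_prod, map_one] at h2
  simpa only [map_pow] using h2

include hζ

/-- Thaine's lemma: where the eigen-character is nontrivial the unit `c` is a `p`-th power. -/
lemma exists_pow_congr_cUnit (h5 : 5 ≤ p) (χ : ClassGroup (𝓞 K) →* ℂ) (hχp : ∀ C, χ C ^ p = 1)
    (hχe : ∀ τ C, χ (galCl τ C) = χ C ^ kExp hζ τ) (v : HeightOneSpectrum (𝓞 K))
    (hne : χ (ClassGroup.mk0 (primeIdeal v)) ≠ 1) (hℓ : (Ideal.absNorm v.asIdeal).Prime)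
    (hpv : (p : 𝓞 K) ∉ v.asIdeal) :
    ∃ z : 𝓞 K, (cUnit hζ h5 : 𝓞 K) - z ^ p ∈ v.asIdeal := by
  set ℓ := Ideal.absNorm v.asIdeal with hℓdef
  haveI := Fact.mk hℓ
  have hlv : (ℓ : 𝓞 K) ∈ v.asIdeal := Ideal.absNorm_mem _
  have hpl : p ≠ ℓ := fun h ↦ hpv (h ▸ hlv)
  have hmod : ℓ % p = 1 := by
    have hcard : Nat.card (𝓞 K ⧸ v.asIdeal) = ℓ := by
      rw [hℓdef, Ideal.absNorm_apply, Submodule.cardQuot_apply]
    haveI := v.isMaximal
    letI : Field (𝓞 K ⧸ v.asIdeal) := Ideal.Quotient.field _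
    haveI : Finite (𝓞 K ⧸ v.asIdeal) := Nat.finite_of_card_ne_zero (hcard ▸ hℓ.ne_zero)
    set x := Ideal.Quotient.mk v.asIdeal hζ.toInteger
    have hord : orderOf x = p := by
      refine orderOf_eq_prime ?_ ?_
      · rw [← map_pow, hζ.toInteger_isPrimitiveRoot.pow_eq_one, map_one]
      · intro h
        rw [← map_one (Ideal.Quotient.mk v.asIdeal), Ideal.Quotient.eq] at h
        have := eq_of_zeta_pow_sub_mem hζ.toInteger_isPrimitiveRoot v.isPrime hpv hp.out.one_lt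
          hp.out.pos (by simpa using h)
        omega
    have hx0 : x ≠ 0 := fun h ↦ by rw [h, orderOf_zero] at hord; exact hp.out.ne_zero hord.symm
    have hdvd : p ∣ ℓ - 1 := by
      rw [← hord, ← hcard, ← Nat.card_units,
        show x = ((Units.mk0 x hx0 : (𝓞 K ⧸ v.asIdeal)ˣ) : 𝓞 K ⧸ v.asIdeal) from rfl, orderOf_units]
      exact orderOf_dvd_natCard _
    have h := Nat.div_mul_cancel hdvd
    rw [show ℓ = 1 + (ℓ - 1) / p * p by have := hℓ.one_lt; omega, Nat.add_mul_mod_self_right,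
      Nat.mod_eq_of_lt hp.out.one_lt]
  obtain ⟨g, κ, hκ, -, hQ⟩ := exists_thaine hζ.toInteger_isPrimitiveRoot (by omega) hmod
  -- the conjugates of v
  let conj : (K ≃ₐ[ℚ] K) → HeightOneSpectrum (𝓞 K) := fun σ ↦
    ⟨v.asIdeal.map (galRing σ : 𝓞 K →+* 𝓞 K),
      (by haveI := v.isPrime; exact Ideal.map_isPrime_of_equiv (galRing σ)),
      (Ideal.map_eq_bot_iff_of_injective (galRing σ).injective).not.mpr v.ne_bot⟩
  have hconj : Function.Injective conj := fun a b h ↦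
    mapNonZero_injective hζ hℓ hpv (congrArg HeightOneSpectrum.asIdeal h)
  set n : (K ≃ₐ[ℚ] K) → ℕ := fun σ ↦ ordAt (conj σ).asIdeal κ
  have hfin : {w : HeightOneSpectrum (𝓞 K) | ordAt w.asIdeal κ ≠ 0}.Finite := by
    refine (Ideal.finite_factors (show Ideal.span {κ} ≠ (0 : Ideal (𝓞 K)) by simpa using hκ)).subset
      fun w hw ↦ ?_
    exact UniqueFactorizationMonoid.dvd_of_mem_normalizedFactors
      (Multiset.count_ne_zero.mp hw)
  set F := hfin.toFinset ∪ Finset.univ.image conj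
  have hrel := char_principal χ hκ F fun w hw ↦
    Finset.mem_union_left _ (hfin.mem_toFinset.mpr hw)
  have hsub : Finset.univ.image conj ⊆ F := Finset.subset_union_right
  rw [← Finset.prod_sdiff hsub, Finset.prod_eq_one (s := F \ _), one_mul,
    Finset.prod_image fun a _ b _ h ↦ hconj h] at hrel
  swap
  · intro w hw
    rw [Finset.mem_sdiff, Finset.mem_image] at hw
    have hnot : (ℓ : 𝓞 K) ∉ w.asIdeal := fun h ↦ by
      obtain ⟨σ, hσ⟩ := exists_map_eq_of_mem hζ hℓ hpv w.isPrime w.ne_bot h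
      exact hw.2 ⟨σ, Finset.mem_univ _, HeightOneSpectrum.ext hσ.symm⟩
    obtain ⟨m, hm⟩ := (hQ w.asIdeal w.isPrime w.ne_bot).1 hnot
    rw [hm, pow_mul, hχp, one_pow]
  have hval : ∀ σ, χ (ClassGroup.mk0 (primeIdeal (conj σ))) =
      χ (ClassGroup.mk0 (primeIdeal v)) ^ kExp hζ σ := fun σ ↦ by
    rw [← hχe, galCl_mk0]
    exact congrArg (fun I ↦ χ (ClassGroup.mk0 I)) (Subtype.ext rfl)
  simp only [hval, ← pow_mul, Finset.prod_pow_eq_pow_sum] at hrel
  have hS : p ∣ ∑ σ, kExp hζ σ * n σ := by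
    exact (orderOf_eq_prime (hχp _) hne).symm.dvd.trans (orderOf_dvd_of_pow_eq_one hrel)
  obtain ⟨m, hm⟩ := hS
  -- the congruences, moved to v
  set q := Ideal.Quotient.mk v.asIdeal
  have hcong : ∀ σ : K ≃ₐ[ℚ] K,
      q (galUnits σ⁻¹ (baseUnit hζ h5) : 𝓞 K) * q (g : 𝓞 K) ^ n σ = 1 := by
    intro σ
    have hl : (ℓ : 𝓞 K) ∈ (conj σ).asIdeal := by
      have h := Ideal.mem_map_of_mem (galRing σ : 𝓞 K →+* 𝓞 K) hlv
      rwa [map_natCast] at h
    have h := (hQ _ (conj σ).isPrime (conj σ).ne_bot).2 hl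
    obtain ⟨y, hy, hyx⟩ := (Ideal.mem_map_iff_of_surjective _ (galRing σ).surjective).mp h
    have hy' : galRing σ⁻¹ ((1 + hζ.toInteger) * (g : 𝓞 K) ^ n σ - 1) = y := by
      rw [← hyx]
      refine RingOfIntegers.ext ?_
      change σ⁻¹ (σ (y : K)) = _
      exact σ.symm_apply_apply _
    rw [map_sub, map_mul, map_pow, map_natCast, map_one, ← coe_baseUnit hζ h5,
      ← coe_galUnits_eq] at hy'
    rw [← map_pow, ← map_mul, ← map_one q, Ideal.Quotient.eq, hy']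
    exact hy
  have hprod : q (cUnit hζ h5 : 𝓞 K) * (q (g : 𝓞 K) ^ m) ^ p = 1 := by
    rw [← pow_mul, mul_comm m p, ← hm, ← Finset.prod_pow_eq_pow_sum, cUnit, Units.coe_prod,
      map_prod, ← Finset.prod_mul_distrib]
    refine Finset.prod_eq_one fun σ _ ↦ ?_
    rw [Units.val_pow_eq_pow_val, map_pow, mul_comm (kExp hζ σ), pow_mul, ← mul_pow, hcong, one_pow]
  refine ⟨(cUnit hζ h5 : 𝓞 K) * ((g : 𝓞 K) ^ m) ^ (p - 1), ?_⟩
  rw [← Ideal.Quotient.eq, map_pow, map_mul, map_pow, map_pow]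
  set C := q (cUnit hζ h5 : 𝓞 K)
  set G := q (g : 𝓞 K) ^ m
  clear_value C G
  calc C = C * (C * G ^ p) ^ (p - 1) := by rw [hprod, one_pow, mul_one]
    _ = (C * G ^ (p - 1)) ^ p := by
      rw [mul_pow, mul_pow, ← mul_assoc, ← pow_succ', Nat.sub_add_cancel hp.out.one_le,
        ← pow_mul, ← pow_mul, mul_comm (p - 1) p]

/-- The `ω²`-component of the class group modulo `p` vanishes. -/
theorem projHom_mem_pow_range (h5 : 5 ≤ p) (C : ClassGroup (𝓞 K)) :
    ∃ D, D ^ p = projHom hζ C := by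
  by_contra hno
  set N : Subgroup (ClassGroup (𝓞 K)) := (powMonoidHom p).range
  have hne : (QuotientGroup.mk (projHom hζ C) : ClassGroup (𝓞 K) ⧸ N) ≠ 1 := fun h ↦
    hno ((QuotientGroup.eq_one_iff _).mp h)
  haveI : NeZero (Monoid.exponent (ClassGroup (𝓞 K) ⧸ N)) :=
    ⟨Monoid.exponent_ne_zero_of_finite⟩
  haveI : NeZero ((Monoid.exponent (ClassGroup (𝓞 K) ⧸ N) : ℕ) : ℂ) := ⟨NeZero.natCast_ne _ _⟩
  obtain ⟨φ, hφ⟩ := CommGroup.exists_apply_ne_one_of_hasEnoughRootsOfUnity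
    (ClassGroup (𝓞 K) ⧸ N) ℂ hne
  let φ' : ClassGroup (𝓞 K) →* ℂ := (Units.coeHom ℂ).comp (φ.comp (QuotientGroup.mk' N))
  have hφp : ∀ C, φ' C ^ p = 1 := fun C ↦ by
    rw [← map_pow]
    have : (QuotientGroup.mk (C ^ p) : ClassGroup (𝓞 K) ⧸ N) = 1 :=
      (QuotientGroup.eq_one_iff _).mpr ⟨C, rfl⟩
    simp [φ', this]
  set χ := φ'.comp (projHom hζ)
  have hχp : ∀ C, χ C ^ p = 1 := fun C ↦ hφp _
  have hχe : ∀ τ C, χ (galCl τ C) = χ C ^ kExp hζ τ := fun τ C ↦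
    char_projCl_galCl hζ φ' hφp τ C
  have hχ1 : χ ≠ 1 := fun h ↦ hφ (Units.ext (DFunLike.congr_fun h C))
  obtain ⟨c, hc⟩ : ∃ c : 𝓞 K, c = (cUnit hζ h5 : 𝓞 K) := ⟨_, rfl⟩
  have hirr := X_pow_sub_C_irreducible_of_prime hp.out (a := (c : K)) (by rw [hc]; exact cUnit_not_pow hζ h5)
  haveI := Fact.mk hirr
  haveI : Module.Finite K (AdjoinRoot (Polynomial.X ^ p - Polynomial.C (c : K))) :=
    (AdjoinRoot.powerBasis hirr.ne_zero).finite
  haveI : NumberField (AdjoinRoot (Polynomial.X ^ p - Polynomial.C (c : K))) :=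
    NumberField.of_module_finite K _
  set K' := AdjoinRoot (Polynomial.X ^ p - Polynomial.C (c : K))
  have hdeg : Module.finrank K K' = p := by
    rw [(AdjoinRoot.powerBasis hirr.ne_zero).finrank, AdjoinRoot.powerBasis_dim,
      Polynomial.natDegree_X_pow_sub_C]
  set r : K' := AdjoinRoot.root _
  have hr : r ^ p = algebraMap K K' (c : K) := by
    have h := AdjoinRoot.eval₂_root (Polynomial.X ^ p - Polynomial.C (c : K))
    rw [Polynomial.eval₂_sub, Polynomial.eval₂_X_pow, Polynomial.eval₂_C, sub_eq_zero] at h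
    exact h
  have hrint : IsIntegral ℤ r :=
    IsIntegral.of_pow hp.out.pos (hr ▸ (RingOfIntegers.isIntegral_coe c).map
      (algebraMap K K').toIntAlgHom)
  set y : 𝓞 K' := IsIntegralClosure.mk' (𝓞 K') r hrint
  have hyr : algebraMap (𝓞 K') K' y = r := IsIntegralClosure.algebraMap_mk' _ _ _
  have hy : y ^ p = algebraMap (𝓞 K) (𝓞 K') c := RingOfIntegers.ext (by
    change algebraMap (𝓞 K') K' (y ^ p) = algebraMap (𝓞 K') K' (algebraMap (𝓞 K) (𝓞 K') c)
    rw [map_pow, hyr, hr,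
      ← IsScalarTower.algebraMap_apply (𝓞 K) (𝓞 K') K', IsScalarTower.algebraMap_apply (𝓞 K) K K'])
  have haut : ∀ j : ℕ, ∃ σ : K' ≃ₐ[K] K',
      σ (y : K') = algebraMap K K' (ζ : K) ^ j * (y : K') := by
    intro j
    set a := algebraMap K K' ζ ^ j * r
    have ha : Polynomial.eval₂ (algebraMap K K') a (Polynomial.X ^ p - Polynomial.C (c : K)) = 0 := by
      rw [Polynomial.eval₂_sub, Polynomial.eval₂_X_pow, Polynomial.eval₂_C, mul_pow, hr, ← pow_mul,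
        mul_comm j p, pow_mul, ← map_pow, hζ.pow_eq_one, map_one, one_pow, one_mul, sub_self]
    let φ₀ : K' →ₐ[K] K' := AdjoinRoot.liftAlgHom _ (Algebra.ofId K K') a ha
    refine ⟨AlgEquiv.ofBijective φ₀ φ₀.bijective, ?_⟩
    change φ₀ (algebraMap (𝓞 K') K' y) = algebraMap K K' ζ ^ j * algebraMap (𝓞 K') K' y
    rw [hyr]
    exact AdjoinRoot.liftAlgHom_root _ (Algebra.ofId K K') a ha
  have hsplit : ∀ v : {v : HeightOneSpectrum (𝓞 K) //
      χ (ClassGroup.mk0 (primeIdeal v)) ≠ 1 ∧ (Ideal.absNorm v.asIdeal).Prime ∧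
        v ∉ (Ideal.finite_factors (show Ideal.span {(p : 𝓞 K)} ≠ (0 : Ideal (𝓞 K)) by
          simpa using hp.out.ne_zero)).toFinset},
      ∃ w : Fin p → HeightOneSpectrum (𝓞 K'), Function.Injective w ∧
        ∀ i, (w i).asIdeal.under (𝓞 K) = v.1.asIdeal ∧
          Ideal.absNorm (w i).asIdeal = Ideal.absNorm v.1.asIdeal := by
    rintro ⟨v, hne', hℓ, hE⟩
    have hpv : (p : 𝓞 K) ∉ v.asIdeal := fun h ↦ hE ((Set.Finite.mem_toFinset _).mpr
      (Ideal.dvd_iff_le.mpr ((Ideal.span_singleton_le_iff_mem _).mpr h)))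
    obtain ⟨z, hz⟩ := exists_pow_congr_cUnit hζ h5 χ hχp hχe v hne' hℓ hpv
    rw [← hc] at hz
    refine exists_primes_above K' hdeg hζ.toInteger_isPrimitiveRoot hy (fun j ↦ ?_) v hℓ hpv
      (fun h ↦ v.isPrime.ne_top (v.asIdeal.eq_top_of_isUnit_mem h (hc ▸ (cUnit hζ h5).isUnit))) hz
    exact haut j
  choose w hwinj hw using hsplit
  refine no_class_character (p := p) (by omega) χ (fun C ↦ ?_) hχ1 K' _ (fun x ↦ w x.1 x.2) ?_
    fun x ↦ (hw x.1 x.2).2
  · exact Complex.norm_eq_one_of_pow_eq_one (hχp C) hp.out.ne_zero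
  · rintro ⟨a, i⟩ ⟨b, j⟩ h
    have hab : a = b := Subtype.ext (HeightOneSpectrum.ext (by
      rw [← (hw a i).1, ← (hw b j).1]
      exact congrArg (fun P : HeightOneSpectrum (𝓞 K') ↦ P.asIdeal.under (𝓞 K)) h))
    subst hab
    exact Prod.ext rfl (hwinj a h)

end FLTAgent.ExtVanishing

end
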