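import Fermat.Agent.ExtVanishing.LatticeSum

/-!
`L(s, f)` is bounded near `s = 1` for a class function `f` with mean zero.
-/

set_option autoImplicit false

noncomputable section

open NumberField NumberField.Units NumberField.Units.dirichletUnitTheorem
open Module Filter
open scoped nonZeroDivisors Classical Topology

namespace FLTAgent.ExtVanishing

variable {K : Type*} [Field K] [NumberField K]

lemma nrm_units_mul (u : (𝓞 K)ˣ) (a : 𝓞 K) : nrm K (↑u * a) = nrm K a := by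
  rw [nrm_eq_absNorm, nrm_eq_absNorm, Ideal.span_singleton_mul_left_unit u.isUnit]

lemma lv_units_mul (u : (𝓞 K)ˣ) {a : 𝓞 K} (ha : a ≠ 0) :
    lv K (↑u * a) = lv K a + logEmbedding K (Additive.ofMul u) := by
  ext w
  simp only [lv, nrm_units_mul, Pi.add_apply, logEmbedding_component, map_mul]
  rw [Real.log_mul (Units.pos_at_place u w.1).ne' (place_pos ha w.1).ne']
  ring

lemma coord_logEmbedding_fundSystem (j i : Fin (rank K)) :
    coord K (logEmbedding K (Additive.ofMul (fundSystem K j))) i = if j = i then 1 else 0 := by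
  rw [coord, Basis.equivFun_apply, logEmbedding_fundSystem, Basis.ofZLatticeBasis_repr_apply,
    Basis.repr_self, Finsupp.single_apply]
  split_ifs <;> simp

lemma coord_logEmbedding {ζ : (𝓞 K)ˣ} (hζ : ζ ∈ torsion K) (n : Fin (rank K) → ℤ)
    (i : Fin (rank K)) :
    coord K (logEmbedding K (Additive.ofMul (ζ * ∏ j, fundSystem K j ^ n j))) i = (n i : ℝ) := by
  rw [ofMul_mul, ofMul_prod, map_add, map_sum, logEmbedding_eq_zero_iff.mpr hζ, zero_add, map_sum,
    Finset.sum_apply]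
  simp only [ofMul_zpow, map_zsmul, Pi.smul_apply, coord_logEmbedding_fundSystem]
  rw [Finset.sum_eq_single i]
  · simp
  · intro j _ hj; simp [hj]
  · simp

variable (K) in
/-- Units as torsion times a free abelian group. -/
def unitsEquiv : torsion K × (Fin (rank K) → ℤ) ≃ (𝓞 K)ˣ :=
  Equiv.ofBijective (fun ζe ↦ ζe.1 * ∏ i, fundSystem K i ^ ζe.2 i)
    ⟨fun x y h ↦ (exist_unique_eq_mul_prod K _).unique rfl h, fun u ↦
      (exist_unique_eq_mul_prod K u).exists.imp fun _ h ↦ h.symm⟩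

lemma unitsEquiv_apply (ζe : torsion K × (Fin (rank K) → ℤ)) :
    unitsEquiv K ζe = ζe.1 * ∏ i, fundSystem K i ^ ζe.2 i := rfl

lemma hasSum_wt {a : 𝓞 K} (ha : a ≠ 0) :
    HasSum (fun u : (𝓞 K)ˣ ↦ wt K (↑u * a)) (torsionOrder K : ℝ) := by
  rw [← (unitsEquiv K).hasSum_iff]
  have h : ∀ ζe : torsion K × (Fin (rank K) → ℤ),
      wt K (↑(unitsEquiv K ζe) * a) = ∏ i, hat (coord K (lv K a) i + (ζe.2 i : ℝ)) := by
    intro ζe
    refine Finset.prod_congr rfl fun i _ ↦ ?_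
    rw [lv_units_mul _ ha, map_add, Pi.add_apply, unitsEquiv_apply]
    exact congrArg (fun x ↦ hat (coord K (lv K a) i + x)) (coord_logEmbedding ζe.1.2 ζe.2 i)
  have h' : ((fun u : (𝓞 K)ˣ ↦ wt K (↑u * a)) ∘ unitsEquiv K) =
      fun ζe ↦ ∏ i, hat (coord K (lv K a) i + (ζe.2 i : ℝ)) := funext h
  rw [h']
  haveI : Fintype (torsion K) := Fintype.ofFinite _
  have hF := hasSum_fintype (fun _ : torsion K ↦ (1 : ℝ))
  let g : (Fin (rank K) → ℤ) → ℝ := fun n ↦ ∏ i, hat (coord K (lv K a) i + (n i : ℝ))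
  have hG : HasSum g 1 := tsum_prod_hat (coord K (lv K a))
  have hsum : Summable fun x : torsion K × (Fin (rank K) → ℤ) ↦ (fun _ ↦ (1 : ℝ)) x.1 * g x.2 :=
    Summable.mul_of_nonneg (f := fun _ : torsion K ↦ (1 : ℝ)) (g := g) hF.summable hG.summable
      (fun _ ↦ zero_le_one) (fun n ↦ Finset.prod_nonneg fun _ _ ↦ hat_nonneg _)
  have h2 := hF.mul hG hsum
  simp only [one_mul, mul_one, Finset.sum_const, Finset.card_univ, nsmul_eq_mul] at h2
  rw [← Nat.card_eq_fintype_card] at h2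
  exact h2

/-- A generator of `I * J`. -/
def gen (C : ClassGroup (𝓞 K)) (J : (Ideal (𝓞 K))⁰) (hJ : ClassGroup.mk0 J = C⁻¹)
    (I : {I : (Ideal (𝓞 K))⁰ // ClassGroup.mk0 I = C}) : 𝓞 K :=
  ((ClassGroup.mk0_eq_one_iff (I.1 * J).2).mp (by rw [map_mul, I.2, hJ, mul_inv_cancel])).principal.choose

lemma span_gen (C : ClassGroup (𝓞 K)) (J : (Ideal (𝓞 K))⁰) (hJ : ClassGroup.mk0 J = C⁻¹)
    (I : {I : (Ideal (𝓞 K))⁰ // ClassGroup.mk0 I = C}) :
    Ideal.span {gen C J hJ I} = (I.1 : Ideal (𝓞 K)) * J :=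
  ((ClassGroup.mk0_eq_one_iff (I.1 * J).2).mp
    (by rw [map_mul, I.2, hJ, mul_inv_cancel])).principal.choose_spec.symm

lemma gen_ne_zero (C : ClassGroup (𝓞 K)) (J : (Ideal (𝓞 K))⁰) (hJ : ClassGroup.mk0 J = C⁻¹)
    (I : {I : (Ideal (𝓞 K))⁰ // ClassGroup.mk0 I = C}) : gen C J hJ I ≠ 0 := fun h ↦ by
  have := span_gen C J hJ I
  rw [h, Ideal.span_singleton_eq_bot.mpr rfl] at this
  exact nonZeroDivisors.coe_ne_zero (I.1 * J) this.symm

/-- The class zeta function. -/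
def classZeta (C : ClassGroup (𝓞 K)) (s : ℝ) : ℝ :=
  ∑' I : {I : (Ideal (𝓞 K))⁰ // ClassGroup.mk0 I = C},
    (Ideal.absNorm (I.1 : Ideal (𝓞 K)) : ℝ) ^ (-s)

/-- The lattice sum. -/
def latticeSum (J : (Ideal (𝓞 K))⁰) (s : ℝ) : ℝ :=
  ∑' a : (J : Ideal (𝓞 K)), summand K s (a : 𝓞 K)

lemma hasSum_classZeta (C : ClassGroup (𝓞 K)) (J : (Ideal (𝓞 K))⁰)
    (hJ : ClassGroup.mk0 J = C⁻¹) {s : ℝ} (hs : 1 < s) :
    HasSum (fun I : {I : (Ideal (𝓞 K))⁰ // ClassGroup.mk0 I = C} ↦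
      (Ideal.absNorm (I.1 : Ideal (𝓞 K)) : ℝ) ^ (-s))
      ((Ideal.absNorm (J : Ideal (𝓞 K)) : ℝ) ^ s / torsionOrder K * latticeSum J s) := by
  have hJ0 : (0 : ℝ) < Ideal.absNorm (J : Ideal (𝓞 K)) := by
    exact_mod_cast Ideal.absNorm_pos_of_nonZeroDivisors J
  let e : {I : (Ideal (𝓞 K))⁰ // ClassGroup.mk0 I = C} × (𝓞 K)ˣ → (J : Ideal (𝓞 K)) :=
    fun p ↦ ⟨↑p.2 * gen C J hJ p.1, Ideal.mul_mem_left _ _ ((Ideal.mul_le_right : (p.1.1 : Ideal (𝓞 K)) * J ≤ J)
      ((span_gen C J hJ p.1) ▸ Ideal.mem_span_singleton_self _))⟩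
  have he : Function.Injective e := by
    rintro ⟨I₁, u₁⟩ ⟨I₂, u₂⟩ h
    have h' : (u₁ : 𝓞 K) * gen C J hJ I₁ = u₂ * gen C J hJ I₂ := congrArg Subtype.val h
    have hspan := congrArg (fun x ↦ Ideal.span {x}) h'
    simp only [Ideal.span_singleton_mul_left_unit u₁.isUnit,
      Ideal.span_singleton_mul_left_unit u₂.isUnit, span_gen] at hspan
    obtain rfl : I₁ = I₂ := Subtype.ext (Subtype.ext
      (mul_right_cancel₀ (nonZeroDivisors.coe_ne_zero J) hspan))
    rw [Units.ext (mul_right_cancel₀ (gen_ne_zero C J hJ I₁) h')]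
  have hsupp : ∀ a : (J : Ideal (𝓞 K)), a ∉ Set.range e → summand K s (a : 𝓞 K) = 0 := by
    intro a ha
    by_cases h0 : (a : 𝓞 K) = 0
    · simp [summand, h0]
    exfalso
    obtain ⟨I, hI⟩ := Ideal.dvd_iff_le.mpr
      ((Ideal.span_singleton_le_iff_mem _).mpr a.2 : Ideal.span {(a : 𝓞 K)} ≤ (J : Ideal (𝓞 K)))
    have hIne : I ≠ ⊥ := by
      rintro rfl; rw [Ideal.mul_bot, Ideal.span_singleton_eq_bot] at hI; exact h0 hI
    set I' : (Ideal (𝓞 K))⁰ := ⟨I, mem_nonZeroDivisors_of_ne_zero hIne⟩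
    have hC : ClassGroup.mk0 I' = C := by
      rw [← inv_inv C, ← hJ, eq_inv_iff_mul_eq_one, ← map_mul,
        ClassGroup.mk0_eq_one_iff]
      exact ⟨⟨(a : 𝓞 K), by simp [I', mul_comm I, ← hI]⟩⟩
    have hassoc := span_gen C J hJ ⟨I', hC⟩
    simp only [I', mul_comm I, ← hI] at hassoc
    obtain ⟨u, hu⟩ := Ideal.span_singleton_eq_span_singleton.mp hassoc
    exact ha ⟨(⟨I', hC⟩, u), Subtype.ext (by simpa [e, mul_comm] using hu)⟩
  have hsum : Summable (fun a : (J : Ideal (𝓞 K)) ↦ summand K s (a : 𝓞 K)) :=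
    (summable_summand hs).comp_injective Subtype.val_injective
  have h1 := (he.hasSum_iff hsupp).mpr hsum.hasSum
  have h2 : ∀ I, HasSum (fun u : (𝓞 K)ˣ ↦ summand K s (e (I, u) : 𝓞 K))
      ((torsionOrder K : ℝ) * ((Ideal.absNorm (I.1 : Ideal (𝓞 K)) : ℝ) ^ (-s) *
        (Ideal.absNorm (J : Ideal (𝓞 K)) : ℝ) ^ (-s))) := by
    intro I
    have hg := gen_ne_zero C J hJ I
    have : (fun u : (𝓞 K)ˣ ↦ summand K s (e (I, u) : 𝓞 K)) =
        fun u : (𝓞 K)ˣ ↦ wt K (↑u * gen C J hJ I) * nrm K (gen C J hJ I) ^ (-s) := by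
      funext u
      simp only [e, summand, nrm_units_mul, if_neg (mul_ne_zero u.ne_zero hg)]
    rw [this, nrm_eq_absNorm, span_gen, map_mul, Nat.cast_mul,
      Real.mul_rpow (Nat.cast_nonneg _) (Nat.cast_nonneg _)]
    exact (hasSum_wt hg).mul_right _
  have h3 := (h1.prod_fiberwise h2).mul_left
    ((Ideal.absNorm (J : Ideal (𝓞 K)) : ℝ) ^ s / torsionOrder K)
  refine HasSum.congr_fun h3 fun I ↦ ?_
  have ht : (torsionOrder K : ℝ) ≠ 0 := by exact_mod_cast torsionOrder_ne_zero K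
  rw [Real.rpow_neg hJ0.le]
  field_simp

lemma summable_classZeta (C : ClassGroup (𝓞 K)) {s : ℝ} (hs : 1 < s) :
    Summable (fun I : {I : (Ideal (𝓞 K))⁰ // ClassGroup.mk0 I = C} ↦
      (Ideal.absNorm (I.1 : Ideal (𝓞 K)) : ℝ) ^ (-s)) := by
  obtain ⟨J, hJ⟩ := ClassGroup.mk0_surjective C⁻¹
  exact (hasSum_classZeta C J hJ hs).summable

lemma summable_absNorm_rpow {s : ℝ} (hs : 1 < s) :
    Summable (fun I : (Ideal (𝓞 K))⁰ ↦ (Ideal.absNorm (I : Ideal (𝓞 K)) : ℝ) ^ (-s)) := by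
  rw [← (Equiv.sigmaFiberEquiv fun I : (Ideal (𝓞 K))⁰ ↦ ClassGroup.mk0 I).summable_iff]
  exact (summable_sigma_of_nonneg fun _ ↦ Real.rpow_nonneg (Nat.cast_nonneg _) _).mpr
    ⟨fun C ↦ summable_classZeta C hs, Summable.of_finite⟩

/-- The zeta function, as a sum over ideals. -/
def idealZeta (K : Type*) [Field K] [NumberField K] (s : ℝ) : ℝ :=
  ∑' I : (Ideal (𝓞 K))⁰, (Ideal.absNorm (I : Ideal (𝓞 K)) : ℝ) ^ (-s)

lemma ofReal_idealZeta {s : ℝ} (hs : 1 < s) : (idealZeta K s : ℂ) = dedekindZeta K s := by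
  have hsum := summable_absNorm_rpow (K := K) hs
  let f : (Ideal (𝓞 K))⁰ → ℕ := fun I ↦ Ideal.absNorm (I : Ideal (𝓞 K))
  have h := ((Equiv.sigmaFiberEquiv f).hasSum_iff.mpr hsum.hasSum).sigma (g := fun n : ℕ ↦
    ∑' I : {I // f I = n}, (Ideal.absNorm (I.1 : Ideal (𝓞 K)) : ℝ) ^ (-s)) fun n ↦
      (hsum.subtype _).hasSum
  rw [idealZeta, ← h.tsum_eq, Complex.ofReal_tsum, dedekindZeta, LSeries]
  refine tsum_congr fun n ↦ ?_
  rcases eq_or_ne n 0 with rfl | hn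
  · rw [LSeries.term_zero]
    haveI : IsEmpty {I // f I = 0} := ⟨fun I ↦ (Ideal.absNorm_pos_of_nonZeroDivisors I.1).ne' I.2⟩
    simp
  · rw [LSeries.term_of_ne_zero hn]
    have hval : (fun I : {I // f I = n} ↦ (Ideal.absNorm (I.1 : Ideal (𝓞 K)) : ℝ) ^ (-s)) =
        fun _ ↦ (n : ℝ) ^ (-s) := funext fun I ↦ by rw [show Ideal.absNorm _ = n from I.2]
    let e : {I // f I = n} ≃ {I : Ideal (𝓞 K) // Ideal.absNorm I = n} :=
      { toFun := fun I ↦ ⟨I.1, I.2⟩
        invFun := fun I ↦ ⟨⟨I.1, mem_nonZeroDivisors_of_ne_zero fun h ↦ hn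
          (by rw [← I.2, h]; simp)⟩, I.2⟩
        left_inv := fun _ ↦ rfl
        right_inv := fun _ ↦ rfl }
    rw [hval, tsum_const, Nat.card_congr e, nsmul_eq_mul, Real.rpow_neg (Nat.cast_nonneg _)]
    push_cast
    rw [div_eq_mul_inv, Complex.ofReal_cpow (Nat.cast_nonneg _)]
    simp

lemma tendsto_sub_one_mul_idealZeta :
    Tendsto (fun s : ℝ ↦ (s - 1) * idealZeta K s) (𝓝[>] 1) (𝓝 (dedekindZeta_residue K)) := by
  have h := (Complex.continuous_re.tendsto _).comp (tendsto_sub_one_mul_dedekindZeta_nhdsGT K)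
  rw [Complex.ofReal_re] at h
  refine h.congr' ?_
  filter_upwards [self_mem_nhdsWithin] with s hs
  rw [Function.comp_apply, ← ofReal_idealZeta hs, ← Complex.ofReal_one, ← Complex.ofReal_sub,
    ← Complex.ofReal_mul, Complex.ofReal_re]

lemma classZeta_le_idealZeta (C : ClassGroup (𝓞 K)) {s : ℝ} (hs : 1 < s) :
    classZeta C s ≤ idealZeta K s :=
  (summable_absNorm_rpow hs).tsum_subtype_le _ {I | ClassGroup.mk0 I = C} fun _ ↦ by positivity

lemma latticeSum_top (s : ℝ) : latticeSum (1 : (Ideal (𝓞 K))⁰) s = ∑' a, summand K s a := by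
  refine Equiv.tsum_eq (Equiv.subtypeUnivEquiv fun a ↦ ?_) (summand K s)
  simp

lemma exists_bound_latticeSum (J : (Ideal (𝓞 K))⁰) :
    ∃ M : ℝ, ∀ s : ℝ, 1 < s → s ≤ 2 →
      |(Ideal.absNorm (J : Ideal (𝓞 K)) : ℝ) * latticeSum J s - ∑' a, summand K s a| ≤ M := by
  set H := (J : Ideal (𝓞 K)).toAddSubgroup
  haveI : Finite (𝓞 K ⧸ (J : Ideal (𝓞 K))) :=
    Ideal.finiteQuotientOfFreeOfNeBot _ (nonZeroDivisors.coe_ne_zero J)
  haveI : Finite (𝓞 K ⧸ H) := ‹Finite (𝓞 K ⧸ (J : Ideal (𝓞 K)))›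
  haveI : Fintype (𝓞 K ⧸ H) := Fintype.ofFinite _
  have hcard : (Fintype.card (𝓞 K ⧸ H) : ℝ) = Ideal.absNorm (J : Ideal (𝓞 K)) := by
    rw [Fintype.card_eq_nat_card, Ideal.absNorm_apply, Submodule.cardQuot_apply]; rfl
  let e : (𝓞 K ⧸ H) × H ≃ 𝓞 K :=
    { toFun := fun p ↦ p.1.out + p.2
      invFun := fun a ↦ (QuotientAddGroup.mk a, ⟨-(QuotientAddGroup.mk a : 𝓞 K ⧸ H).out + a,
        QuotientAddGroup.eq.mp (QuotientAddGroup.out_eq' _)⟩)
      left_inv := by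
        rintro ⟨q, h⟩
        have hq : (QuotientAddGroup.mk (q.out + (h : 𝓞 K)) : 𝓞 K ⧸ H) = q := by
          rw [QuotientAddGroup.mk_add_of_mem _ h.2, QuotientAddGroup.out_eq']
        refine Prod.ext hq (Subtype.ext ?_)
        simp only [hq]; abel
      right_inv := fun a ↦ by simp }
  choose C hC0 hC using fun q : 𝓞 K ⧸ H ↦ exists_variation K (size K q.out) (size_nonneg _)
  have hr : -((Module.finrank ℚ K : ℝ) + 1) < -(Module.finrank ℚ K : ℝ) := by linarith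
  set B := ∑' h : H, (1 + size K (h : 𝓞 K)) ^ (-((Module.finrank ℚ K : ℝ) + 1))
  refine ⟨∑ q, C q * B, fun s hs hs2 ↦ ?_⟩
  have hF : ∀ q : 𝓞 K ⧸ H, Summable fun h : H ↦ summand K s (q.out + h) := fun q ↦
    (summable_summand hs).comp_injective fun a b h ↦ Subtype.ext (add_left_cancel h)
  have hF0 : Summable fun h : H ↦ summand K s (h : 𝓞 K) :=
    (summable_summand hs).comp_injective Subtype.val_injective
  have hsplit : ∑' a, summand K s a = ∑ q : 𝓞 K ⧸ H, ∑' h : H, summand K s (q.out + h) := by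
    rw [← e.tsum_eq (summand K s)]
    exact ((e.summable_iff.mpr (summable_summand hs)).tsum_prod' hF).trans (tsum_fintype _)
  rw [hsplit, ← hcard, show (Fintype.card (𝓞 K ⧸ H) : ℝ) * latticeSum J s =
    ∑ _q : 𝓞 K ⧸ H, ∑' h : H, summand K s (h : 𝓞 K) by simp [latticeSum, H]; rfl,
    ← Finset.sum_sub_distrib]
  refine (Finset.abs_sum_le_sum_abs _ _).trans (Finset.sum_le_sum fun q _ ↦ ?_)
  rw [← hF0.tsum_sub (hF q), ← Real.norm_eq_abs]
  refine tsum_of_norm_bounded (((summable_size_rpow hr).comp_injective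
    Subtype.val_injective).hasSum.mul_left (C q)) fun h ↦ ?_
  refine hC q s hs.le hs2 _ _ ?_
  rw [sub_add_cancel_right, size_neg]

/-- Any two class zeta functions differ by a bounded amount near one. -/
lemma exists_bound_classZeta_sub (C : ClassGroup (𝓞 K)) :
    ∃ M : ℝ, ∀ᶠ s in 𝓝[>] (1 : ℝ), |classZeta C s - classZeta (1 : ClassGroup (𝓞 K)) s| ≤ M := by
  obtain ⟨J, hJ⟩ := ClassGroup.mk0_surjective C⁻¹
  obtain ⟨M, hM⟩ := exists_bound_latticeSum J
  set n := (Ideal.absNorm (J : Ideal (𝓞 K)) : ℝ)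
  have hn : 1 ≤ n := Nat.one_le_cast.mpr (Ideal.absNorm_pos_of_nonZeroDivisors J)
  refine ⟨n * Real.log n * (dedekindZeta_residue K + 1) + n * M / torsionOrder K, ?_⟩
  filter_upwards [self_mem_nhdsWithin, (tendsto_sub_one_mul_idealZeta (K := K)).eventually
    (eventually_le_nhds (lt_add_one (dedekindZeta_residue K))),
    nhdsWithin_le_nhds (eventually_le_nhds (one_lt_two : (1 : ℝ) < 2))] with s hs hz hs2
  have hs : 1 < s := hs
  have ht : (1 : ℝ) ≤ torsionOrder K := by exact_mod_cast torsionOrder_pos K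
  have h1 : classZeta (1 : ClassGroup (𝓞 K)) s = (∑' a, summand K s a) / torsionOrder K := by
    rw [classZeta, (hasSum_classZeta 1 1 (by simp) hs).tsum_eq, latticeSum_top]
    simp; ring
  have h2 : classZeta C s = n ^ (s - 1) * (n * latticeSum J s) / torsionOrder K := by
    rw [classZeta, (hasSum_classZeta C J hJ hs).tsum_eq, ← mul_assoc,
      ← Real.rpow_add_one (by linarith), sub_add_cancel]
    ring
  set T := ∑' a, summand K s a
  have hT0 : 0 ≤ T := tsum_nonneg fun a ↦ summand_nonneg s a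
  have hTz : (s - 1) * (T / torsionOrder K) ≤ dedekindZeta_residue K + 1 := by
    refine le_trans (mul_le_mul_of_nonneg_left ?_ (by linarith)) hz
    rw [← h1]; exact classZeta_le_idealZeta 1 hs
  have hpow0 : 1 ≤ n ^ (s - 1) := Real.one_le_rpow hn (by linarith)
  have hpow : n ^ (s - 1) ≤ n := by
    nth_rw 2 [← Real.rpow_one n]; exact Real.rpow_le_rpow_of_exponent_le hn (by linarith)
  have hlog : n ^ (s - 1) - 1 ≤ (s - 1) * (n * Real.log n) := by
    rw [Real.rpow_def_of_pos (by linarith)] at hpow ⊢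
    have := abs_exp_sub_exp_le (a := Real.log n * (s - 1)) (b := 0) le_rfl
      (mul_nonneg (Real.log_nonneg hn) (by linarith))
    rw [Real.exp_zero, sub_zero,
      abs_of_nonneg (mul_nonneg (Real.log_nonneg hn) (by linarith) : (0:ℝ) ≤ Real.log n * (s - 1))]
      at this
    calc _ ≤ _ := (le_abs_self _).trans this
      _ ≤ n * (Real.log n * (s - 1)) :=
        mul_le_mul_of_nonneg_right hpow (mul_nonneg (Real.log_nonneg hn) (by linarith))
      _ = _ := by ring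
  have hM' := hM s hs hs2
  have hM0 : 0 ≤ M := (abs_nonneg _).trans hM'
  rw [h1, h2, ← sub_div,
    show n ^ (s - 1) * (n * latticeSum J s) - T =
      n ^ (s - 1) * (n * latticeSum J s - T) + (n ^ (s - 1) - 1) * T by ring, add_div]
  refine (abs_add_le _ _).trans ?_
  rw [add_comm (n * Real.log n * _)]
  refine add_le_add ?_ ?_
  · rw [abs_div, abs_mul, abs_of_nonneg (by linarith : 0 ≤ n ^ (s - 1)), Nat.abs_cast]
    gcongr
  · rw [mul_div_assoc, abs_mul, abs_of_nonneg (by linarith : 0 ≤ n ^ (s - 1) - 1),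
      abs_of_nonneg (by positivity : 0 ≤ T / torsionOrder K)]
    calc _ ≤ (s - 1) * (n * Real.log n) * (T / torsionOrder K) := by gcongr
      _ = n * Real.log n * ((s - 1) * (T / torsionOrder K)) := by ring
      _ ≤ _ := mul_le_mul_of_nonneg_left hTz (by positivity)

/-- For a class function with mean zero, the L-function is bounded near one. -/
theorem exists_bound_LFunction (f : ClassGroup (𝓞 K) → ℂ) (hf : ∑ C, f C = 0) :
    ∃ M : ℝ, ∀ᶠ s in 𝓝[>] (1 : ℝ), ‖∑' I : (Ideal (𝓞 K))⁰, f (ClassGroup.mk0 I) *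
      (((Ideal.absNorm (I : Ideal (𝓞 K)) : ℝ) ^ (-s) : ℝ) : ℂ)‖ ≤ M := by
  choose M hM using fun C ↦ exists_bound_classZeta_sub (K := K) C
  refine ⟨∑ C, ‖f C‖ * M C, ?_⟩
  filter_upwards [self_mem_nhdsWithin, eventually_all.mpr hM] with s hs hM
  have hsum := summable_absNorm_rpow (K := K) hs
  have hcx : Summable fun I : (Ideal (𝓞 K))⁰ ↦ f (ClassGroup.mk0 I) *
      (((Ideal.absNorm (I : Ideal (𝓞 K)) : ℝ) ^ (-s) : ℝ) : ℂ) := by
    refine Summable.of_norm_bounded (g := fun I ↦ (∑ C, ‖f C‖) *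
      (Ideal.absNorm (I : Ideal (𝓞 K)) : ℝ) ^ (-s)) (hsum.mul_left _) fun I ↦ ?_
    rw [norm_mul, Complex.norm_real, Real.norm_of_nonneg (by positivity)]
    gcongr
    exact Finset.single_le_sum (fun C _ ↦ norm_nonneg (f C)) (Finset.mem_univ _)
  have key : ∑' I : (Ideal (𝓞 K))⁰, f (ClassGroup.mk0 I) *
      (((Ideal.absNorm (I : Ideal (𝓞 K)) : ℝ) ^ (-s) : ℝ) : ℂ) =
      ∑ C, f C * (classZeta C s : ℂ) := by
    have h := ((Equiv.sigmaFiberEquiv fun I : (Ideal (𝓞 K))⁰ ↦ ClassGroup.mk0 I).hasSum_iff.mpr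
      hcx.hasSum).sigma (g := fun C : ClassGroup (𝓞 K) ↦ f C * (classZeta C s : ℂ))
      fun C : ClassGroup (𝓞 K) ↦ by
        have hC := (Complex.hasSum_ofReal.mpr (summable_classZeta C hs).hasSum).mul_left (f C)
        refine HasSum.congr_fun hC fun I ↦ ?_
        simp [I.2]
    rw [← h.tsum_eq, tsum_fintype]
  have : ∑ C, f C * (classZeta C s : ℂ) =
      ∑ C, f C * ((classZeta C s - classZeta (1 : ClassGroup (𝓞 K)) s : ℝ) : ℂ) := by
    simp only [Complex.ofReal_sub, mul_sub, Finset.sum_sub_distrib, ← Finset.sum_mul, hf,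
      zero_mul, sub_zero]
  rw [key, this]
  refine (norm_sum_le _ _).trans (Finset.sum_le_sum fun C _ ↦ ?_)
  rw [norm_mul, Complex.norm_real, Real.norm_eq_abs]
  exact mul_le_mul_of_nonneg_left (hM C) (norm_nonneg _)

end FLTAgent.ExtVanishing

end
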