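import Fermat.Agent.ExtVanishing.ClassZeta

/-!
The `ω²`-eigenspace of the units of `ℚ(ζ_p)` modulo `p`-th powers and torsion is a line.
-/

set_option autoImplicit false

noncomputable section

open NumberField NumberField.Units NumberField.Units.dirichletUnitTheorem
open Module
open scoped Classical

namespace FLTAgent.ExtVanishing

variable {K : Type} [Field K] [NumberField K]

/-- Exponents in a fundamental system. -/
def expVec (u : (𝓞 K)ˣ) : Fin (rank K) → ℤ := ((unitsEquiv K).symm u).2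

/-- The torsion part. -/
def torsPart (u : (𝓞 K)ˣ) : (𝓞 K)ˣ := (((unitsEquiv K).symm u).1 : (𝓞 K)ˣ)

lemma torsPart_mem (u : (𝓞 K)ˣ) : torsPart u ∈ torsion K := SetLike.coe_mem _

lemma torsPart_mul_prod (u : (𝓞 K)ˣ) :
    torsPart u * ∏ i, fundSystem K i ^ expVec u i = u := by
  rw [torsPart, expVec, ← unitsEquiv_apply, Equiv.apply_symm_apply]

lemma cast_expVec (u : (𝓞 K)ˣ) (i : Fin (rank K)) :
    (expVec u i : ℝ) = coord K (logEmbedding K (Additive.ofMul u)) i := by
  conv_rhs => rw [← torsPart_mul_prod u]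
  rw [coord_logEmbedding (torsPart_mem u)]

lemma expVec_mul (u v : (𝓞 K)ˣ) : expVec (u * v) = expVec u + expVec v := by
  ext i
  apply Int.cast_injective (α := ℝ)
  rw [Pi.add_apply, Int.cast_add, cast_expVec, cast_expVec, cast_expVec, ofMul_mul, map_add,
    map_add, Pi.add_apply]

lemma expVec_tors {t : (𝓞 K)ˣ} (ht : t ∈ torsion K) : expVec t = 0 := by
  ext i
  apply Int.cast_injective (α := ℝ)
  rw [cast_expVec, logEmbedding_eq_zero_iff.mpr ht, map_zero]
  simp

/-- `expVec` as a homomorphism. -/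
def expHom : Additive (𝓞 K)ˣ →+ (Fin (rank K) → ℤ) :=
  AddMonoidHom.mk' (fun u ↦ expVec u.toMul) (fun u v ↦ expVec_mul u.toMul v.toMul)

lemma expVec_pow (u : (𝓞 K)ˣ) (n : ℕ) : expVec (u ^ n) = n • expVec u :=
  map_nsmul (expHom (K := K)) n (Additive.ofMul u)

lemma expVec_fundSystem (j : Fin (rank K)) : expVec (fundSystem K j) = Pi.single j 1 := by
  ext i
  apply Int.cast_injective (α := ℝ)
  rw [cast_expVec, coord_logEmbedding_fundSystem, Pi.single_apply]
  split_ifs with h1 h2 h2 <;> simp_all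

/-- Exponents modulo `p`. -/
def expMod (p : ℕ) (u : (𝓞 K)ˣ) : Fin (rank K) → ZMod p := fun i ↦ (expVec u i : ZMod p)

lemma exists_eq_pow_of_expMod {p : ℕ} (u : (𝓞 K)ˣ) (h : expMod p u = 0) :
    ∃ t ∈ torsion K, ∃ w : (𝓞 K)ˣ, u = t * w ^ p := by
  have hd : ∀ i, ∃ m : ℤ, expVec u i = (p : ℤ) * m := fun i ↦ by
    have := congrFun h i
    exact (ZMod.intCast_zmod_eq_zero_iff_dvd _ _).mp this
  choose m hm using hd
  refine ⟨torsPart u, torsPart_mem u, ∏ i, fundSystem K i ^ m i, ?_⟩
  conv_lhs => rw [← torsPart_mul_prod u]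
  rw [← Finset.prod_pow]
  congr 1
  refine Finset.prod_congr rfl fun i _ ↦ ?_
  rw [hm i, mul_comm, zpow_mul, zpow_natCast]

/-- The automorphism of units. -/
def galUnits (σ : K ≃ₐ[ℚ] K) : (𝓞 K)ˣ →* (𝓞 K)ˣ :=
  Units.map (RingOfIntegers.mapRingHom (σ : K →+* K) : 𝓞 K →* 𝓞 K)

lemma coe_galUnits (σ : K ≃ₐ[ℚ] K) (u : (𝓞 K)ˣ) : ((galUnits σ u : 𝓞 K) : K) = σ (u : K) := rfl

lemma galUnits_tors (σ : K ≃ₐ[ℚ] K) {t : (𝓞 K)ˣ} (ht : t ∈ torsion K) :
    galUnits σ t ∈ torsion K :=
  (galUnits σ).isOfFinOrder ht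

lemma galUnits_mul (σ τ : K ≃ₐ[ℚ] K) (u : (𝓞 K)ˣ) :
    galUnits (σ * τ) u = galUnits σ (galUnits τ u) :=
  Units.ext (RingOfIntegers.ext rfl)

lemma galUnits_one (u : (𝓞 K)ˣ) : galUnits (1 : K ≃ₐ[ℚ] K) u = u :=
  Units.ext (RingOfIntegers.ext rfl)

/-- The matrix of an automorphism in the exponents. -/
def galMatrix (σ : K ≃ₐ[ℚ] K) : Matrix (Fin (rank K)) (Fin (rank K)) ℤ :=
  Matrix.of fun i j ↦ expVec (galUnits σ (fundSystem K j)) i

lemma expVec_galUnits (σ : K ≃ₐ[ℚ] K) (u : (𝓞 K)ˣ) :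
    expVec (galUnits σ u) = (galMatrix σ).mulVec (expVec u) := by
  conv_lhs => rw [← torsPart_mul_prod u]
  rw [map_mul, expVec_mul, expVec_tors (galUnits_tors σ (torsPart_mem u)), zero_add, map_prod]
  have h := map_sum (expHom (K := K))
    (fun i ↦ Additive.ofMul (galUnits σ (fundSystem K i ^ expVec u i))) Finset.univ
  rw [← ofMul_prod] at h
  change expVec _ = _ at h
  rw [toMul_ofMul] at h
  rw [h]
  ext i
  simp only [Matrix.mulVec, dotProduct, Finset.sum_apply, map_zpow, ofMul_zpow, map_zsmul,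
    Pi.smul_apply, smul_eq_mul, galMatrix, Matrix.of_apply]
  exact Finset.sum_congr rfl fun j _ ↦ mul_comm _ _

lemma galMatrix_mul (σ τ : K ≃ₐ[ℚ] K) : galMatrix (σ * τ) = galMatrix σ * galMatrix τ := by
  ext i j
  have h : galMatrix (σ * τ) i j =
      (galMatrix σ).mulVec (expVec (galUnits τ (fundSystem K j))) i := by
    rw [← expVec_galUnits, ← galUnits_mul]
    rfl
  rw [h]
  rfl

/-- Logarithms at all infinite places. -/
def logVec (u : (𝓞 K)ˣ) : InfinitePlace K → ℝ := fun w ↦ Real.log (w (u : K))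

lemma logVec_mul (u v : (𝓞 K)ˣ) : logVec (u * v) = logVec u + logVec v := by
  ext w
  simp only [logVec, Pi.add_apply, Units.val_mul, RingOfIntegers.coe_eq_algebraMap, map_mul]
  rw [Real.log_mul (Units.pos_at_place u w).ne' (Units.pos_at_place v w).ne']

lemma logVec_tors {t : (𝓞 K)ˣ} (ht : t ∈ torsion K) : logVec t = 0 := by
  ext w
  simp [logVec, (mem_torsion (K := K)).mp ht w]

/-- `logVec` as a homomorphism. -/
def logVecHom : Additive (𝓞 K)ˣ →+ (InfinitePlace K → ℝ) :=
  AddMonoidHom.mk' (fun u ↦ logVec u.toMul) (fun u v ↦ logVec_mul u.toMul v.toMul)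

/-- The places permutation. -/
def placeMap (σ : K ≃ₐ[ℚ] K) (w : InfinitePlace K) : InfinitePlace K := w.comap (σ : K →+* K)

lemma logVec_galUnits (σ : K ≃ₐ[ℚ] K) (u : (𝓞 K)ˣ) :
    logVec (galUnits σ u) = LinearMap.funLeft ℝ ℝ (placeMap σ) (logVec u) := rfl

variable (K) in
/-- `(t, s) ↦ ∑ tᵢ log|εᵢ| + s`. -/
def augMap : (Fin (rank K) → ℝ) × ℝ →ₗ[ℝ] (InfinitePlace K → ℝ) :=
  (Fintype.linearCombination ℝ fun i ↦ logVec (fundSystem K i)).coprod
    (LinearMap.toSpanSingleton ℝ _ (fun _ ↦ 1))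

lemma augMap_apply (t : Fin (rank K) → ℝ) (s : ℝ) :
    augMap K (t, s) = (∑ i, t i • logVec (fundSystem K i)) + s • (fun _ ↦ (1 : ℝ)) := by
  simp [augMap, Fintype.linearCombination_apply]

lemma augMap_bijective : Function.Bijective (augMap K) := by
  have hdim : finrank ℝ ((Fin (rank K) → ℝ) × ℝ) = finrank ℝ (InfinitePlace K → ℝ) := by
    rw [Module.finrank_prod, Module.finrank_fintype_fun_eq_card ℝ,
      Module.finrank_fintype_fun_eq_card ℝ, Module.finrank_self, Fintype.card_fin, Units.rank]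
    have : 0 < Fintype.card (InfinitePlace K) := Fintype.card_pos
    omega
  have hinj : Function.Injective (augMap K) := by
    rw [injective_iff_map_eq_zero]
    rintro ⟨t, s⟩ h
    rw [augMap_apply] at h
    have hs : s = 0 := by
      have h1 := congrArg (fun f : InfinitePlace K → ℝ ↦
        ∑ w : InfinitePlace K, (w.mult : ℝ) * f w) h
      simp only [Pi.add_apply, Finset.sum_apply, Pi.smul_apply, smul_eq_mul, Pi.zero_apply,
        mul_zero, Finset.sum_const_zero, mul_add, Finset.sum_add_distrib, Finset.mul_sum] at h1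
      rw [Finset.sum_comm] at h1
      have h2 : ∀ i, ∑ w : InfinitePlace K, (w.mult : ℝ) * (t i * logVec (fundSystem K i) w) = 0 := by
        intro i
        have := Units.sum_mult_mul_log (fundSystem K i)
        simp only [mul_left_comm _ (t i), ← Finset.mul_sum]
        rw [show ∑ w : InfinitePlace K, (w.mult : ℝ) * logVec (fundSystem K i) w = 0 from this,
          mul_zero]
      simp only [h2, Finset.sum_const_zero, zero_add, mul_one, ← Finset.sum_mul] at h1
      refine (mul_eq_zero.mp h1).resolve_left ?_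
      rw [← Nat.cast_sum, InfinitePlace.sum_mult_eq]
      exact_mod_cast Module.finrank_pos.ne'
    subst hs
    rw [zero_smul, add_zero] at h
    have ht : ∑ i, t i • logEmbedding K (Additive.ofMul (fundSystem K i)) = 0 := by
      ext w
      have := congrFun h w.1
      simp only [Finset.sum_apply, Pi.smul_apply, smul_eq_mul, Pi.zero_apply] at this ⊢
      simp only [logEmbedding_component, mul_left_comm (t _), ← Finset.mul_sum]
      exact mul_eq_zero_of_right _ this
    have := congrArg (coord K) ht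
    simp only [map_sum, map_smul, map_zero] at this
    refine Prod.ext (funext fun i ↦ ?_) rfl
    have h' := congrFun this i
    simp only [Finset.sum_apply, Pi.smul_apply, coord_logEmbedding_fundSystem, smul_eq_mul,
      mul_ite, mul_one, mul_zero, Finset.sum_ite_eq', Finset.mem_univ, if_true,
      Pi.zero_apply] at h'
    exact h'
  exact ⟨hinj, (LinearMap.injective_iff_surjective_of_finrank_eq_finrank hdim).mp hinj⟩

/-- Trace of an automorphism on the exponents. -/
lemma trace_galMatrix (σ : K ≃ₐ[ℚ] K) :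
    ((galMatrix σ).trace : ℝ) + 1 =
      ((Finset.univ.filter fun w : InfinitePlace K ↦ placeMap σ w = w).card : ℝ) := by
  let Φ := LinearEquiv.ofBijective (augMap K) augMap_bijective
  let A := Matrix.toLin' ((galMatrix σ).map (Int.cast : ℤ → ℝ))
  have hP : LinearMap.funLeft ℝ ℝ (placeMap σ) = Φ.conj (A.prodMap LinearMap.id) := by
    have hΦ : LinearMap.funLeft ℝ ℝ (placeMap σ) ∘ₗ augMap K =
        augMap K ∘ₗ A.prodMap LinearMap.id := by
      refine LinearMap.ext fun x ↦ ?_
      obtain ⟨t, s⟩ := x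
      simp only [LinearMap.comp_apply, LinearMap.prodMap_apply, LinearMap.id_apply, augMap_apply,
        map_add, map_sum, map_smul, ← logVec_galUnits]
      congr 1
      have hdec : ∀ j, logVec (galUnits σ (fundSystem K j)) =
          ∑ i, (galMatrix σ i j : ℝ) • logVec (fundSystem K i) := by
        intro j
        conv_lhs => rw [← torsPart_mul_prod (galUnits σ (fundSystem K j))]
        rw [logVec_mul, logVec_tors (torsPart_mem _), zero_add]
        have h := map_sum (logVecHom (K := K)) (fun i ↦ Additive.ofMul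
          (fundSystem K i ^ expVec (galUnits σ (fundSystem K j)) i)) Finset.univ
        rw [← ofMul_prod] at h
        change logVec _ = _ at h
        rw [toMul_ofMul] at h
        rw [h]
        refine Finset.sum_congr rfl fun i _ ↦ ?_
        rw [ofMul_zpow, map_zsmul, Int.cast_smul_eq_zsmul]
        rfl
      simp only [hdec, Finset.smul_sum, smul_smul, A, Matrix.toLin'_apply, Matrix.mulVec,
        dotProduct, Matrix.map_apply, Finset.sum_smul]
      rw [Finset.sum_comm]
      simp only [mul_comm, galMatrix, Matrix.of_apply]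
    refine LinearMap.ext fun y ↦ ?_
    obtain ⟨x, rfl⟩ := Φ.surjective y
    rw [LinearEquiv.conj_apply_apply, Φ.symm_apply_apply]
    exact DFunLike.congr_fun hΦ x
  have h1 : LinearMap.trace ℝ _ (LinearMap.funLeft ℝ ℝ (placeMap σ)) =
      ((galMatrix σ).trace : ℝ) + 1 := by
    rw [hP, LinearMap.trace_conj', LinearMap.trace_prodMap', LinearMap.trace_id,
      Module.finrank_self, Nat.cast_one]
    simp only [A, Matrix.trace_toLin'_eq]
    rw [show ((galMatrix σ).trace : ℝ) = ∑ i, ((galMatrix σ i i : ℤ) : ℝ) by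
      simp [Matrix.trace]]
    rfl
  rw [← h1, LinearMap.trace_eq_matrix_trace ℝ (Pi.basisFun ℝ (InfinitePlace K)), Matrix.trace]
  simp [LinearMap.toMatrix_apply, LinearMap.funLeft, Pi.single_apply, Finset.sum_ite,
    Pi.basisFun_apply, Pi.basisFun_repr, eq_comm]

section Cyclotomic

variable {p : ℕ} [hp : Fact p.Prime] [IsCyclotomicExtension {p} ℚ K]
  {ζ : K} (hζ : IsPrimitiveRoot ζ p)

include hζ

/-- The cyclotomic character of `Gal(K/ℚ)`. -/
def omega : (K ≃ₐ[ℚ] K) →* (ZMod p)ˣ := hζ.autToPow ℚ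

lemma omega_spec (σ : K ≃ₐ[ℚ] K) : σ ζ = ζ ^ ((omega hζ σ : ZMod p)).val :=
  (hζ.autToPow_spec ℚ σ).symm

lemma omega_bijective : Function.Bijective (omega hζ) := by
  haveI : IsGalois ℚ K := IsCyclotomicExtension.isGalois {p} ℚ K
  haveI : Fintype (K ≃ₐ[ℚ] K) := Fintype.ofFinite _
  rw [Fintype.bijective_iff_injective_and_card]
  refine ⟨hζ.autToPow_injective ℚ, ?_⟩
  rw [← Nat.card_eq_fintype_card, IsGalois.card_aut_eq_finrank,
    IsCyclotomicExtension.finrank (n := p) K (Polynomial.cyclotomic.irreducible_rat hp.out.pos),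
    ZMod.card_units_eq_totient]

lemma placeMap_eq_iff (hp3 : 3 ≤ p) (σ : K ≃ₐ[ℚ] K) (w : InfinitePlace K) :
    placeMap σ w = w ↔ (omega hζ σ) ^ 2 = 1 := by
  obtain ⟨φ, rfl⟩ : ∃ φ, w = InfinitePlace.mk φ := ⟨_, (InfinitePlace.mk_embedding w).symm⟩
  rw [placeMap, InfinitePlace.comap_mk, InfinitePlace.mk_eq_iff, Units.ext_iff, Units.val_pow_eq_pow_val,
    Units.val_one, sq_eq_one_iff]
  set d := (omega hζ σ : ZMod p)
  have hφ : IsPrimitiveRoot (φ ζ) p := hζ.map_of_injective φ.injective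
  have happ : φ.comp (σ : K →+* K) ζ = φ ζ ^ d.val := by
    rw [RingHom.comp_apply, ← map_pow]
    exact congrArg φ (omega_spec hζ σ)
  have hconj : starRingEnd ℂ (φ ζ) = φ ζ ^ ((-1 : ZMod p)).val := by
    have hnorm : ‖φ ζ‖ = 1 := hφ.norm'_eq_one hp.out.ne_zero
    have h1 : starRingEnd ℂ (φ ζ) = (φ ζ)⁻¹ := (Complex.inv_eq_conj hnorm).symm
    rw [h1, inv_eq_iff_eq_inv]
    refine eq_inv_of_mul_eq_one_left ?_
    rw [← pow_succ', hφ.pow_eq_one_iff_dvd, ← ZMod.natCast_eq_zero_iff]
    push_cast [ZMod.natCast_zmod_val]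
    ring
  have hext : ∀ f g : K →+* ℂ, f ζ = g ζ → f = g := by
    intro f g h
    have : f.toRatAlgHom = g.toRatAlgHom := (hζ.powerBasis ℚ).algHom_ext (by simpa using h)
    exact RingHom.ext fun x ↦ DFunLike.congr_fun this x
  have hinj : ∀ a b : ZMod p, φ ζ ^ a.val = φ ζ ^ b.val → a = b := fun a b h ↦
    ZMod.val_injective p (hφ.pow_inj a.val_lt b.val_lt h)
  have hsymm : ∀ f g : K →+* ℂ, ComplexEmbedding.conjugate f = g ↔
      ComplexEmbedding.conjugate g = f := fun f g ↦
    ⟨fun h ↦ by rw [← h]; exact star_star f, fun h ↦ by rw [← h]; exact star_star g⟩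
  rw [hsymm]
  constructor
  · rintro (h | h)
    · left
      refine hinj d 1 ?_
      rw [← happ, h, ZMod.val_one, pow_one]
    · right
      refine hinj d (-1) ?_
      rw [← happ, ← h, ← hconj]
      rfl
  · rintro (h | h)
    · exact Or.inl (hext _ _ (by rw [happ, h, ZMod.val_one, pow_one]))
    · refine Or.inr (hext _ _ ?_).symm
      rw [happ, h, ← hconj]
      rfl

/-- Modulo torsion and `p`-th powers, the `ω²`-eigenspace of the units is at most a line. -/
theorem exists_eq_pow_mul_of_eigen (h5 : 5 ≤ p) {u c : (𝓞 K)ˣ}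
    (hu : ∀ σ, expMod p (galUnits σ u) = ((omega hζ σ : ZMod p) ^ 2) • expMod p u)
    (hc : ∀ σ, expMod p (galUnits σ c) = ((omega hζ σ : ZMod p) ^ 2) • expMod p c)
    (hc0 : expMod p c ≠ 0) :
    ∃ k : ℕ, ∃ t ∈ torsion K, ∃ w : (𝓞 K)ˣ, u = t * c ^ k * w ^ p := by
  haveI : IsGalois ℚ K := IsCyclotomicExtension.isGalois {p} ℚ K
  haveI : Fintype (K ≃ₐ[ℚ] K) := Fintype.ofFinite _
  set k : (K ≃ₐ[ℚ] K) → ZMod p := fun σ ↦ (omega hζ σ : ZMod p) ^ 2
  set kinv : (K ≃ₐ[ℚ] K) → ZMod p := fun σ ↦ ((omega hζ σ)⁻¹ : (ZMod p)ˣ).val ^ 2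
  let Ab : (K ≃ₐ[ℚ] K) → Matrix (Fin (rank K)) (Fin (rank K)) (ZMod p) :=
    fun σ ↦ (galMatrix σ).map (Int.cast : ℤ → ZMod p)
  have hAb : ∀ σ (v : (𝓞 K)ˣ), expMod p (galUnits σ v) = (Ab σ).mulVec (expMod p v) := by
    intro σ v
    ext i
    simp only [expMod, expVec_galUnits, Matrix.mulVec, dotProduct, Int.cast_sum, Int.cast_mul,
      Ab, Matrix.map_apply]
  have hAbmul : ∀ σ τ, Ab (σ * τ) = Ab σ * Ab τ := fun σ τ ↦ by
    simp only [Ab, galMatrix_mul]
    exact Matrix.map_mul (f := Int.castRingHom (ZMod p))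
  let e : (Fin (rank K) → ZMod p) →ₗ[ZMod p] (Fin (rank K) → ZMod p) :=
    -∑ σ, kinv σ • Matrix.toLin' (Ab σ)
  let V : Submodule (ZMod p) (Fin (rank K) → ZMod p) :=
    { carrier := {x | ∀ σ, (Ab σ).mulVec x = k σ • x}
      add_mem' := fun {x y} hx hy σ ↦ by rw [Matrix.mulVec_add, hx, hy, smul_add]
      zero_mem' := fun σ ↦ by rw [Matrix.mulVec_zero, smul_zero]
      smul_mem' := fun a x hx σ ↦ by rw [Matrix.mulVec_smul, hx, smul_comm] }
  have hkk : ∀ σ, kinv σ * k σ = 1 := fun σ ↦ by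
    simp only [k, kinv, ← mul_pow, Units.inv_mul, one_pow]
  have hproj : LinearMap.IsProj V e := by
    constructor
    · intro x σ
      simp only [e, LinearMap.neg_apply, LinearMap.coe_sum, Finset.sum_apply, LinearMap.smul_apply,
        Matrix.toLin'_apply, Matrix.mulVec_neg, Matrix.mulVec_sum, Matrix.mulVec_smul,
        Matrix.mulVec_mulVec, smul_neg, Finset.smul_sum, smul_smul]
      congr 1
      refine Fintype.sum_equiv (Equiv.mulLeft σ) _ _ fun τ ↦ ?_
      rw [Equiv.coe_mulLeft, hAbmul]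
      congr 1
      simp only [k, kinv, map_mul, mul_inv, Units.val_mul]
      linear_combination (-(((omega hζ τ)⁻¹ : (ZMod p)ˣ) : ZMod p) ^ 2) *
        ((mul_pow _ _ 2).symm.trans (by rw [Units.mul_inv, one_pow]) :
          (omega hζ σ : ZMod p) ^ 2 * (((omega hζ σ)⁻¹ : (ZMod p)ˣ) : ZMod p) ^ 2 = 1)
    · intro x hx
      simp only [e, LinearMap.neg_apply, LinearMap.coe_sum, Finset.sum_apply, LinearMap.smul_apply,
        Matrix.toLin'_apply]
      rw [Finset.sum_congr rfl (fun σ _ ↦ show kinv σ • (Ab σ).mulVec x = x by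
        rw [hx σ, smul_smul, hkk, one_smul]), Finset.sum_const, Finset.card_univ,
        Fintype.card_congr (Equiv.ofBijective _ (omega_bijective hζ)), ZMod.card_units]
      rw [← Nat.cast_smul_eq_nsmul (ZMod p), Nat.cast_sub hp.out.one_le, ZMod.natCast_self,
        Nat.cast_one, zero_sub, neg_smul, one_smul, neg_neg]
  have hdim : (finrank (ZMod p) V : ZMod p) = 1 := by
    rw [← hproj.trace]
    simp only [e, map_neg, map_sum, map_smul, Matrix.trace_toLin'_eq, smul_eq_mul]
    have hT : 2 * Fintype.card (InfinitePlace K) = p - 1 := by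
      have h1 := InfinitePlace.card_eq_nrRealPlaces_add_nrComplexPlaces K
      rw [IsCyclotomicExtension.Rat.nrRealPlaces_eq_zero (n := p) K (by omega),
        IsCyclotomicExtension.Rat.nrComplexPlaces_eq_totient_div_two p,
        Nat.totient_prime hp.out, zero_add] at h1
      rw [h1]
      exact Nat.two_mul_div_two_of_even (hp.out.even_sub_one (by omega))
    have htr : ∀ σ, (Ab σ).trace =
        (if k σ = 1 then (Fintype.card (InfinitePlace K) : ZMod p) else 0) - 1 := by
      intro σ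
      have h := trace_galMatrix σ
      have hk : k σ = 1 ↔ (omega hζ σ) ^ 2 = 1 := by
        rw [Units.ext_iff, Units.val_pow_eq_pow_val, Units.val_one]
      have hcard : ((Finset.univ.filter fun w : InfinitePlace K ↦ placeMap σ w = w).card) =
          if k σ = 1 then Fintype.card (InfinitePlace K) else 0 := by
        simp only [placeMap_eq_iff hζ (by omega) σ]
        by_cases hh : (omega hζ σ) ^ 2 = 1 <;> simp [hh, hk]
      rw [hcard] at h
      have hZ : (galMatrix σ).trace =
          ((if k σ = 1 then Fintype.card (InfinitePlace K) else 0 : ℕ) : ℤ) - 1 := by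
        rw [eq_sub_iff_add_eq]
        exact_mod_cast h
      rw [show (Ab σ).trace = ((galMatrix σ).trace : ZMod p) by simp [Ab, Matrix.trace],
        hZ, Int.cast_sub, Int.cast_natCast, Int.cast_one]
      split_ifs <;> simp
    simp only [htr, mul_sub, mul_one, Finset.sum_sub_distrib, mul_ite, mul_zero]
    have hs : ∑ σ, kinv σ = 0 := by
      rw [Fintype.sum_bijective (omega hζ) (omega_bijective hζ) kinv
        (fun d : (ZMod p)ˣ ↦ ((d⁻¹ : (ZMod p)ˣ) : ZMod p) ^ 2) (fun σ ↦ rfl),
        ]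
      refine (Equiv.sum_comp (Equiv.inv (ZMod p)ˣ) (fun d : (ZMod p)ˣ ↦ (d : ZMod p) ^ 2)).trans ?_
      have := FiniteField.sum_pow_units (ZMod p) 2
      rw [ZMod.card, if_neg fun h ↦ by have := Nat.le_of_dvd two_pos h; omega] at this
      exact this
    have hcount : (Finset.univ.filter fun σ ↦ k σ = 1).card = 2 := by
      rw [show (Finset.univ.filter fun σ ↦ k σ = 1).card =
        (Finset.univ.filter fun d : (ZMod p)ˣ ↦ (d : ZMod p) ^ 2 = 1).card from
        Finset.card_bij (fun σ _ ↦ omega hζ σ) (fun σ hσ ↦ by simpa [k] using hσ)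
          (fun a _ b _ h ↦ (omega_bijective hζ).1 h)
          (fun d hd ↦ ⟨_, by simpa [k, (omega_bijective hζ).2 d |>.choose_spec] using hd,
            (omega_bijective hζ).2 d |>.choose_spec⟩)]
      rw [show (Finset.univ.filter fun d : (ZMod p)ˣ ↦ (d : ZMod p) ^ 2 = 1) = {1, -1} from by
        ext d
        simp only [Finset.mem_filter, Finset.mem_univ, true_and, Finset.mem_insert,
          Finset.mem_singleton, Units.ext_iff, Units.val_neg, Units.val_one, sq_eq_one_iff]]
      refine Finset.card_pair fun h ↦ ?_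
      haveI : Fact (2 < p) := ⟨by omega⟩
      exact ZMod.neg_one_ne_one (by simpa using (congrArg Units.val h).symm)
    rw [hs, sub_zero, ← Finset.sum_filter, Finset.sum_congr rfl (g := fun _ ↦
      (Fintype.card (InfinitePlace K) : ZMod p)) fun σ hσ ↦ ?_]
    · rw [Finset.sum_const, hcount, nsmul_eq_mul, ← Nat.cast_mul, hT, Nat.cast_sub hp.out.one_le,
        ZMod.natCast_self, Nat.cast_one, zero_sub, neg_neg]
    · have h1 := hkk σ
      rw [(Finset.mem_filter.mp hσ).2, mul_one] at h1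
      rw [h1, one_mul]
  have hlt : finrank (ZMod p) V < p := by
    refine (Submodule.finrank_le V).trans_lt ?_
    rw [Module.finrank_fintype_fun_eq_card, Fintype.card_fin, ← Units.finrank_eq (K := K)]
    have h := InfinitePlace.sum_mult_eq (K := K)
    rw [IsCyclotomicExtension.finrank (n := p) K (Polynomial.cyclotomic.irreducible_rat hp.out.pos),
      Nat.totient_prime hp.out] at h
    have h2 : Fintype.card (InfinitePlace K) ≤ p - 1 := by
      rw [← h, Fintype.card, Finset.card_eq_sum_ones]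
      exact Finset.sum_le_sum fun w _ ↦ InfinitePlace.mult_pos
    rw [Units.finrank_eq, Units.rank]
    omega
  have h1 : finrank (ZMod p) V = 1 := by
    have h' : ((finrank (ZMod p) V : ℕ) : ZMod p) = ((1 : ℕ) : ZMod p) := by rw [hdim, Nat.cast_one]
    rw [ZMod.natCast_eq_natCast_iff', Nat.mod_eq_of_lt hlt, Nat.mod_eq_of_lt hp.out.one_lt] at h'
    exact h'
  have huV : expMod p u ∈ V := fun σ ↦ by rw [← hAb]; exact hu σ
  have hcV : expMod p c ∈ V := fun σ ↦ by rw [← hAb]; exact hc σ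
  obtain ⟨a, ha⟩ := (finrank_eq_one_iff_of_nonzero' (⟨_, hcV⟩ : V)
    (fun h ↦ hc0 (congrArg Subtype.val h))).mp h1 ⟨_, huV⟩
  have ha' : a • expMod p c = expMod p u := congrArg Subtype.val ha
  have hz : expMod p (u * (c ^ a.val)⁻¹) = 0 := by
    ext i
    have hneg : expVec ((c ^ a.val)⁻¹) = -(a.val • expVec c) := by
      rw [← expVec_pow]
      exact map_neg (expHom (K := K)) (Additive.ofMul (c ^ a.val))
    simp only [expMod, expVec_mul, hneg, Pi.add_apply, Pi.neg_apply, Pi.smul_apply, Pi.zero_apply,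
      Int.cast_add, Int.cast_neg, nsmul_eq_mul, Int.cast_mul, Int.cast_natCast, ZMod.natCast_zmod_val]
    have := congrFun ha' i
    simp only [expMod, Pi.smul_apply, smul_eq_mul] at this
    simp only [Pi.mul_apply, Pi.natCast_apply, Int.cast_mul, Int.cast_natCast,
      ZMod.natCast_zmod_val]
    rw [this, add_neg_cancel]
  obtain ⟨t, ht, w, hw⟩ := exists_eq_pow_of_expMod _ hz
  refine ⟨a.val, t, ht, w, ?_⟩
  rw [mul_inv_eq_iff_eq_mul] at hw
  rw [hw, mul_right_comm]

end Cyclotomic

end FLTAgent.ExtVanishing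

end
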