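import Fermat.Agent.ExtVanishing.Jet
import Fermat.Agent.ExtVanishing.UnitEigen
import Fermat.Prelude.Def_ClassGroup_GaloisAction

/-!
The `ω²`-component of the cyclotomic unit `1 + ζ`.
-/

set_option autoImplicit false

noncomputable section

open NumberField
open scoped Classical nonZeroDivisors

namespace FLTAgent.ExtVanishing

variable {K : Type} [Field K] [NumberField K]

/-- The action on integers. -/
def galRing (σ : K ≃ₐ[ℚ] K) : 𝓞 K ≃+* 𝓞 K :=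
  RingOfIntegers.mapRingEquiv (σ : K ≃+* K)

lemma coe_galRing (σ : K ≃ₐ[ℚ] K) (x : 𝓞 K) : ((galRing σ x : 𝓞 K) : K) = σ (x : K) := rfl

lemma galRing_mul (σ τ : K ≃ₐ[ℚ] K) (x : 𝓞 K) :
    galRing (σ * τ) x = galRing σ (galRing τ x) := RingOfIntegers.ext rfl

lemma coe_galUnits_eq (σ : K ≃ₐ[ℚ] K) (u : (𝓞 K)ˣ) :
    (galUnits σ u : 𝓞 K) = galRing σ u := RingOfIntegers.ext rfl

/-- The action on ideal classes. -/
def galCl (σ : K ≃ₐ[ℚ] K) : ClassGroup (𝓞 K) →* ClassGroup (𝓞 K) :=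
  (ClassGroup.mulEquiv (galRing σ)).toMonoidHom

lemma galCl_mk0 (σ : K ≃ₐ[ℚ] K) (I : (Ideal (𝓞 K))⁰) :
    galCl σ (ClassGroup.mk0 I) = ClassGroup.mk0 (Ideal.mapNonZero (galRing σ) I) :=
  ClassGroup.mulEquiv_mk0 _ _

lemma galCl_mul (σ τ : K ≃ₐ[ℚ] K) (C : ClassGroup (𝓞 K)) :
    galCl (σ * τ) C = galCl σ (galCl τ C) := by
  obtain ⟨I, rfl⟩ := ClassGroup.mk0_surjective C
  rw [galCl_mk0, galCl_mk0, galCl_mk0]
  congr 1
  refine Subtype.ext ?_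
  simp only [Ideal.coe_mapNonZero, Ideal.map_map]
  rfl

variable {p : ℕ} [hp : Fact p.Prime] [IsCyclotomicExtension {p} ℚ K]
  {ζ : K} (hζ : IsPrimitiveRoot ζ p)

instance : IsMulCommutative (ZMod p)ˣ := ⟨⟨mul_comm⟩⟩

include hζ

lemma galRing_zeta (σ : K ≃ₐ[ℚ] K) :
    galRing σ hζ.toInteger = hζ.toInteger ^ (omega hζ σ : ZMod p).val := by
  refine RingOfIntegers.ext ?_
  rw [coe_galRing, RingOfIntegers.coe_eq_algebraMap (x := hζ.toInteger ^ _), map_pow]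
  exact omega_spec hζ σ

/-- The exponent of the eigencharacter `ω²`. -/
def kExp (σ : K ≃ₐ[ℚ] K) : ℕ := ((omega hζ σ : ZMod p) ^ 2).val

/-- The exponents of the projector to the `ω²`-component. -/
def aExp (σ : K ≃ₐ[ℚ] K) : ℕ := (-(((omega hζ σ)⁻¹ : (ZMod p)ˣ) : ZMod p) ^ 2).val

lemma cast_kExp (σ : K ≃ₐ[ℚ] K) : (kExp hζ σ : ZMod p) = (omega hζ σ : ZMod p) ^ 2 :=
  ZMod.natCast_zmod_val _

lemma cast_aExp (σ : K ≃ₐ[ℚ] K) :
    (aExp hζ σ : ZMod p) = -(((omega hζ σ)⁻¹ : (ZMod p)ˣ) : ZMod p) ^ 2 :=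
  ZMod.natCast_zmod_val _

lemma card_gal : Nat.card (K ≃ₐ[ℚ] K) = p - 1 := by
  rw [Nat.card_congr (Equiv.ofBijective _ (omega_bijective hζ)), Nat.card_eq_fintype_card,
    ZMod.card_units]

lemma cast_card_gal [Fintype (K ≃ₐ[ℚ] K)] :
    (Fintype.card (K ≃ₐ[ℚ] K) : ZMod p) = -1 := by
  rw [← Nat.card_eq_fintype_card, card_gal hζ, Nat.cast_sub hp.out.one_le, ZMod.natCast_self,
    Nat.cast_one, zero_sub]

/-- The unit `1 + ζ`. -/
def baseUnit (h5 : 5 ≤ p) : (𝓞 K)ˣ :=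
  (hζ.toInteger_isPrimitiveRoot.geom_sum_isUnit hp.out.one_lt
    (Nat.coprime_primes Nat.prime_two hp.out |>.mpr (by omega))).unit

lemma coe_baseUnit (h5 : 5 ≤ p) : (baseUnit hζ h5 : 𝓞 K) = 1 + hζ.toInteger := by
  simp [baseUnit, Finset.sum_range_succ]

/-- The `ω²`-component `c` of `1 + ζ`. -/
def cUnit (h5 : 5 ≤ p) : (𝓞 K)ˣ :=
  ∏ σ : K ≃ₐ[ℚ] K, galUnits σ⁻¹ (baseUnit hζ h5) ^ kExp hζ σ

lemma expMod_pow_self (u : (𝓞 K)ˣ) (n : ℕ) : expMod p (u ^ n) = (n : ZMod p) • expMod p u := by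
  ext i
  simp [expMod, expVec_pow]

omit [IsCyclotomicExtension {p} ℚ K] hζ in
lemma expMod_mul (u v : (𝓞 K)ˣ) : expMod p (u * v) = expMod p u + expMod p v := by
  ext i
  simp [expMod, expVec_mul]

omit [IsCyclotomicExtension {p} ℚ K] hζ in
lemma expMod_one : expMod p (1 : (𝓞 K)ˣ) = 0 := by
  ext i
  simp [expMod, expVec_tors (one_mem (Units.torsion K))]

omit [IsCyclotomicExtension {p} ℚ K] hζ in
lemma expMod_prod {ι : Type} (s : Finset ι) (f : ι → (𝓞 K)ˣ) :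
    expMod p (∏ i ∈ s, f i) = ∑ i ∈ s, expMod p (f i) := by
  classical
  induction s using Finset.induction with
  | empty => simp [expMod_one]
  | @insert a s ha ih => rw [Finset.prod_insert ha, Finset.sum_insert ha, expMod_mul, ih]

lemma cUnit_eigen (h5 : 5 ≤ p) (τ : K ≃ₐ[ℚ] K) :
    expMod p (galUnits τ (cUnit hζ h5)) = ((omega hζ τ : ZMod p) ^ 2) • expMod p (cUnit hζ h5) := by
  simp only [cUnit, map_prod, map_pow, expMod_prod, expMod_pow_self hζ, Finset.smul_sum, smul_smul,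
    ← galUnits_mul]
  refine Fintype.sum_equiv (Equiv.mulRight τ⁻¹) _ _ fun σ ↦ ?_
  rw [Equiv.coe_mulRight, mul_inv_rev, inv_inv, cast_kExp, cast_kExp]
  congr 1
  simp only [map_mul, map_inv, Units.val_mul, mul_pow]
  linear_combination (-(omega hζ σ : ZMod p) ^ 2) *
    ((mul_pow _ _ 2).symm.trans (by rw [Units.mul_inv, one_pow]) :
      (omega hζ τ : ZMod p) ^ 2 * (((omega hζ τ)⁻¹ : (ZMod p)ˣ) : ZMod p) ^ 2 = 1)

omit [IsCyclotomicExtension {p} ℚ K] in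
lemma unit_not_mem (u : (𝓞 K)ˣ) [IsCyclotomicExtension {p} ℚ K] : (u : 𝓞 K) ∉ lam hζ := fun h ↦
  (lam_isMaximal hζ).ne_top (Ideal.eq_top_of_isUnit_mem _ h u.isUnit)

lemma ell2_cUnit (h5 : 5 ≤ p) : ell2 hζ h5 (cUnit hζ h5 : 𝓞 K) = -(1 / 8) := by
  have hprod : ∀ s : Finset (K ≃ₐ[ℚ] K),
      ell2 hζ h5 ((∏ σ ∈ s, galUnits σ⁻¹ (baseUnit hζ h5) ^ kExp hζ σ : (𝓞 K)ˣ) : 𝓞 K) =
        ∑ _σ ∈ s, (1 / 8 : ZMod p) := by
    intro s
    induction s using Finset.induction with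
    | empty => simp [ell2, Jet.log2]
    | @insert a s ha ih =>
      rw [Finset.prod_insert ha, Finset.sum_insert ha, Units.val_mul,
        ell2_mul hζ h5 (unit_not_mem hζ _) (unit_not_mem hζ _), ih]
      congr 1
      rw [Units.val_pow_eq_pow_val, ell2_pow hζ h5 (unit_not_mem hζ _), coe_galUnits_eq,
        show galRing a⁻¹ (baseUnit hζ h5 : 𝓞 K) =
          (galRing a⁻¹).toRingHom (baseUnit hζ h5 : 𝓞 K) from rfl,
        (ell_comp hζ h5 (galRing a⁻¹).toRingHom _ (galRing_zeta hζ a⁻¹) _).2, coe_baseUnit,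
        ell2_one_add_zeta, ZMod.natCast_zmod_val, cast_kExp, ← mul_assoc, ← mul_pow, map_inv,
        Units.mul_inv, one_pow, one_mul]
  have h := hprod Finset.univ
  rw [Finset.sum_const, Finset.card_univ, nsmul_eq_mul, cast_card_gal hζ, neg_one_mul] at h
  convert h using 4
  exact rfl

lemma ell2_torsion (h5 : 5 ≤ p) {t : (𝓞 K)ˣ} (ht : t ∈ Units.torsion K) :
    ∃ i : ℕ, ((t : 𝓞 K) = hζ.toInteger ^ i ∨ (t : 𝓞 K) = -hζ.toInteger ^ i) ∧
      ell1 hζ h5 (t : 𝓞 K) = (i : ZMod p) ∧ ell2 hζ h5 (t : 𝓞 K) = 0 := by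
  have hfin : IsOfFinOrder ((t : 𝓞 K) : K) :=
    (Units.coeHom K).isOfFinOrder
      ((Units.map (algebraMap (𝓞 K) K : 𝓞 K →* K)).isOfFinOrder ht)
  obtain ⟨i, -, hi⟩ := hζ.exists_pow_or_neg_mul_pow_of_isOfFinOrder
    (hp.out.odd_of_ne_two (by omega)) hfin
  have hζm : hζ.toInteger ∉ lam hζ := fun h ↦ (lam_isMaximal hζ).ne_top
    (Ideal.eq_top_of_isUnit_mem _ h (hζ.toInteger_isPrimitiveRoot.isUnit hp.out.ne_zero))
  refine ⟨i, ?_, ?_⟩
  · rcases hi with hi | hi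
    · exact Or.inl (RingOfIntegers.ext (by
        rw [RingOfIntegers.coe_eq_algebraMap (x := hζ.toInteger ^ i), map_pow]; exact hi))
    · exact Or.inr (RingOfIntegers.ext (by
        rw [RingOfIntegers.coe_eq_algebraMap (x := -hζ.toInteger ^ i), map_neg, map_pow]; exact hi))
  have h1 := ell1_pow hζ h5 hζm i
  have h2 := ell2_pow hζ h5 hζm i
  rw [ell1_zeta, mul_one] at h1
  rw [ell2_zeta, mul_zero] at h2
  have hzi : hζ.toInteger ^ i ∉ lam hζ := fun h ↦ hζm ((lam_isMaximal hζ).isPrime.mem_of_pow_mem _ h)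
  have hneg : (-1 : 𝓞 K) ∉ lam hζ := fun h ↦ (lam_isMaximal hζ).ne_top
    (Ideal.eq_top_of_isUnit_mem _ h isUnit_one.neg)
  rcases hi with hi | hi
  · rw [show (t : 𝓞 K) = hζ.toInteger ^ i from RingOfIntegers.ext (by
      rw [RingOfIntegers.coe_eq_algebraMap (x := hζ.toInteger ^ i), map_pow]; exact hi)]
    exact ⟨h1, h2⟩
  · rw [show (t : 𝓞 K) = -1 * hζ.toInteger ^ i from RingOfIntegers.ext (by
      rw [RingOfIntegers.coe_eq_algebraMap (x := -1 * hζ.toInteger ^ i), neg_one_mul, map_neg,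
        map_pow]; exact hi),
      ell1_mul hζ h5 hneg hzi, ell2_mul hζ h5 hneg hzi, h1, h2, (neg_one_ell hζ h5).1,
      (neg_one_ell hζ h5).2, zero_add, zero_add]
    exact ⟨rfl, rfl⟩

lemma ell2_cUnit_ne_zero (h5 : 5 ≤ p) : ell2 hζ h5 (cUnit hζ h5 : 𝓞 K) ≠ 0 := by
  rw [ell2_cUnit, neg_ne_zero]
  refine one_div_ne_zero ?_
  rw [show (8 : ZMod p) = 2 ^ 3 by norm_num]
  exact pow_ne_zero 3 (two_ne_zero_zmod h5)

lemma expMod_cUnit_ne_zero (h5 : 5 ≤ p) : expMod p (cUnit hζ h5) ≠ 0 := by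
  intro h
  obtain ⟨t, ht, w, hw⟩ := exists_eq_pow_of_expMod _ h
  refine ell2_cUnit_ne_zero hζ h5 ?_
  obtain ⟨i, -, -, h2⟩ := ell2_torsion hζ h5 ht
  rw [hw, Units.val_mul, Units.val_pow_eq_pow_val,
    ell2_mul hζ h5 (unit_not_mem hζ t) (fun h ↦ unit_not_mem hζ w
      ((lam_isMaximal hζ).isPrime.mem_of_pow_mem _ h)), h2,
    ell2_pow hζ h5 (unit_not_mem hζ w), ZMod.natCast_self, zero_mul, add_zero]

lemma cUnit_not_pow (h5 : 5 ≤ p) (b : K) : b ^ p ≠ ((cUnit hζ h5 : 𝓞 K) : K) := by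
  intro hb
  have hint : IsIntegral ℤ b := IsIntegral.of_pow hp.out.pos (hb ▸ (cUnit hζ h5 : 𝓞 K).2)
  set B : 𝓞 K := IsIntegralClosure.mk' (𝓞 K) b hint
  have hBb : algebraMap (𝓞 K) K B = b := IsIntegralClosure.algebraMap_mk' _ _ _
  have hB : B ^ p = (cUnit hζ h5 : 𝓞 K) := RingOfIntegers.ext (by
    rw [RingOfIntegers.coe_eq_algebraMap, map_pow, hBb]; exact hb)
  have hu : IsUnit B := (isUnit_pow_iff hp.out.ne_zero).mp (hB ▸ (cUnit hζ h5).isUnit)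
  refine ell2_cUnit_ne_zero hζ h5 ?_
  rw [← hB, ← hu.unit_spec, ell2_pow hζ h5 (unit_not_mem hζ hu.unit), ZMod.natCast_self, zero_mul]

end FLTAgent.ExtVanishing

end
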