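import Mathlib

/-!
Two-jets at the prime over `p` of the `p`-th cyclotomic integers: the ring map to
`𝔽_p[t]/(t³)` sending `ζ` to `exp t`, and the coefficients of `t` and `t²` of its logarithm.
-/

set_option autoImplicit false

noncomputable section

open NumberField Polynomial
open scoped Classical

namespace FLTAgent.ExtVanishing

/-- `a + b t + c t²` modulo `t³`. -/
@[ext]
structure Jet (R : Type) where
  /-- constant term -/
  c0 : R
  /-- linear term -/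
  c1 : R
  /-- quadratic term -/
  c2 : R

namespace Jet

variable {R : Type} [CommRing R]

instance : Zero (Jet R) := ⟨⟨0, 0, 0⟩⟩
instance : One (Jet R) := ⟨⟨1, 0, 0⟩⟩
instance : Add (Jet R) := ⟨fun x y ↦ ⟨x.c0 + y.c0, x.c1 + y.c1, x.c2 + y.c2⟩⟩
instance : Neg (Jet R) := ⟨fun x ↦ ⟨-x.c0, -x.c1, -x.c2⟩⟩
instance : Mul (Jet R) := ⟨fun x y ↦
  ⟨x.c0 * y.c0, x.c0 * y.c1 + x.c1 * y.c0, x.c0 * y.c2 + x.c1 * y.c1 + x.c2 * y.c0⟩⟩

@[simp] lemma zero_c0 : (0 : Jet R).c0 = 0 := rfl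
@[simp] lemma zero_c1 : (0 : Jet R).c1 = 0 := rfl
@[simp] lemma zero_c2 : (0 : Jet R).c2 = 0 := rfl
@[simp] lemma one_c0 : (1 : Jet R).c0 = 1 := rfl
@[simp] lemma one_c1 : (1 : Jet R).c1 = 0 := rfl
@[simp] lemma one_c2 : (1 : Jet R).c2 = 0 := rfl
@[simp] lemma add_c0 (x y : Jet R) : (x + y).c0 = x.c0 + y.c0 := rfl
@[simp] lemma add_c1 (x y : Jet R) : (x + y).c1 = x.c1 + y.c1 := rfl
@[simp] lemma add_c2 (x y : Jet R) : (x + y).c2 = x.c2 + y.c2 := rfl
@[simp] lemma neg_c0 (x : Jet R) : (-x).c0 = -x.c0 := rfl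
@[simp] lemma neg_c1 (x : Jet R) : (-x).c1 = -x.c1 := rfl
@[simp] lemma neg_c2 (x : Jet R) : (-x).c2 = -x.c2 := rfl
@[simp] lemma mul_c0 (x y : Jet R) : (x * y).c0 = x.c0 * y.c0 := rfl
@[simp] lemma mul_c1 (x y : Jet R) : (x * y).c1 = x.c0 * y.c1 + x.c1 * y.c0 := rfl
@[simp] lemma mul_c2 (x y : Jet R) :
    (x * y).c2 = x.c0 * y.c2 + x.c1 * y.c1 + x.c2 * y.c0 := rfl

instance : CommRing (Jet R) :=
  CommRing.ofMinimalAxioms
    (fun _ _ _ ↦ by ext <;> simp <;> ring)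
    (fun _ ↦ by ext <;> simp)
    (fun _ ↦ by ext <;> simp)
    (fun _ _ _ ↦ by ext <;> simp <;> ring)
    (fun _ _ ↦ by ext <;> simp <;> ring)
    (fun _ ↦ by ext <;> simp)
    (fun _ _ _ ↦ by ext <;> simp <;> ring)

/-- The constant term, as a ring map. -/
def c0Hom : Jet R →+* R where
  toFun := Jet.c0
  map_one' := rfl
  map_zero' := rfl
  map_mul' _ _ := rfl
  map_add' _ _ := rfl

/-- The substitution `t ↦ d t`. -/
def scale (d : R) : Jet R →+* Jet R where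
  toFun x := ⟨x.c0, d * x.c1, d ^ 2 * x.c2⟩
  map_one' := by ext <;> simp
  map_zero' := by ext <;> simp
  map_mul' _ _ := by ext <;> simp <;> ring
  map_add' _ _ := by ext <;> simp <;> ring

variable {F : Type} [Field F]

/-- Coefficient of `t` of the logarithm. -/
def log1 (x : Jet F) : F := x.c1 / x.c0

/-- Coefficient of `t²` of the logarithm. -/
def log2 (x : Jet F) : F := x.c2 / x.c0 - (x.c1 / x.c0) ^ 2 / 2

lemma log1_mul {x y : Jet F} (hx : x.c0 ≠ 0) (hy : y.c0 ≠ 0) :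
    log1 (x * y) = log1 x + log1 y := by
  simp only [log1, mul_c0, mul_c1]
  field_simp
  ring

lemma log2_mul {x y : Jet F} (h2 : (2 : F) ≠ 0) (hx : x.c0 ≠ 0) (hy : y.c0 ≠ 0) :
    log2 (x * y) = log2 x + log2 y := by
  simp only [log2, mul_c0, mul_c1, mul_c2]
  field_simp
  ring

/-- The jet of `exp (i t)`. -/
def expJet (i : F) : Jet F := ⟨1, i, i ^ 2 / 2⟩

lemma expJet_add (h2 : (2 : F) ≠ 0) (i j : F) : expJet (i + j) = expJet i * expJet j := by
  ext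
  · simp [expJet]
  · simp [expJet]; ring
  · simp [expJet]; field_simp; ring

lemma expJet_pow (h2 : (2 : F) ≠ 0) (i : F) (n : ℕ) : expJet i ^ n = expJet ((n : F) * i) := by
  induction n with
  | zero => ext <;> simp [expJet]
  | succ n ih => rw [pow_succ, ih, ← expJet_add h2]; push_cast; ring_nf

lemma scale_expJet (d i : F) : scale d (expJet i) = expJet (d * i) := by
  ext <;> simp [scale, expJet]
  ring

lemma sum_c0 {ι : Type} (s : Finset ι) (f : ι → Jet R) :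
    (∑ i ∈ s, f i).c0 = ∑ i ∈ s, (f i).c0 := map_sum c0Hom f s

lemma sum_c1 {ι : Type} (s : Finset ι) (f : ι → Jet R) :
    (∑ i ∈ s, f i).c1 = ∑ i ∈ s, (f i).c1 :=
  map_sum ({ toFun := Jet.c1, map_zero' := rfl, map_add' := fun _ _ ↦ rfl } : Jet R →+ R) f s

lemma sum_c2 {ι : Type} (s : Finset ι) (f : ι → Jet R) :
    (∑ i ∈ s, f i).c2 = ∑ i ∈ s, (f i).c2 :=
  map_sum ({ toFun := Jet.c2, map_zero' := rfl, map_add' := fun _ _ ↦ rfl } : Jet R →+ R) f s

end Jet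

section

variable {p : ℕ} [hp : Fact p.Prime]

lemma two_ne_zero_zmod (h5 : 5 ≤ p) : (2 : ZMod p) ≠ 0 := by
  intro h
  have : ((2 : ℕ) : ZMod p) = 0 := by exact_mod_cast h
  rw [ZMod.natCast_eq_zero_iff] at this
  have := Nat.le_of_dvd two_pos this
  omega

lemma aeval_expJet_cyclotomic (h5 : 5 ≤ p) :
    aeval (Jet.expJet (1 : ZMod p)) (cyclotomic p ℤ) = 0 := by
  have h2 := two_ne_zero_zmod h5
  have hsum : ∀ k : ℕ, k < 3 → ∑ i ∈ Finset.range p, ((i : ZMod p)) ^ k = 0 := by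
    intro k hk
    have hb : ∑ i ∈ Finset.range p, ((i : ZMod p)) ^ k = ∑ x : ZMod p, x ^ k := by
      refine Finset.sum_bij (fun i _ ↦ (i : ZMod p)) (fun _ _ ↦ Finset.mem_univ _) ?_ ?_
        (fun _ _ ↦ rfl)
      · intro a ha b hb h
        rw [ZMod.natCast_eq_natCast_iff'] at h
        rwa [Nat.mod_eq_of_lt (Finset.mem_range.mp ha), Nat.mod_eq_of_lt (Finset.mem_range.mp hb)] at h
      · intro x _
        exact ⟨x.val, Finset.mem_range.mpr x.val_lt, ZMod.natCast_zmod_val x⟩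
    rw [hb, FiniteField.sum_pow_lt_card_sub_one]
    rw [ZMod.card]
    omega
  rw [cyclotomic_prime, map_sum]
  simp only [map_pow, aeval_X, Jet.expJet_pow h2, mul_one]
  ext
  · simpa [Jet.sum_c0, Jet.expJet] using hsum 0 (by omega)
  · simpa [Jet.sum_c1, Jet.expJet] using hsum 1 (by omega)
  · simp only [Jet.sum_c2, Jet.expJet, Jet.zero_c2, ← Finset.sum_div, hsum 2 (by omega), zero_div]

variable {K : Type} [Field K] [NumberField K] [IsCyclotomicExtension {p} ℚ K]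
  {ζ : K} (hζ : IsPrimitiveRoot ζ p) (h5 : 5 ≤ p)

include hζ

include h5 in
/-- Auxiliary. -/
lemma jet_aux : aeval (Jet.expJet (1 : ZMod p)) (minpoly ℤ hζ.integralPowerBasis.gen) = 0 := by
  rw [IsPrimitiveRoot.integralPowerBasis_gen, ← RingOfIntegers.minpoly_coe]
  change aeval _ (minpoly ℤ ζ) = 0
  rw [← cyclotomic_eq_minpoly hζ hp.out.pos]
  exact aeval_expJet_cyclotomic h5

/-- The 2-jet map. -/
def jet : 𝓞 K →+* Jet (ZMod p) :=
  (hζ.integralPowerBasis.lift (Jet.expJet (1 : ZMod p)) (jet_aux hζ h5)).toRingHom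

lemma jet_zeta : jet hζ h5 hζ.toInteger = Jet.expJet 1 := by
  conv_lhs => rw [← IsPrimitiveRoot.integralPowerBasis_gen hζ]
  exact hζ.integralPowerBasis.lift_gen _ _

lemma jet_hom_ext (f g : 𝓞 K →+* Jet (ZMod p)) (h : f hζ.toInteger = g hζ.toInteger) : f = g := by
  have : f.toIntAlgHom = g.toIntAlgHom := hζ.integralPowerBasis.algHom_ext (by simpa using h)
  ext1 x
  exact DFunLike.congr_fun this x

/-- Compatibility with the Galois action. -/
lemma jet_comp (f : 𝓞 K →+* 𝓞 K) (d : ℕ) (hf : f hζ.toInteger = hζ.toInteger ^ d) (x : 𝓞 K) :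
    jet hζ h5 (f x) = Jet.scale (d : ZMod p) (jet hζ h5 x) := by
  have : (jet hζ h5).comp f = (Jet.scale (d : ZMod p)).comp (jet hζ h5) := by
    refine jet_hom_ext hζ _ _ ?_
    simp only [RingHom.comp_apply, hf, map_pow, jet_zeta, Jet.scale_expJet, mul_one,
      Jet.expJet_pow (two_ne_zero_zmod h5)]
  exact RingHom.congr_fun this x

/-- The prime over `p`. -/
def lam : Ideal (𝓞 K) := Ideal.span {hζ.toInteger - 1}

lemma lam_isMaximal : (lam hζ).IsMaximal := by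
  have h := hζ.zeta_sub_one_prime'
  exact ((Ideal.span_singleton_prime h.ne_zero).mpr h).isMaximal
    (by simpa using h.ne_zero)

lemma mem_lam_iff (x : 𝓞 K) : x ∈ lam hζ ↔ (jet hζ h5 x).c0 = 0 := by
  have hker : lam hζ = RingHom.ker (Jet.c0Hom.comp (jet hζ h5)) := by
    refine (lam_isMaximal hζ).eq_of_le (RingHom.ker_ne_top _) ?_
    rw [lam, Ideal.span_singleton_le_iff_mem, RingHom.mem_ker, RingHom.comp_apply, map_sub,
      jet_zeta, map_one, map_sub, map_one]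
    exact sub_self (1 : ZMod p)
  rw [hker, RingHom.mem_ker]
  rfl

lemma jet_eq_zero_of_mem_lam_pow {x : 𝓞 K} (hx : x ∈ lam hζ ^ 3) : jet hζ h5 x = 0 := by
  rw [lam, Ideal.span_singleton_pow, Ideal.mem_span_singleton] at hx
  obtain ⟨y, rfl⟩ := hx
  have : jet hζ h5 (hζ.toInteger - 1) ^ 3 = 0 := by
    rw [map_sub, jet_zeta, map_one, sub_eq_add_neg, pow_succ, pow_two]
    ext <;> simp [Jet.expJet]
  rw [map_mul, map_pow, this, zero_mul]

/-- The `t`-coefficient of the logarithm at `λ`. -/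
def ell1 (x : 𝓞 K) : ZMod p := Jet.log1 (jet hζ h5 x)

/-- The `t²`-coefficient of the logarithm at `λ`. -/
def ell2 (x : 𝓞 K) : ZMod p := Jet.log2 (jet hζ h5 x)

lemma ell1_mul {x y : 𝓞 K} (hx : x ∉ lam hζ) (hy : y ∉ lam hζ) :
    ell1 hζ h5 (x * y) = ell1 hζ h5 x + ell1 hζ h5 y := by
  rw [ell1, map_mul, Jet.log1_mul ((mem_lam_iff hζ h5 x).not.mp hx)
    ((mem_lam_iff hζ h5 y).not.mp hy)]
  rfl

lemma ell2_mul {x y : 𝓞 K} (hx : x ∉ lam hζ) (hy : y ∉ lam hζ) :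
    ell2 hζ h5 (x * y) = ell2 hζ h5 x + ell2 hζ h5 y := by
  rw [ell2, map_mul, Jet.log2_mul (two_ne_zero_zmod h5) ((mem_lam_iff hζ h5 x).not.mp hx)
    ((mem_lam_iff hζ h5 y).not.mp hy)]
  rfl

lemma ell1_pow {x : 𝓞 K} (hx : x ∉ lam hζ) (n : ℕ) :
    ell1 hζ h5 (x ^ n) = (n : ZMod p) * ell1 hζ h5 x := by
  induction n with
  | zero => simp [ell1, Jet.log1]
  | succ n ih =>
    rw [pow_succ, ell1_mul hζ h5 (fun h ↦ hx ((lam_isMaximal hζ).isPrime.mem_of_pow_mem _ h)) hx,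
      ih]
    push_cast; ring

lemma ell2_pow {x : 𝓞 K} (hx : x ∉ lam hζ) (n : ℕ) :
    ell2 hζ h5 (x ^ n) = (n : ZMod p) * ell2 hζ h5 x := by
  induction n with
  | zero => simp [ell2, Jet.log2]
  | succ n ih =>
    rw [pow_succ, ell2_mul hζ h5 (fun h ↦ hx ((lam_isMaximal hζ).isPrime.mem_of_pow_mem _ h)) hx,
      ih]
    push_cast; ring

lemma ell_comp (f : 𝓞 K →+* 𝓞 K) (d : ℕ) (hf : f hζ.toInteger = hζ.toInteger ^ d) (x : 𝓞 K) :
    ell1 hζ h5 (f x) = (d : ZMod p) * ell1 hζ h5 x ∧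
      ell2 hζ h5 (f x) = (d : ZMod p) ^ 2 * ell2 hζ h5 x := by
  constructor
  · rw [ell1, ell1, jet_comp hζ h5 f d hf]
    simp [Jet.log1, Jet.scale, mul_div_assoc]
  · rw [ell2, ell2, jet_comp hζ h5 f d hf]
    simp [Jet.log2, Jet.scale, mul_div_assoc, mul_pow]
    ring

lemma ell1_zeta : ell1 hζ h5 hζ.toInteger = 1 := by simp [ell1, jet_zeta, Jet.log1, Jet.expJet]

lemma ell2_zeta : ell2 hζ h5 hζ.toInteger = 0 := by simp [ell2, jet_zeta, Jet.log2, Jet.expJet]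

include h5 in
lemma one_add_zeta_not_mem : (1 + hζ.toInteger) ∉ lam hζ := by
  rw [mem_lam_iff hζ h5, map_add, map_one, jet_zeta]
  simpa [Jet.expJet, one_add_one_eq_two] using two_ne_zero_zmod h5

lemma ell2_one_add_zeta : ell2 hζ h5 (1 + hζ.toInteger) = 1 / 8 := by
  have h2 := two_ne_zero_zmod h5
  have h8 : (8 : ZMod p) ≠ 0 := by
    rw [show (8 : ZMod p) = 2 ^ 3 by norm_num]
    exact pow_ne_zero 3 h2
  simp only [ell2, jet_zeta, Jet.log2, Jet.expJet, map_add, map_one, Jet.add_c0, Jet.add_c1,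
    Jet.add_c2, Jet.one_c0, Jet.one_c1, Jet.one_c2, zero_add, one_pow, one_add_one_eq_two]
  have h4 : (4 : ZMod p) ≠ 0 := by rw [show (4 : ZMod p) = 2 ^ 2 by norm_num]; exact pow_ne_zero 2 h2
  field_simp
  ring

/-- A unit congruent to a `p`-th power modulo `λ³` has vanishing `t²`-coefficient. -/
lemma ell2_eq_zero_of_congr {x y : 𝓞 K} (hx : x ∉ lam hζ) (h : x - y ^ p ∈ lam hζ ^ 3) :
    ell2 hζ h5 x = 0 := by
  have hy : y ∉ lam hζ := fun hy ↦ hx (by
    have h3 : x - y ^ p ∈ lam hζ := Ideal.pow_le_self (by norm_num) h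
    simpa using add_mem h3 ((lam hζ).pow_mem_of_mem hy p hp.out.pos))
  have : jet hζ h5 x = jet hζ h5 (y ^ p) :=
    sub_eq_zero.mp (by rw [← map_sub]; exact jet_eq_zero_of_mem_lam_pow hζ h5 h)
  rw [ell2, this, ← ell2, ell2_pow hζ h5 hy, ZMod.natCast_self, zero_mul]

lemma neg_one_ell : ell1 hζ h5 (-1 : 𝓞 K) = 0 ∧ ell2 hζ h5 (-1 : 𝓞 K) = 0 := by
  constructor <;> simp [ell1, ell2, Jet.log1, Jet.log2]

end

end FLTAgent.ExtVanishing

end
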