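import Fermat.Prelude.Def_ExtCitation_AdmissibleExtension_v2
import Fermat.Prelude.Def_ExtCitation_KummerBridge

/-!
The Kummer element of a non-split admissible extension of `μ_p` by `ℤ/p`.
-/

set_option autoImplicit false

noncomputable section

open ExtCitation

namespace FLTAgent.ExtVanishing

local notation "QQb" => AlgebraicClosure ℚ
local notation "GG" => (AlgebraicClosure ℚ ≃ₐ[ℚ] AlgebraicClosure ℚ)

variable {p : ℕ} [hp : Fact p.Prime]

/-- The action on a primitive root. -/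
lemma map_zeta_eq {ζ : QQb} (hζ : IsPrimitiveRoot ζ p) (σ : GG) :
    σ ζ = ζ ^ cycloExp p σ := by
  haveI : NeZero p := ⟨hp.out.ne_zero⟩
  have ht : (hζ.isUnit hp.out.ne_zero).unit ∈ rootsOfUnity p QQb := by
    rw [mem_rootsOfUnity, Units.ext_iff, Units.val_pow_eq_pow_val, IsUnit.unit_spec,
      hζ.pow_eq_one, Units.val_one]
  exact modularCyclotomicCharacter.spec (L := QQb) (hn := card_rootsOfUnity_eq_self p)
    (σ : QQb ≃+* QQb) ht

lemma pow_val_add {x : QQb} (hx : x ^ p = 1) (a b : ZMod p) :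
    x ^ (a + b).val = x ^ a.val * x ^ b.val := by
  rw [← pow_add, ZMod.val_add]
  exact (pow_eq_pow_mod _ hx).symm

/-- What a non-split extension produces: a radical generating its splitting field. -/
structure KummerDatum (p : ℕ) [Fact p.Prime] where
  /-- a primitive root of unity -/
  ζ : QQb
  /-- the radical -/
  y : QQb
  /-- a generator of the Galois group of the Kummer extension -/
  s : GG
  hζ : IsPrimitiveRoot ζ p
  integral : IsIntegral ℤ y
  ne_zero : y ≠ 0
  fix_pow : ∀ σ : GG, σ ζ = ζ → σ (y ^ p) = y ^ p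
  s_zeta : s ζ = ζ
  s_y : s y = ζ * y
  eigen : ∀ τ : GG, ∃ z : QQb, (∀ σ : GG, σ ζ = ζ → σ z = z) ∧
    τ y = y ^ ((cycloExp p τ : ZMod p) ^ 2).val * z
  unramified : ∀ ℓ : ℕ, ℓ.Prime → ℓ ≠ p → ∀ A : ValuationSubring QQb, A.LiesOverPrime ℓ →
    ∀ σ ∈ A.inertiaSubgroupIn ℚ, σ ζ = ζ → σ y = y
  split : ∀ A : ValuationSubring QQb, A.LiesOverPrime p →
    ∀ σ ∈ A.decompositionSubgroup ℚ, σ ζ = ζ → σ y = y

variable (V : Type) [AddCommGroup V] [Module (ZMod p) V] [DistribMulAction GG V]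
  [SMulCommClass GG (ZMod p) V]

theorem exists_kummerDatum {C : Submodule (ZMod p) V} (hadm : IsAdmissibleExtensionCts p V C)
    (hns : ¬ SplitsGlobally C) : Nonempty (KummerDatum p) := by
  classical
  haveI : NeZero p := ⟨hp.out.ne_zero⟩
  haveI : Algebra.IsAlgebraic ℚ QQb := AlgebraicClosure.isAlgebraic ℚ
  haveI : IsAlgClosure ℚ QQb := ⟨inferInstance, inferInstance⟩
  haveI : Normal ℚ QQb := IsAlgClosure.normal ℚ _
  haveI : IsGalois ℚ QQb := ⟨⟩
  obtain ⟨ζ, hζ⟩ := HasEnoughRootsOfUnity.exists_primitiveRoot QQb p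
  -- a basis
  haveI : Finite C := Nat.finite_of_card_ne_zero (by rw [hadm.card_sub]; exact hp.out.ne_zero)
  haveI : Finite V := Nat.finite_of_card_ne_zero (hadm.card_total ▸ pow_ne_zero 2 hp.out.ne_zero)
  obtain ⟨⟨c, hcC⟩, hc⟩ : ∃ c : C, c ≠ 0 := by
    haveI : Nontrivial C := Finite.one_lt_card_iff_nontrivial.mp (by rw [hadm.card_sub]; exact hp.out.one_lt)
    exact exists_ne 0
  have hc0 : c ≠ 0 := fun h ↦ hc (Subtype.ext h)
  have hgen : ∀ x ∈ C, ∃ a : ZMod p, a • c = x := by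
    intro x hx
    have hfin : Module.finrank (ZMod p) C = 1 := by
      have h := Module.natCard_eq_pow_finrank (K := ZMod p) (V := C)
      rw [hadm.card_sub, Nat.card_zmod] at h
      exact Nat.pow_right_injective hp.out.two_le (h.symm.trans (pow_one p).symm)
    obtain ⟨a, ha⟩ := (finrank_eq_one_iff_of_nonzero' (⟨c, hcC⟩ : C) hc).mp hfin ⟨x, hx⟩
    exact ⟨a, congrArg Subtype.val ha⟩
  have hne : C ≠ ⊤ := by
    intro h
    have h1 := hadm.card_sub
    rw [h, Nat.card_congr Submodule.topEquiv.toEquiv, hadm.card_total] at h1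
    have := hp.out.one_lt
    nlinarith
  obtain ⟨v₀, hv₀⟩ := SetLike.exists_not_mem_of_ne_top C hne rfl
  set w : GG → ZMod p := fun σ ↦ (cycloExp p σ : ZMod p)
  have hw : ∀ σ, w σ = (cycloChar p σ : ZMod p) := fun σ ↦ (coe_cycloChar p σ).symm
  have hex : ∀ σ : GG, ∃ a : ZMod p, σ • v₀ = w σ • v₀ + a • c := by
    intro σ
    obtain ⟨a, ha⟩ := hgen _ (hadm.cyclo_quot σ v₀)
    exact ⟨a, by rw [ha, add_sub_cancel]⟩
  choose f hf using hex
  have hfu : ∀ σ a, σ • v₀ = w σ • v₀ + a • c → f σ = a := fun σ a h ↦ by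
    rw [hf σ, add_right_inj, ← sub_eq_zero, ← sub_smul, smul_eq_zero] at h
    exact sub_eq_zero.mp (h.resolve_right hc0)
  have hcfix : ∀ σ : GG, σ • c = c := fun σ ↦ hadm.fixed_sub σ c hcC
  have hlin : ∀ (σ : GG) (a b : ZMod p), σ • (a • v₀ + b • c) = (a * w σ) • v₀ + (a * f σ + b) • c := by
    intro σ a b
    rw [smul_add, smul_comm σ a, smul_comm σ b, hcfix, hf σ, smul_add, smul_smul, smul_smul,
      add_smul, add_assoc]
  have hfmul : ∀ σ τ, f (σ * τ) = w τ * f σ + f τ := fun σ τ ↦ by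
    refine hfu _ _ ?_
    rw [mul_smul, hf τ, hlin, hw, hw, hw, map_mul, Units.val_mul, mul_comm (cycloChar p τ : ZMod p)]
  have hwmul : ∀ σ τ, w (σ * τ) = w σ * w τ := fun σ τ ↦ by rw [hw, hw, hw, map_mul, Units.val_mul]
  have hspan : ∀ v : V, ∃ a b : ZMod p, v = a • v₀ + b • c := by
    have hinj : Function.Injective (fun x : ZMod p × ZMod p ↦ x.1 • v₀ + x.2 • c) := by
      intro x y h
      have h' : (x.1 - y.1) • v₀ = (y.2 - x.2) • c := by
        simp only at h
        rw [sub_smul, sub_smul, sub_eq_sub_iff_add_eq_add, h, add_comm]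
      have h1 : x.1 = y.1 := by
        by_contra hne'
        apply hv₀
        rw [← one_smul (ZMod p) v₀, ← inv_mul_cancel₀ (sub_ne_zero.mpr hne'), mul_smul, h']
        exact C.smul_mem _ (C.smul_mem _ hcC)
      rw [h1, sub_self, zero_smul, eq_comm, smul_eq_zero] at h'
      exact Prod.ext h1 (sub_eq_zero.mp (h'.resolve_right hc0)).symm
    have hb := (Nat.bijective_iff_injective_and_card _).mpr
      ⟨hinj, by rw [Nat.card_prod, Nat.card_zmod, hadm.card_total, sq]⟩
    intro v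
    obtain ⟨⟨a, b⟩, hab⟩ := hb.2 v
    exact ⟨a, b, hab.symm⟩
  have hwzeta : ∀ σ : GG, σ ζ = ζ ↔ w σ = 1 := fun σ ↦ by
    rw [map_zeta_eq hζ σ]
    constructor
    · intro h
      nth_rw 2 [← pow_one ζ] at h
      have h' := hζ.pow_inj (ZMod.val_lt _) hp.out.one_lt h
      simp only [w]
      rw [show cycloExp p σ = 1 from h', Nat.cast_one]
    · intro h
      have h' : cycloExp p σ % p = 1 := by
        rw [← ZMod.val_natCast, show ((cycloExp p σ : ℕ) : ZMod p) = 1 from h, ZMod.val_one]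
      rw [pow_eq_pow_mod _ hζ.pow_eq_one, h', pow_one]
  -- nontrivial on the fixer of ζ
  have hnt : ∃ s : GG, s ζ = ζ ∧ f s = 1 := by
    suffices h : ∃ s : GG, w s = 1 ∧ f s ≠ 0 by
      obtain ⟨s, hs, hfs⟩ := h
      have hpow : ∀ n : ℕ, w (s ^ n) = 1 ∧ f (s ^ n) = (n : ZMod p) * f s := by
        intro n
        induction n with
        | zero =>
          refine ⟨by rw [pow_zero, hw, map_one, Units.val_one], ?_⟩
          rw [pow_zero, Nat.cast_zero, zero_mul]
          exact hfu _ _ (by rw [one_smul, zero_smul, add_zero, hw, map_one, Units.val_one, one_smul])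
        | succ n ih =>
          refine ⟨by rw [pow_succ, hwmul, ih.1, hs, one_mul], ?_⟩
          rw [pow_succ, hfmul, ih.2, hs]; push_cast; ring
      refine ⟨s ^ ((f s)⁻¹ : ZMod p).val, (hwzeta _).mpr (hpow _).1, ?_⟩
      rw [(hpow _).2, ZMod.natCast_zmod_val, inv_mul_cancel₀ hfs]
    by_contra hall
    push Not at hall
    apply hns
    have htriv : ∀ σ, w σ = 1 → ∀ v : V, σ • v = v := by
      intro σ hσ v
      obtain ⟨a, b, rfl⟩ := hspan v
      rw [hlin, hσ, hall σ hσ, mul_one, mul_zero, zero_add]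
    have hsurj : ∀ d : (ZMod p)ˣ, ∃ σ : GG, cycloChar p σ = d := by
      intro d
      set K := IntermediateField.adjoin ℚ ({ζ} : Set QQb)
      haveI : IsCyclotomicExtension {p} ℚ K := hζ.intermediateField_adjoin_isCyclotomicExtension ℚ
      haveI : Normal ℚ K := (IsCyclotomicExtension.isGalois {p} ℚ K).to_normal
      obtain ⟨z, hz⟩ := IsCyclotomicExtension.exists_isPrimitiveRoot ℚ K (Set.mem_singleton p)
        hp.out.ne_zero
      set σK := (IsCyclotomicExtension.autEquivPow K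
        (Polynomial.cyclotomic.irreducible_rat hp.out.pos)).symm d
      refine ⟨σK.liftNormal QQb, ?_⟩
      refine Units.ext ?_
      rw [coe_cycloChar]
      have hz' := (IsCyclotomicExtension.zeta_spec p ℚ K)
      have h1 := hz'.autToPow_spec ℚ σK
      rw [show hz'.autToPow ℚ σK = d from (IsCyclotomicExtension.autEquivPow K
        (Polynomial.cyclotomic.irreducible_rat hp.out.pos)).apply_symm_apply d] at h1
      have hzQ : IsPrimitiveRoot (algebraMap K QQb (IsCyclotomicExtension.zeta p ℚ K)) p :=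
        hz'.map_of_injective (algebraMap K QQb).injective
      have h2 := map_zeta_eq hzQ (σK.liftNormal QQb)
      rw [σK.liftNormal_commutes, ← h1, map_pow] at h2
      have h3 := hzQ.pow_inj (ZMod.val_lt _) (ZMod.val_lt _) h2
      simp only [cycloExp]
      rw [← h3, ZMod.natCast_zmod_val]
    obtain ⟨g₀, hg₀⟩ := IsCyclic.exists_generator (α := (ZMod p)ˣ)
    obtain ⟨g, hg⟩ := hsurj g₀
    have hwg : w g = (g₀ : ZMod p) := by rw [hw, hg]
    by_cases hg1 : w g = 1
    · refine ⟨Submodule.span (ZMod p) {v₀}, ?_, ?_⟩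
      · intro σ x hx
        have hσ : w σ = 1 := by
          obtain ⟨k, hk⟩ := Subgroup.mem_zpowers_iff.mp (hg₀_mem hg₀ (cycloChar p σ))
          have hg01 : g₀ = 1 := Units.ext (hwg ▸ hg1)
          rw [hw, ← hk, hg01, one_zpow, Units.val_one]
        rwa [htriv σ hσ]
      · exact isCompl_span hv₀ hc0 hspan hcC hgen
    · set t := f g / (w g - 1)
      set v := v₀ + t • c
      have hv : v ∉ C := fun h ↦ hv₀ (by simpa [v] using C.sub_mem h (C.smul_mem t hcC))
      have hgv : g • v = w g • v := by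
        have h1 : w g - 1 ≠ 0 := sub_ne_zero.mpr hg1
        have hw' : w g * t = f g + t := by simp only [t]; field_simp; ring
        rw [show v = (1 : ZMod p) • v₀ + t • c by simp [v], hlin, one_mul, one_mul, smul_add,
          one_smul, smul_smul, hw']
      have hstab : ∀ σ : GG, ∀ x ∈ Submodule.span (ZMod p) {v}, σ • x ∈ Submodule.span (ZMod p) {v} := by
        intro σ x hx
        obtain ⟨a, rfl⟩ := Submodule.mem_span_singleton.mp hx
        obtain ⟨k, hk⟩ : cycloChar p σ ∈ Submonoid.powers g₀ :=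
          mem_powers_iff_mem_zpowers.mpr (hg₀_mem hg₀ _)
        have hpow : ∀ n : ℕ, (g ^ n) • v = w g ^ n • v := by
          intro n
          induction n with
          | zero => simp
          | succ n ih => rw [pow_succ, mul_smul, hgv, smul_comm, ih, smul_smul, pow_succ']
        have hwk : w ((g ^ k)⁻¹ * σ) = 1 := by
          change g₀ ^ k = cycloChar p σ at hk
          rw [hw, map_mul, map_inv, map_pow, hg, hk, inv_mul_cancel, Units.val_one]
        have hσv : σ • v = w g ^ k • v := by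
          rw [← hpow k]
          conv_lhs => rw [← mul_inv_cancel_left (g ^ k) σ, mul_smul, htriv _ hwk]
        rw [smul_comm σ a, hσv]
        exact Submodule.smul_mem _ _ (Submodule.smul_mem _ _ (Submodule.mem_span_singleton_self _))
      refine ⟨Submodule.span (ZMod p) {v}, fun σ x hx ↦ ?_, ?_⟩
      · exact hstab σ x hx
      · refine isCompl_span hv hc0 (fun x ↦ ?_) hcC hgen
        obtain ⟨a, b, rfl⟩ := hspan x
        exact ⟨a, b - a * t, by simp [v, smul_add, smul_smul, sub_smul]⟩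
  obtain ⟨s, hsζ, hfs⟩ := hnt
  -- the fixed field of the kernel
  let W : Subgroup GG :=
    { carrier := {σ | w σ = 1 ∧ f σ = 0}
      mul_mem' := fun {a b} ha hb ↦
        ⟨by rw [hwmul, ha.1, hb.1, one_mul], by rw [hfmul, ha.2, hb.2, mul_zero, add_zero]⟩
      one_mem' := ⟨by rw [hw, map_one, Units.val_one], hfu _ _ (by
        rw [one_smul, zero_smul, add_zero, hw, map_one, Units.val_one, one_smul])⟩
      inv_mem' := fun {a} ha ↦ by
        change w a = 1 ∧ f a = 0 at ha
        have h1 : w a⁻¹ = 1 := by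
          rw [hw, map_inv]
          have h := ha.1
          rw [hw, ← Units.val_one, Units.val_inj] at h
          rw [h, inv_one, Units.val_one]
        refine ⟨h1, ?_⟩
        have h2 := hfmul a⁻¹ a
        rw [inv_mul_cancel, ha.1, ha.2, one_mul, add_zero] at h2
        rw [← h2]
        exact hfu _ _ (by rw [one_smul, zero_smul, add_zero, hw, map_one, Units.val_one, one_smul]) }
  have hWopen : IsOpen (W : Set GG) := by
    have hfin : FiniteDimensional ℚ (IntermediateField.adjoin ℚ ({ζ} : Set QQb)) :=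
      IntermediateField.adjoin.finiteDimensional (Algebra.IsIntegral.isIntegral ζ)
    let Kv : Subgroup GG :=
      { carrier := {σ | ∀ v : V, σ • v = v}
        mul_mem' := fun {a b} ha hb v ↦ by rw [mul_smul, hb, ha]
        one_mem' := fun v ↦ one_smul _ v
        inv_mem' := fun {a} ha v ↦ by rw [inv_smul_eq_iff, ha] }
    have hle : (IntermediateField.adjoin ℚ ({ζ} : Set QQb)).fixingSubgroup ⊓ Kv ≤ W := by
      rintro σ ⟨h1, h2⟩
      have hσζ : σ ζ = ζ :=
        h1 ⟨ζ, IntermediateField.subset_adjoin ℚ _ rfl⟩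
      have hσw := (hwzeta σ).mp hσζ
      exact ⟨hσw, hfu _ _ (by rw [hσw, one_smul, zero_smul, add_zero]; exact h2 v₀)⟩
    refine Subgroup.isOpen_mono hle ?_
    rw [Subgroup.coe_inf]
    exact (IntermediateField.fixingSubgroup_isOpen _).inter hadm.open_kernel
  set L := IntermediateField.fixedField W
  have hLW : L.fixingSubgroup = W :=
    InfiniteGalois.fixingSubgroup_fixedField ⟨W, Subgroup.isClosed_of_isOpen W hWopen⟩
  have hWn : ∀ σ, w σ = 1 → ∀ u ∈ W, σ⁻¹ * u * σ ∈ W := by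
    intro σ hσ u hu
    have h1 : w σ⁻¹ = 1 := by
      rw [hw, map_inv]
      rw [hw, ← Units.val_one, Units.val_inj] at hσ
      rw [hσ, inv_one, Units.val_one]
    refine ⟨by rw [hwmul, hwmul, h1, hu.1, hσ, one_mul, one_mul], ?_⟩
    rw [hfmul, hfmul, hσ, hu.1, hu.2]
    have h2 := hfmul σ⁻¹ σ
    rw [inv_mul_cancel, hσ, one_mul] at h2
    rw [one_mul, one_mul, add_zero, ← h2]
    exact hfu _ _ (by rw [one_smul, zero_smul, add_zero, hw, map_one, Units.val_one, one_smul])
  have hws : w s = 1 := (hwzeta s).mp hsζ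
  have hspow : ∀ n : ℕ, w (s ^ n) = 1 ∧ f (s ^ n) = (n : ZMod p) := by
    intro n
    induction n with
    | zero =>
      refine ⟨by rw [pow_zero, hw, map_one, Units.val_one], ?_⟩
      rw [pow_zero, Nat.cast_zero]
      exact hfu _ _ (by rw [one_smul, zero_smul, add_zero, hw, map_one, Units.val_one, one_smul])
    | succ n ih =>
      refine ⟨by rw [pow_succ, hwmul, ih.1, hws, one_mul], ?_⟩
      rw [pow_succ, hfmul, ih.2, hws, hfs]; push_cast; ring
  -- elements congruent modulo W act alike on L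
  have hact : ∀ σ τ : GG, w σ = 1 → w τ = 1 → f σ = f τ → ∀ x ∈ L, σ x = τ x := by
    intro σ τ hσ hτ hfe x hx
    have hmem : τ⁻¹ * σ ∈ W := by
      have h1 : w (τ⁻¹ * σ) = 1 := by
        have h := hwmul τ (τ⁻¹ * σ)
        rw [mul_inv_cancel_left, hσ, hτ, one_mul] at h
        exact h.symm
      refine ⟨h1, ?_⟩
      have h := hfmul τ (τ⁻¹ * σ)
      rw [mul_inv_cancel_left, h1, one_mul, hfe] at h
      exact left_eq_add.mp h
    have h2 : (τ⁻¹ * σ) x = x := hx ⟨_, hmem⟩
    conv_lhs => rw [← mul_inv_cancel_left τ σ, AlgEquiv.mul_apply, h2]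
  let χ : ZMod p → (L →* QQb) := fun i ↦
    (((s ^ i.val : GG) : QQb →+* QQb).comp (algebraMap L QQb)).toMonoidHom
  have hχ : Function.Injective χ := by
    intro i i' h
    have hmem : (s ^ i'.val)⁻¹ * s ^ i.val ∈ L.fixingSubgroup := by
      rw [IntermediateField.mem_fixingSubgroup_iff]
      intro x hx
      have := DFunLike.congr_fun h ⟨x, hx⟩
      change (s ^ i.val) x = (s ^ i'.val) x at this
      rw [AlgEquiv.mul_apply, this]
      exact (s ^ i'.val).symm_apply_apply x
    rw [hLW] at hmem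
    have h1 := hfmul (s ^ i'.val) ((s ^ i'.val)⁻¹ * s ^ i.val)
    rw [mul_inv_cancel_left, hmem.1, hmem.2, one_mul, add_zero, (hspow _).2, (hspow _).2,
      ZMod.natCast_zmod_val, ZMod.natCast_zmod_val] at h1
    exact h1
  obtain ⟨x, hx⟩ : ∃ x : L, ∑ i : ZMod p, ζ ^ (-i).val * χ i x ≠ 0 := by
    by_contra hall
    push Not at hall
    have hli := (linearIndependent_monoidHom L QQb).comp χ hχ
    have := (Fintype.linearIndependent_iff.mp hli) (fun i ↦ ζ ^ (-i).val) (by
      funext x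
      simpa [Finset.sum_apply] using hall x) 0
    exact pow_ne_zero _ (hζ.ne_zero hp.out.ne_zero) this
  set y₀ := ∑ i : ZMod p, ζ ^ (-i).val * χ i x with hy₀
  have hy₀σ : ∀ σ, σ ζ = ζ → σ y₀ = ζ ^ (f σ).val * y₀ := by
    intro σ hσ
    have hσw := (hwzeta σ).mp hσ
    rw [hy₀, map_sum, Finset.mul_sum]
    refine Fintype.sum_equiv (Equiv.addRight (f σ)) _ _ fun i ↦ ?_
    have h1 : σ (χ i x) = χ (i + f σ) x := by
      change (σ * s ^ i.val) (x : QQb) = (s ^ (i + f σ).val) (x : QQb)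
      refine hact _ _ (by rw [hwmul, hσw, (hspow _).1, one_mul]) (hspow _).1 ?_ x x.2
      rw [hfmul, (hspow _).1, (hspow _).2, (hspow _).2, ZMod.natCast_zmod_val,
        ZMod.natCast_zmod_val, one_mul, add_comm]
    rw [map_mul, map_pow, hσ, h1, Equiv.coe_addRight, ← mul_assoc, ← pow_val_add hζ.pow_eq_one]
    ring_nf
  obtain ⟨d, hd, hdint⟩ := IsAlgebraic.exists_integral_multiple
    ((IsFractionRing.isAlgebraic_iff ℤ ℚ QQb).mpr (Algebra.IsAlgebraic.isAlgebraic y₀))
  set y := d • y₀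
  have hyσ : ∀ σ, σ ζ = ζ → σ y = ζ ^ (f σ).val * y := fun σ hσ ↦ by
    simp only [y, map_zsmul, hy₀σ σ hσ, mul_smul_comm]
  have hy0 : y ≠ 0 := by
    simp only [y, zsmul_eq_mul]
    exact mul_ne_zero (Int.cast_ne_zero.mpr hd) hx
  have hfix : ∀ σ, w σ = 1 → (∀ v, σ • v = v) → f σ = 0 := fun σ hσ h ↦
    hfu _ _ (by rw [hσ, one_smul, zero_smul, add_zero]; exact h v₀)
  refine ⟨⟨ζ, y, s, hζ, hdint, hy0, fun σ hσ ↦ ?_, hsζ, ?_, fun τ ↦ ?_, ?_, ?_⟩⟩
  · rw [map_pow, hyσ σ hσ, mul_pow, ← pow_mul, mul_comm _ p, pow_mul, hζ.pow_eq_one, one_pow,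
      one_mul]
  · rw [hyσ s hsζ, hfs, ZMod.val_one, pow_one]
  · set k := ((cycloExp p τ : ZMod p) ^ 2).val
    refine ⟨τ y / y ^ k, fun σ hσ ↦ ?_, by rw [mul_div_cancel₀ _ (pow_ne_zero _ hy0)]⟩
    have hσw := (hwzeta σ).mp hσ
    set σ' := τ⁻¹ * (σ * τ)
    have hτσ : τ * σ' = σ * τ := mul_inv_cancel_left τ _
    have hw' : w σ' = 1 := by
      have h := hwmul τ σ'
      rw [hτσ, hwmul, hσw, one_mul] at h
      have hne : w τ ≠ 0 := by rw [hw]; exact Units.ne_zero _
      exact (mul_eq_left₀ hne).mp h.symm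
    have hf' : f σ' = w τ * f σ := by
      have h := hfmul τ σ'
      rw [hτσ, hfmul, hw', one_mul, add_comm (f τ), add_right_cancel_iff] at h
      exact h.symm
    have h1 : σ (τ y) = τ (σ' y) := by rw [← AlgEquiv.mul_apply, ← hτσ, AlgEquiv.mul_apply]
    rw [map_div₀, map_pow, h1, hyσ σ' ((hwzeta _).mpr hw'), hyσ σ hσ, map_mul, map_pow,
      map_zeta_eq hζ τ, mul_pow, ← pow_mul, ← pow_mul, hf']
    have he : ζ ^ (cycloExp p τ * (w τ * f σ).val) = ζ ^ ((f σ).val * k) := by
      rw [pow_eq_pow_mod _ hζ.pow_eq_one,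
        pow_eq_pow_mod ((f σ).val * k) hζ.pow_eq_one]
      congr 1
      rw [← ZMod.natCast_eq_natCast_iff']
      simp only [k, w, Nat.cast_mul, ZMod.natCast_zmod_val]
      ring
    rw [he, mul_div_mul_left _ _ (pow_ne_zero _ (hζ.ne_zero hp.out.ne_zero))]
  · intro ℓ hℓ hne A hA σ hσ hσζ
    rw [hyσ σ hσζ, hfix σ ((hwzeta σ).mp hσζ) (hadm.unramified_outside ℓ hℓ hne A hA σ hσ),
      ZMod.val_zero, pow_zero, one_mul]
  · intro A hA σ hσ hσζ
    obtain ⟨C', hC', hcompl⟩ := hadm.locally_split A hA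
    have hσw := (hwzeta σ).mp hσζ
    rw [hyσ σ hσζ, hfix σ hσw fun v ↦ ?_, ZMod.val_zero, pow_zero, one_mul]
    have hC'fix : ∀ u ∈ C', σ • u = u := fun u hu ↦ by
      have h1 : σ • u - u ∈ C := by
        have := hadm.cyclo_quot σ u
        rwa [show (cycloExp p σ : ZMod p) = 1 from hσw, one_smul] at this
      exact sub_eq_zero.mp (Submodule.disjoint_def.mp hcompl.disjoint _ h1
        (C'.sub_mem (hC' σ hσ u hu) hu))
    obtain ⟨u, hu, u', hu', huv⟩ := Submodule.mem_sup.mp
      (hcompl.sup_eq_top ▸ Submodule.mem_top : v ∈ C ⊔ C')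
    rw [← huv, smul_add, hadm.fixed_sub σ u hu, hC'fix u' hu']
where
  hg₀_mem {g₀ : (ZMod p)ˣ} (hg₀ : ∀ x, x ∈ Subgroup.zpowers g₀) (x : (ZMod p)ˣ) :
      x ∈ Subgroup.zpowers g₀ := hg₀ x
  isCompl_span {C : Submodule (ZMod p) V} {v c : V} (hv : v ∉ C) (_hc0 : c ≠ 0)
      (hspan : ∀ x : V, ∃ a b : ZMod p, x = a • v + b • c) (hcC : c ∈ C)
      (_hgen : ∀ x ∈ C, ∃ a : ZMod p, a • c = x) :
      IsCompl C (Submodule.span (ZMod p) {v}) := by
    refine ⟨Submodule.disjoint_def.mpr fun x hx hx' ↦ ?_, codisjoint_iff.mpr ?_⟩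
    · obtain ⟨a, rfl⟩ := Submodule.mem_span_singleton.mp hx'
      by_contra hne
      have ha : a ≠ 0 := fun h ↦ hne (by rw [h, zero_smul])
      exact hv (by simpa [smul_smul, inv_mul_cancel₀ ha] using C.smul_mem a⁻¹ hx)
    · refine eq_top_iff.mpr fun x _ ↦ ?_
      obtain ⟨a, b, rfl⟩ := hspan x
      exact add_mem (Submodule.mem_sup_right (Submodule.smul_mem _ a
        (Submodule.mem_span_singleton_self v))) (Submodule.mem_sup_left (C.smul_mem b hcC))

end FLTAgent.ExtVanishing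

end
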