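import Mathlib

/-!
Partial zeta functions of ideal classes differ by bounded amounts near `s = 1`.
The sum over ideals of a class is written as a sum over an ideal lattice, weighted by a
partition of unity for the units; lattices are then compared coset by coset.
-/

set_option autoImplicit false

noncomputable section

open NumberField NumberField.InfinitePlace NumberField.Units NumberField.Units.dirichletUnitTheorem
open Module
open scoped nonZeroDivisors

namespace FLTAgent.ExtVanishing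

/-- The hat function. -/
def hat (x : ℝ) : ℝ := max 0 (1 - |x|)

lemma hat_nonneg (x : ℝ) : 0 ≤ hat x := le_max_left _ _

lemma hat_le_one (x : ℝ) : hat x ≤ 1 := max_le zero_le_one (by linarith [abs_nonneg x])

lemma hat_eq_zero {x : ℝ} (h : 1 ≤ |x|) : hat x = 0 := max_eq_left (by linarith)

lemma abs_hat_sub (x y : ℝ) : |hat x - hat y| ≤ |x - y| := by
  unfold hat
  refine (abs_max_sub_max_le_max _ _ _ _).trans ?_
  simp only [sub_self, abs_zero, sub_sub_sub_cancel_left]
  exact max_le (abs_nonneg _) ((abs_abs_sub_abs_le_abs_sub y x).trans (abs_sub_comm y x).le)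

/-- The integer translates of the hat function add up to one. -/
lemma sum_hat_translates (x : ℝ) :
    hat (x + ((-⌊x⌋ - 1 : ℤ) : ℝ)) + hat (x + ((-⌊x⌋ : ℤ) : ℝ)) = 1 := by
  have h0 := Int.floor_le x
  have h1 := Int.lt_floor_add_one x
  push_cast
  rw [hat, hat, abs_of_nonpos (by linarith), abs_of_nonneg (by linarith),
    max_eq_right (by linarith), max_eq_right (by linarith)]
  ring

lemma hat_translate_eq_zero {x : ℝ} {n : ℤ} (h1 : n ≠ -⌊x⌋ - 1) (h2 : n ≠ -⌊x⌋) :
    hat (x + (n : ℝ)) = 0 := by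
  have h0 := Int.floor_le x
  have h1' := Int.lt_floor_add_one x
  apply hat_eq_zero
  rcases lt_or_gt_of_ne h2 with h | h
  · have : n ≤ -⌊x⌋ - 2 := by omega
    have : (n : ℝ) ≤ -(⌊x⌋ : ℝ) - 2 := by exact_mod_cast this
    rw [abs_of_nonpos (by linarith)]; linarith
  · have : -⌊x⌋ + 1 ≤ n := by omega
    have : -(⌊x⌋ : ℝ) + 1 ≤ (n : ℝ) := by exact_mod_cast this
    rw [abs_of_nonneg (by linarith)]; linarith

/-- The tensor power of the hat function is a partition of unity for `ℤ^ι`. -/
lemma tsum_prod_hat {ι : Type*} [Fintype ι] [DecidableEq ι] (t : ι → ℝ) :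
    HasSum (fun n : ι → ℤ ↦ ∏ i, hat (t i + (n i : ℝ))) 1 := by
  let S : ι → Finset ℤ := fun i ↦ {-⌊t i⌋ - 1, -⌊t i⌋}
  have h : (1 : ℝ) = ∑ n ∈ Fintype.piFinset S, ∏ i, hat (t i + (n i : ℝ)) := by
    rw [← Finset.prod_univ_sum S (fun i (k : ℤ) ↦ hat (t i + (k : ℝ)))]
    refine (Finset.prod_eq_one fun i _ ↦ ?_).symm
    rw [Finset.sum_pair (by omega)]
    exact sum_hat_translates _
  rw [h]
  refine hasSum_sum_of_ne_finset_zero fun n hn ↦ ?_
  obtain ⟨i, hi⟩ : ∃ i, n i ∉ S i := by simpa [Fintype.mem_piFinset] using hn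
  refine Finset.prod_eq_zero (Finset.mem_univ i) (hat_translate_eq_zero ?_ ?_) <;>
    · intro h; exact hi (by simp [S, h])

lemma abs_prod_sub_prod_le {ι : Type*} (s : Finset ι) (f g : ι → ℝ)
    (hf : ∀ i, 0 ≤ f i) (hf' : ∀ i, f i ≤ 1) (hg : ∀ i, 0 ≤ g i) (hg' : ∀ i, g i ≤ 1) :
    |∏ i ∈ s, f i - ∏ i ∈ s, g i| ≤ ∑ i ∈ s, |f i - g i| := by
  classical
  induction s using Finset.induction with
  | empty => simp
  | @insert a s ha ih =>
    rw [Finset.prod_insert ha, Finset.prod_insert ha, Finset.sum_insert ha]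
    have h1 : |f a| ≤ 1 := by rw [abs_of_nonneg (hf a)]; exact hf' a
    have h2 : |∏ i ∈ s, g i| ≤ 1 := by
      rw [abs_of_nonneg (Finset.prod_nonneg fun i _ ↦ hg i)]
      exact Finset.prod_le_one (fun i _ ↦ hg i) fun i _ ↦ hg' i
    calc |f a * ∏ i ∈ s, f i - g a * ∏ i ∈ s, g i|
        = |f a * (∏ i ∈ s, f i - ∏ i ∈ s, g i) + (f a - g a) * ∏ i ∈ s, g i| := by ring_nf
      _ ≤ |f a| * |∏ i ∈ s, f i - ∏ i ∈ s, g i| + |f a - g a| * |∏ i ∈ s, g i| := by
          refine (abs_add_le _ _).trans ?_; rw [abs_mul, abs_mul]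
      _ ≤ 1 * (∑ i ∈ s, |f i - g i|) + |f a - g a| * 1 := by gcongr
      _ = _ := by ring

lemma abs_exp_sub_exp_le {a b m : ℝ} (ha : a ≤ m) (hb : b ≤ m) :
    |Real.exp a - Real.exp b| ≤ Real.exp m * |a - b| := by
  rcases le_total a b with h | h
  · rw [abs_sub_comm, abs_sub_comm a, abs_of_nonneg (by have := Real.exp_le_exp.mpr h; linarith),
      abs_of_nonneg (sub_nonneg.mpr h)]
    have h1 := Real.add_one_le_exp (a - b)
    have h2 : Real.exp a = Real.exp b * Real.exp (a - b) := by rw [← Real.exp_add]; ring_nf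
    have h3 : Real.exp b ≤ Real.exp m := Real.exp_le_exp.mpr hb
    nlinarith [Real.exp_pos b]
  · rw [abs_of_nonneg (by have := Real.exp_le_exp.mpr h; linarith),
      abs_of_nonneg (sub_nonneg.mpr h)]
    have h1 := Real.add_one_le_exp (b - a)
    have h2 : Real.exp b = Real.exp a * Real.exp (b - a) := by rw [← Real.exp_add]; ring_nf
    have h3 : Real.exp a ≤ Real.exp m := Real.exp_le_exp.mpr ha
    nlinarith [Real.exp_pos a]

open scoped Classical

variable (K : Type*) [Field K] [NumberField K]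

local notation "d" => Module.finrank ℚ K

/-- The size of an algebraic integer: its largest absolute value. -/
def size (a : 𝓞 K) : ℝ := ‖mixedEmbedding K (a : K)‖

/-- The absolute norm, as a real number. -/
def nrm (a : 𝓞 K) : ℝ := ∏ w : InfinitePlace K, w (a : K) ^ w.mult

/-- The projection of the logarithmic embedding onto the trace zero hyperplane. -/
def lv (a : 𝓞 K) : logSpace K := fun w ↦
  (w.1.mult : ℝ) * (Real.log (w.1 (a : K)) - Real.log (nrm K a) / d)

open scoped Classical in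
/-- The coordinates with respect to the unit lattice. -/
def coord : logSpace K ≃ₗ[ℝ] (Fin (rank K) → ℝ) :=
  ((basisUnitLattice K).ofZLatticeBasis ℝ (unitLattice K)).equivFun

/-- The weight, a partition of unity for the units. -/
def wt (a : 𝓞 K) : ℝ := ∏ i, hat (coord K (lv K a) i)

open scoped Classical in
/-- The summand. -/
def summand (s : ℝ) (a : 𝓞 K) : ℝ := if a = 0 then 0 else wt K a * nrm K a ^ (-s)

variable {K}

lemma place_le_size (a : 𝓞 K) (w : InfinitePlace K) : w (a : K) ≤ size K a := by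
  rw [size, mixedEmbedding.norm_eq_sup'_normAtPlace, ← mixedEmbedding.normAtPlace_apply]
  exact Finset.le_sup' (fun w ↦ mixedEmbedding.normAtPlace w (mixedEmbedding K (a : K)))
    (Finset.mem_univ w)

lemma exists_place_eq_size (a : 𝓞 K) : ∃ w : InfinitePlace K, w (a : K) = size K a := by
  classical
  obtain ⟨w, -, h⟩ := Finset.exists_mem_eq_sup' (Finset.univ_nonempty (α := InfinitePlace K))
    fun w ↦ mixedEmbedding.normAtPlace w (mixedEmbedding K (a : K))
  refine ⟨w, ?_⟩
  rw [size, mixedEmbedding.norm_eq_sup'_normAtPlace, h, mixedEmbedding.normAtPlace_apply]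

lemma size_nonneg (a : 𝓞 K) : 0 ≤ size K a := norm_nonneg _

lemma size_add_le (a b : 𝓞 K) : size K (a + b) ≤ size K a + size K b := by
  simp only [size, map_add]; exact norm_add_le _ _

lemma size_neg (a : 𝓞 K) : size K (-a) = size K a := by simp [size]

lemma nrm_eq_absNorm (a : 𝓞 K) : nrm K a = (Ideal.absNorm (Ideal.span {a}) : ℝ) := by
  rw [nrm, prod_eq_abs_norm, Ideal.absNorm_span_singleton, ← Algebra.coe_norm_int]
  simp

lemma one_le_nrm {a : 𝓞 K} (ha : a ≠ 0) : 1 ≤ nrm K a := by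
  rw [nrm_eq_absNorm, Nat.one_le_cast, Nat.one_le_iff_ne_zero, Ne,
    Ideal.absNorm_eq_zero_iff]
  simpa using ha

lemma nrm_pos {a : 𝓞 K} (ha : a ≠ 0) : 0 < nrm K a := one_pos.trans_le (one_le_nrm ha)

lemma place_pos {a : 𝓞 K} (ha : a ≠ 0) (w : InfinitePlace K) : 0 < w (a : K) := by
  rw [InfinitePlace.pos_iff]; simpa using ha

lemma log_nrm {a : 𝓞 K} (ha : a ≠ 0) :
    Real.log (nrm K a) = ∑ w : InfinitePlace K, (w.mult : ℝ) * Real.log (w (a : K)) := by
  rw [nrm, Real.log_prod fun w _ ↦ pow_ne_zero _ (place_pos ha w).ne']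
  simp [Real.log_pow]

lemma nrm_rpow {a : 𝓞 K} (ha : a ≠ 0) (s : ℝ) :
    nrm K a ^ (-s) = Real.exp (-s * Real.log (nrm K a)) := by
  rw [Real.rpow_def_of_pos (nrm_pos ha)]; ring_nf

lemma wt_nonneg (a : 𝓞 K) : 0 ≤ wt K a := Finset.prod_nonneg fun _ _ ↦ hat_nonneg _

lemma wt_le_one (a : 𝓞 K) : wt K a ≤ 1 :=
  Finset.prod_le_one (fun _ _ ↦ hat_nonneg _) fun _ _ ↦ hat_le_one _

lemma summand_nonneg (s : ℝ) (a : 𝓞 K) : 0 ≤ summand K s a := by
  rw [summand]
  split_ifs with h
  · exact le_rfl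
  · exact mul_nonneg (wt_nonneg a) (Real.rpow_nonneg (nrm_pos h).le _)

lemma summand_le_one {s : ℝ} (hs : 0 ≤ s) (a : 𝓞 K) : summand K s a ≤ 1 := by
  rw [summand]
  split_ifs with h
  · exact zero_le_one
  · exact mul_le_one₀ (wt_le_one a) (Real.rpow_nonneg (nrm_pos h).le _)
      (Real.rpow_le_one_of_one_le_of_nonpos (one_le_nrm h) (by linarith))

variable (K) in
/-- An upper bound for the norm of `coord.symm` on the unit cube. -/
def cubeBound : ℝ := ‖((coord K).symm.toLinearMap.toContinuousLinearMap)‖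

lemma norm_lv_le {a : 𝓞 K} (h : wt K a ≠ 0) : ‖lv K a‖ ≤ cubeBound K := by
  have h1 : ‖coord K (lv K a)‖ ≤ 1 := by
    rw [pi_norm_le_iff_of_nonneg zero_le_one]
    intro i
    by_contra hi
    exact h (Finset.prod_eq_zero (Finset.mem_univ i) (hat_eq_zero (le_of_not_ge hi)))
  have := (coord K).symm.toLinearMap.toContinuousLinearMap.le_opNorm (coord K (lv K a))
  simp only [LinearMap.coe_toContinuousLinearMap', LinearEquiv.coe_coe,
    LinearEquiv.symm_apply_apply] at this
  exact this.trans (mul_le_of_le_one_right (norm_nonneg _) h1)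

variable (K) in
/-- The cone constant. -/
def coneConst : ℝ := Real.exp (-2 * ((d : ℝ) * cubeBound K))

lemma coneConst_pos : 0 < coneConst K := Real.exp_pos _

lemma coneConst_le_one : coneConst K ≤ 1 := by
  rw [coneConst, Real.exp_le_one_iff]
  have : 0 ≤ (d : ℝ) * cubeBound K := mul_nonneg (Nat.cast_nonneg _) (norm_nonneg _)
  linarith

lemma abs_log_place_sub_le {a : 𝓞 K} (ha : a ≠ 0) (h : wt K a ≠ 0) (w : InfinitePlace K) :
    |Real.log (w (a : K)) - Real.log (nrm K a) / d| ≤ (d : ℝ) * cubeBound K := by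
  classical
  set μ := Real.log (nrm K a) / d
  have hd : (1 : ℝ) ≤ (d : ℝ) := by exact_mod_cast Module.finrank_pos
  have hB : 0 ≤ cubeBound K := norm_nonneg _
  have hne : ∀ v : {v : InfinitePlace K // v ≠ w₀},
      |(v.1.mult : ℝ) * (Real.log (v.1 (a : K)) - μ)| ≤ cubeBound K := fun v ↦
    (norm_le_pi_norm (lv K a) v).trans (norm_lv_le h)
  by_cases hw : w = w₀
  · subst hw
    have hsum : ∑ v : InfinitePlace K, (v.mult : ℝ) * (Real.log (v (a : K)) - μ) = 0 := by
      simp only [mul_sub, Finset.sum_sub_distrib, ← Finset.sum_mul, ← log_nrm ha]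
      rw [← Nat.cast_sum, InfinitePlace.sum_mult_eq, mul_div_cancel₀ _ (by positivity), sub_self]
    rw [Fintype.sum_eq_add_sum_subtype_ne _ w₀, add_eq_zero_iff_eq_neg] at hsum
    have hc : (Fintype.card {v : InfinitePlace K // v ≠ w₀} : ℝ) ≤ (d : ℝ) := by
      rw [Nat.cast_le, ← InfinitePlace.sum_mult_eq]
      refine (Fintype.card_subtype_le _).trans ?_
      rw [Fintype.card, Finset.card_eq_sum_ones]
      exact Finset.sum_le_sum fun v _ ↦ InfinitePlace.mult_pos
    have hm : (1 : ℝ) ≤ ((w₀ : InfinitePlace K).mult : ℝ) := by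
      exact_mod_cast InfinitePlace.mult_pos
    refine (le_mul_of_one_le_left (abs_nonneg _) hm).trans ?_
    rw [← Nat.abs_cast, ← abs_mul, hsum, abs_neg]
    calc _ ≤ ∑ v : {v : InfinitePlace K // v ≠ w₀}, |_| := Finset.abs_sum_le_sum_abs _ _
      _ ≤ ∑ _v : {v : InfinitePlace K // v ≠ w₀}, cubeBound K :=
          Finset.sum_le_sum fun v _ ↦ hne v
      _ ≤ _ := by rw [Finset.sum_const, Finset.card_univ, nsmul_eq_mul]; gcongr
  · have := hne ⟨w, hw⟩
    rw [abs_mul, Nat.abs_cast] at this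
    have hm : (1 : ℝ) ≤ (w.mult : ℝ) := by exact_mod_cast InfinitePlace.mult_pos
    calc _ ≤ (w.mult : ℝ) * |Real.log (w (a : K)) - μ| := le_mul_of_one_le_left (abs_nonneg _) hm
      _ ≤ cubeBound K := this
      _ ≤ _ := le_mul_of_one_le_left hB hd

/-- On the support of the weight all absolute values are comparable. -/
lemma cone {a : 𝓞 K} (ha : a ≠ 0) (h : wt K a ≠ 0) (w : InfinitePlace K) :
    coneConst K * size K a ≤ w (a : K) := by
  obtain ⟨v, hv⟩ := exists_place_eq_size a
  have h1 := abs_le.mp (abs_log_place_sub_le ha h w)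
  have h2 := abs_le.mp (abs_log_place_sub_le ha h v)
  rw [← hv, coneConst, ← Real.exp_log (place_pos ha v), ← Real.exp_add,
    ← Real.le_log_iff_exp_le (place_pos ha w)]
  linarith [h1.1, h2.2]

lemma log_nrm_ge {a : 𝓞 K} {c : ℝ} (ha : a ≠ 0) (hc : 0 < c)
    (h : ∀ w : InfinitePlace K, c ≤ w (a : K)) : (d : ℝ) * Real.log c ≤ Real.log (nrm K a) := by
  rw [log_nrm ha, ← InfinitePlace.sum_mult_eq, Nat.cast_sum, Finset.sum_mul]
  exact Finset.sum_le_sum fun w _ ↦
    mul_le_mul_of_nonneg_left (Real.log_le_log hc (h w)) (Nat.cast_nonneg _)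

variable (K) in
lemma exists_lipschitz : ∃ L : ℝ, 0 ≤ L ∧ ∀ x y : logSpace K, ∀ i,
    |coord K x i - coord K y i| ≤ L * ‖x - y‖ := by
  refine ⟨‖(coord K).toLinearMap.toContinuousLinearMap‖, norm_nonneg _, fun x y i ↦ ?_⟩
  have := (coord K).toLinearMap.toContinuousLinearMap.le_opNorm (x - y)
  simp only [LinearMap.coe_toContinuousLinearMap', LinearEquiv.coe_coe, map_sub] at this
  exact (norm_le_pi_norm (coord K x - coord K y) i).trans this

lemma abs_log_sub_log_le {x y c δ : ℝ} (hc : 0 < c) (hx : c ≤ x) (hy : c ≤ y)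
    (h : |x - y| ≤ δ) : |Real.log x - Real.log y| ≤ δ / c := by
  have hxp := hc.trans_le hx
  have hyp := hc.trans_le hy
  have h' := abs_le.mp h
  have hδ : 0 ≤ δ := (abs_nonneg _).trans h
  rw [abs_le]
  constructor
  · have := Real.log_le_sub_one_of_pos (div_pos hyp hxp)
    rw [Real.log_div hyp.ne' hxp.ne'] at this
    have h2 : y / x - 1 ≤ δ / c := by
      rw [div_sub_one hxp.ne']
      exact (div_le_div_of_nonneg_right (by linarith) hxp.le).trans
        (div_le_div_of_nonneg_left hδ hc hx)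
    linarith
  · have := Real.log_le_sub_one_of_pos (div_pos hxp hyp)
    rw [Real.log_div hxp.ne' hyp.ne'] at this
    have h2 : x / y - 1 ≤ δ / c := by
      rw [div_sub_one hyp.ne']
      exact (div_le_div_of_nonneg_right (by linarith) hyp.le).trans
        (div_le_div_of_nonneg_left hδ hc hy)
    linarith

variable (K) in
/-- The variation of the summand over a bounded translation, at a large element. -/
lemma exists_variation_large (δ : ℝ) (hδ : 0 ≤ δ) :
    ∃ C R : ℝ, 0 ≤ C ∧ 1 ≤ R ∧ δ ≤ R ∧ ∀ s : ℝ, 1 ≤ s → s ≤ 2 → ∀ a b : 𝓞 K,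
      size K (a - b) ≤ δ → R ≤ size K a → a ≠ 0 → wt K a ≠ 0 →
        |summand K s a - summand K s b| ≤ C * size K a ^ (-((d : ℝ) + 1)) := by
  obtain ⟨L, hL, hLip⟩ := exists_lipschitz K
  set κ := coneConst K
  have hκ : 0 < κ := coneConst_pos
  have hκ1 : κ ≤ 1 := coneConst_le_one
  have hd : (1 : ℝ) ≤ (d : ℝ) := by exact_mod_cast Module.finrank_pos
  refine ⟨(2 * (d : ℝ) + (rank K : ℝ) * L * (2 * (d : ℝ))) * (2 * δ / κ) * (2 / κ) ^ (d : ℝ),
    (2 * δ + 2) / κ, by positivity, ?_, ?_, ?_⟩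
  · rw [le_div_iff₀ hκ]; linarith
  · rw [le_div_iff₀ hκ]; nlinarith
  intro s hs1 hs2 a b hab hR ha hwt
  have hsa : 0 < size K a := lt_of_lt_of_le (by positivity) hR
  set c := κ / 2 * size K a with hc_def
  have hc : 0 < c := by positivity
  have hRc : δ + 1 ≤ c := by
    rw [hc_def]; rw [div_le_iff₀ hκ] at hR; linarith
  have hac : ∀ w : InfinitePlace K, c ≤ w (a : K) := fun w ↦ by
    have := cone ha hwt w
    have h' : 0 ≤ κ * size K a := by positivity
    rw [hc_def]; linarith
  have hdist : ∀ w : InfinitePlace K, |w (a : K) - w (b : K)| ≤ δ := fun w ↦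
    (w.1.abs_abv_sub_le_abv_sub _ _).trans
      (le_trans (by rw [← map_sub]; exact place_le_size (a - b) w) hab)
  have hbc : ∀ w : InfinitePlace K, c ≤ w (b : K) := fun w ↦ by
    have h1 := cone ha hwt w
    have h2 := abs_le.mp (hdist w)
    have h3 : κ * size K a = 2 * c := by rw [hc_def]; ring
    linarith [h2.2]
  have hb : b ≠ 0 := fun h ↦ by
    have := hbc (Classical.arbitrary _); rw [h] at this; simp at this; linarith
  set ε := δ / c
  have hε : 0 ≤ ε := by positivity
  have hlog : ∀ w : InfinitePlace K, |Real.log (w (a : K)) - Real.log (w (b : K))| ≤ ε :=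
    fun w ↦ abs_log_sub_log_le hc (hac w) (hbc w) (hdist w)
  have hlogN : |Real.log (nrm K a) - Real.log (nrm K b)| ≤ (d : ℝ) * ε := by
    rw [log_nrm ha, log_nrm hb, ← Finset.sum_sub_distrib, ← InfinitePlace.sum_mult_eq,
      Nat.cast_sum, Finset.sum_mul]
    refine (Finset.abs_sum_le_sum_abs _ _).trans (Finset.sum_le_sum fun w _ ↦ ?_)
    rw [← mul_sub, abs_mul, Nat.abs_cast]
    exact mul_le_mul_of_nonneg_left (hlog w) (Nat.cast_nonneg _)
  have hlv : ‖lv K a - lv K b‖ ≤ 2 * (d : ℝ) * ε := by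
    rw [pi_norm_le_iff_of_nonneg (by positivity)]
    intro w
    have hm : (w.1.mult : ℝ) ≤ (d : ℝ) := by
      rw [Nat.cast_le, ← InfinitePlace.sum_mult_eq]
      exact Finset.single_le_sum (fun v _ ↦ Nat.zero_le _) (Finset.mem_univ w.1)
    simp only [lv, Pi.sub_apply, Real.norm_eq_abs, ← mul_sub, abs_mul, Nat.abs_cast]
    have h1 : |Real.log (nrm K a) / (d : ℝ) - Real.log (nrm K b) / (d : ℝ)| ≤ ε := by
      rw [← sub_div, abs_div, Nat.abs_cast, div_le_iff₀ (by positivity), mul_comm ε]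
      exact hlogN
    calc (w.1.mult : ℝ) * |_| ≤ (d : ℝ) * (ε + ε) := by
          refine mul_le_mul hm ?_ (abs_nonneg _) (Nat.cast_nonneg _)
          rw [sub_sub_sub_comm]
          exact (abs_sub _ _).trans (add_le_add (hlog _) h1)
      _ = _ := by ring
  have hwtd : |wt K a - wt K b| ≤ (rank K : ℝ) * (L * (2 * (d : ℝ) * ε)) := by
    refine (abs_prod_sub_prod_le _ _ _ (fun _ ↦ hat_nonneg _) (fun _ ↦ hat_le_one _)
      (fun _ ↦ hat_nonneg _) (fun _ ↦ hat_le_one _)).trans ?_
    refine (Finset.sum_le_sum (g := fun _ ↦ L * (2 * (d : ℝ) * ε)) fun i _ ↦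
      (abs_hat_sub _ _).trans
        ((hLip _ _ i).trans (mul_le_mul_of_nonneg_left hlv hL))).trans ?_
    simp [Finset.sum_const]
  have hlc : 0 ≤ Real.log c := Real.log_nonneg (by linarith)
  have hma : -s * Real.log (nrm K a) ≤ -((d : ℝ) * Real.log c) := by
    nlinarith [log_nrm_ge ha hc hac, mul_nonneg (by positivity : (0 : ℝ) ≤ (d : ℝ)) hlc]
  have hmb : -s * Real.log (nrm K b) ≤ -((d : ℝ) * Real.log c) := by
    nlinarith [log_nrm_ge hb hc hbc, mul_nonneg (by positivity : (0 : ℝ) ≤ (d : ℝ)) hlc]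
  set E := Real.exp (-((d : ℝ) * Real.log c))
  have hexp : |nrm K a ^ (-s) - nrm K b ^ (-s)| ≤ E * (2 * ((d : ℝ) * ε)) := by
    rw [nrm_rpow ha, nrm_rpow hb]
    refine (abs_exp_sub_exp_le hma hmb).trans (mul_le_mul_of_nonneg_left ?_ (Real.exp_pos _).le)
    rw [← mul_sub, abs_mul, abs_neg, abs_of_nonneg (by linarith : 0 ≤ s)]
    exact mul_le_mul hs2 hlogN (abs_nonneg _) zero_le_two
  have hb' : |nrm K b ^ (-s)| ≤ E := by
    rw [nrm_rpow hb, abs_of_pos (Real.exp_pos _)]; exact Real.exp_le_exp.mpr hmb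
  have hmain : |summand K s a - summand K s b| ≤
      E * (2 * ((d : ℝ) * ε)) + (rank K : ℝ) * (L * (2 * (d : ℝ) * ε)) * E := by
    rw [summand, summand, if_neg ha, if_neg hb]
    calc |wt K a * nrm K a ^ (-s) - wt K b * nrm K b ^ (-s)|
        = |wt K a * (nrm K a ^ (-s) - nrm K b ^ (-s)) + (wt K a - wt K b) * nrm K b ^ (-s)| := by
          ring_nf
      _ ≤ |wt K a| * |nrm K a ^ (-s) - nrm K b ^ (-s)| +
          |wt K a - wt K b| * |nrm K b ^ (-s)| := by
          refine (abs_add_le _ _).trans ?_; rw [abs_mul, abs_mul]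
      _ ≤ 1 * (E * (2 * ((d : ℝ) * ε))) + (rank K : ℝ) * (L * (2 * (d : ℝ) * ε)) * E := by
          gcongr
          rw [abs_of_nonneg (wt_nonneg _)]; exact wt_le_one _
      _ = _ := by ring
  refine hmain.trans (le_of_eq ?_)
  have hE : E = (2 / κ) ^ (d : ℝ) * size K a ^ (-(d : ℝ)) := by
    have : E = c ^ (-(d : ℝ)) := by rw [Real.rpow_def_of_pos hc]; simp only [E]; ring_nf
    rw [this, hc_def, Real.mul_rpow (by positivity) hsa.le, Real.rpow_neg (by positivity),
      ← Real.inv_rpow (by positivity), inv_div]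
  have he : ε = 2 * δ / κ * size K a ^ (-(1 : ℝ)) := by
    rw [Real.rpow_neg_one]; simp only [ε, hc_def]; field_simp
  rw [neg_add, Real.rpow_add hsa, hE, he]
  ring

variable (K) in
/-- The variation of the summand over a bounded translation. -/
lemma exists_variation (δ : ℝ) (hδ : 0 ≤ δ) :
    ∃ C : ℝ, 0 ≤ C ∧ ∀ s : ℝ, 1 ≤ s → s ≤ 2 → ∀ a b : 𝓞 K, size K (a - b) ≤ δ →
      |summand K s a - summand K s b| ≤ C * (1 + size K a) ^ (-((d : ℝ) + 1)) := by
  obtain ⟨C₀, R, hC₀, hR1, hRδ, h⟩ := exists_variation_large K δ hδ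
  set e := (d : ℝ) + 1
  have he : 0 ≤ e := by positivity
  refine ⟨C₀ * (3 : ℝ) ^ e + (3 * R + 1) ^ e, by positivity, fun s hs1 hs2 a b hab ↦ ?_⟩
  have hsa := size_nonneg (K := K) a
  have hpos : 0 < 1 + size K a := by linarith
  have conv : ∀ x k : ℝ, 0 < x → 0 ≤ k → 1 + size K a ≤ k * x →
      x ^ (-e) ≤ k ^ e * (1 + size K a) ^ (-e) := by
    intro x k hx hk hle
    rw [Real.rpow_neg hx.le, Real.rpow_neg hpos.le, ← div_eq_mul_inv,
      le_div_iff₀ (by positivity), inv_mul_le_iff₀ (by positivity),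
      ← Real.mul_rpow hx.le hk]
    exact Real.rpow_le_rpow hpos.le (by linarith) he
  have small : size K a < 3 * R →
      |summand K s a - summand K s b| ≤ (3 * R + 1) ^ e * (1 + size K a) ^ (-e) := by
    intro hlt
    have h1 : (1 : ℝ) ^ (-e) ≤ (3 * R + 1) ^ e * (1 + size K a) ^ (-e) :=
      conv 1 (3 * R + 1) one_pos (by linarith) (by linarith)
    rw [Real.one_rpow] at h1
    refine le_trans ?_ h1
    have := summand_le_one (K := K) (by linarith : 0 ≤ s) a
    have := summand_le_one (K := K) (by linarith : 0 ≤ s) b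
    have := summand_nonneg (K := K) s a
    have := summand_nonneg (K := K) s b
    rw [abs_le]; constructor <;> linarith
  rw [add_mul]
  have p1 : 0 ≤ C₀ * (3 : ℝ) ^ e * (1 + size K a) ^ (-e) := by positivity
  have p2 : 0 ≤ (3 * R + 1) ^ e * (1 + size K a) ^ (-e) := by positivity
  rcases lt_or_ge (size K a) (3 * R) with hlt | hge
  · linarith [small hlt]
  · by_cases hA : a ≠ 0 ∧ wt K a ≠ 0
    · have h1 := h s hs1 hs2 a b hab (by linarith) hA.1 hA.2
      have h2 := mul_le_mul_of_nonneg_left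
        (conv (size K a) 3 (by linarith) (by norm_num) (by linarith)) hC₀
      linarith [h1.trans h2]
    · have hFa : summand K s a = 0 := by
        rw [summand]; split_ifs with h0
        · rfl
        · rw [not_and_not_right] at hA; simp [hA h0]
      by_cases hB : b ≠ 0 ∧ wt K b ≠ 0
      · have hba : size K (b - a) ≤ δ := by rwa [← neg_sub, size_neg]
        have hab2 : size K a ≤ size K b + δ := by
          have := size_add_le b (a - b); rw [add_sub_cancel] at this; linarith
        have h1 := h s hs1 hs2 b a hba (by linarith) hB.1 hB.2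
        rw [abs_sub_comm] at h1
        have h2 := mul_le_mul_of_nonneg_left
          (conv (size K b) 3 (by linarith) (by norm_num) (by linarith)) hC₀
        linarith [h1.trans h2]
      · have hFb : summand K s b = 0 := by
          rw [summand]; split_ifs with h0
          · rfl
          · rw [not_and_not_right] at hB; simp [hB h0]
        simp only [hFa, hFb, sub_self, abs_zero]
        linarith

lemma summable_size_rpow {r : ℝ} (hr : r < -(d : ℝ)) :
    Summable fun a : 𝓞 K ↦ (1 + size K a) ^ r := by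
  classical
  let Λ := mixedEmbedding.integerLattice K
  have hrk : Module.finrank ℤ Λ = d := by
    rw [ZLattice.rank ℝ, mixedEmbedding.finrank]
  have hs := ZLattice.summable_norm_rpow Λ r (by rw [hrk]; exact hr)
  let f : 𝓞 K → Λ := fun a ↦ ⟨mixedEmbedding K (a : K), ⟨a, rfl⟩⟩
  have hf : Function.Injective f := fun a b h ↦
    RingOfIntegers.coe_injective (mixedEmbedding_injective K (congrArg Subtype.val h))
  refine Summable.of_norm_bounded_eventually (g := fun a ↦ ‖f a‖ ^ r) (hs.comp_injective hf) ?_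
  rw [Filter.eventually_cofinite]
  refine (Set.finite_singleton (0 : 𝓞 K)).subset fun a ha ↦ ?_
  by_contra h0
  apply ha
  have hpos : 0 < size K a := (place_pos h0 (Classical.arbitrary _)).trans_le (place_le_size a _)
  rw [Real.norm_of_nonneg (by positivity)]
  exact Real.rpow_le_rpow_of_nonpos hpos (show size K a ≤ 1 + size K a by linarith) (by
    have : (0 : ℝ) ≤ (d : ℝ) := Nat.cast_nonneg _
    linarith)

lemma summable_summand {s : ℝ} (hs : 1 < s) : Summable (summand K s) := by
  set e := (d : ℝ) * s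
  have hd : (0 : ℝ) < (d : ℝ) := by exact_mod_cast Module.finrank_pos
  have he : -e < -(d : ℝ) := by simp only [e]; nlinarith
  refine Summable.of_nonneg_of_le (fun a ↦ summand_nonneg s a) (fun a ↦ ?_)
    ((summable_size_rpow he).mul_left ((2 / coneConst K) ^ e))
  have hsn := size_nonneg (K := K) a
  by_cases hA : a ≠ 0 ∧ wt K a ≠ 0
  · obtain ⟨v, hv⟩ := exists_place_eq_size a
    have hsz : 0 < size K a := hv ▸ place_pos hA.1 v
    have h1 : 1 ≤ size K a := by
      by_contra hlt
      have h2 : nrm K a < 1 := by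
        refine (Finset.prod_lt_prod (g := fun _ ↦ (1 : ℝ)) (fun w _ ↦ pow_pos (place_pos hA.1 w) _)
          (fun w _ ↦ pow_le_one₀ (place_pos hA.1 w).le
            ((place_le_size a w).trans (le_of_not_ge hlt)))
          ⟨v, Finset.mem_univ v, pow_lt_one₀ (place_pos hA.1 v).le
            (hv ▸ lt_of_not_ge hlt) InfinitePlace.mult_ne_zero⟩).trans_eq (by simp)
      exact absurd (one_le_nrm hA.1) (not_le.mpr h2)
    have hl := log_nrm_ge hA.1 (mul_pos coneConst_pos hsz) (cone hA.1 hA.2)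
    have h2 : summand K s a ≤ (coneConst K * size K a) ^ (-e) := by
      rw [summand, if_neg hA.1, nrm_rpow hA.1,
        Real.rpow_def_of_pos (mul_pos coneConst_pos hsz)]
      refine (mul_le_of_le_one_left (Real.exp_pos _).le (wt_le_one a)).trans
        (Real.exp_le_exp.mpr ?_)
      simp only [e]; nlinarith
    refine h2.trans ?_
    rw [Real.rpow_neg (mul_pos coneConst_pos hsz).le, Real.rpow_neg (by linarith : (0:ℝ) ≤ 1 + size K a),
      ← div_eq_mul_inv, le_div_iff₀ (by positivity),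
      inv_mul_le_iff₀ (Real.rpow_pos_of_pos (mul_pos coneConst_pos hsz) _),
      ← Real.mul_rpow (mul_pos coneConst_pos hsz).le (div_pos two_pos coneConst_pos).le]
    refine Real.rpow_le_rpow (by linarith) ?_ (by positivity)
    rw [mul_comm (coneConst K), mul_assoc, mul_div_cancel₀ _ coneConst_pos.ne']
    linarith
  · have : summand K s a = 0 := by
      rw [summand]; split_ifs with h0
      · rfl
      · rw [not_and_not_right] at hA; simp [hA h0]
    rw [this]; have := coneConst_pos (K := K); positivity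

end FLTAgent.ExtVanishing

end
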